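import Mathlib
import Fermat.Prelude.Def_GaloisRep_Adic

set_option autoImplicit false

/-!
# S30, leaf (G1): the common eigen-submodule of a base-changed module

`R` a commutative ring (`ℤ_[p]`), `O` a commutative `R`-algebra (the complete DVR `𝒪'`), `T` an
`R`-module (the Tate module) with an `R`-linear action `ρ0 : G →* End_R T` and a family of
`R`-linear operators `Tl i` (the Hecke operators) commuting with the action, `b : ι → O` an
eigen-system.  On `M := O ⊗[R] T` we have the base-changed action `bcRep ρ0` and the operators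
`(Tl i).baseChange O`;

* `eigenSub Tl b : Submodule O (O ⊗[R] T)` is the common eigen-submodule
  `{x | ∀ i, (Tl i).baseChange O x = b i • x}`;
* it is stable under `bcRep ρ0` (`bcRep_mem_eigenSub`), whence `rhoE : G →* End_O (eigenSub Tl b)`;
* it is saturated (`mem_eigenSub_of_smul_mem`) when `M` is torsion-free;
* relations pass from `T` to `eigenSub` with `Tl i` replaced by the scalar `b i`
  (`rhoE_sq_rel`, `rhoE_inv_rel`), triviality passes (`rhoE_eq_one`);
* if `σ` acts trivially modulo `π ^ n` on `T` then it acts trivially modulo `π ^ n` on `eigenSub`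
  (`rhoE_sub_mem`), whence `GaloisActionIsAdicContinuous O rhoE` (`isAdicContinuous_rhoE`);
* over a PID, `eigenSub` is free and finite (`free_eigenSub`, `finite_eigenSub`), and it is
  nontrivial as soon as a nonzero eigen-tensor exists (`nontrivial_eigenSub`).
-/

namespace Fermat.Agent.S30.EigenSub

open scoped TensorProduct

-- `AddCommGroup ↥E` for `E : Submodule O (O ⊗[R] T)` must be found inside a unification problem
-- (`TensorProduct.addCommGroup` needs a nested instance search); consumers need the same option.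
set_option maxSynthPendingDepth 2

section General

variable {R : Type*} [CommRing R] {O : Type*} [CommRing O] [Algebra R O]
  {T : Type*} [AddCommGroup T] [Module R T] {G : Type*} [Group G] {ι : Type*}

/-- the base-changed representation on `O ⊗[R] T` -/
noncomputable def bcRep (ρ0 : G →* Module.End R T) : G →* Module.End O (O ⊗[R] T) where
  toFun g := (ρ0 g).baseChange O
  map_one' := by rw [map_one, LinearMap.baseChange_one]
  map_mul' g h := by rw [map_mul, LinearMap.baseChange_mul]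

theorem bcRep_apply (ρ0 : G →* Module.End R T) (g : G) :
    bcRep (O := O) ρ0 g = (ρ0 g).baseChange O := rfl

@[simp] theorem bcRep_tmul (ρ0 : G →* Module.End R T) (g : G) (a : O) (t : T) :
    bcRep ρ0 g (a ⊗ₜ[R] t) = a ⊗ₜ[R] ρ0 g t :=
  LinearMap.baseChange_tmul _ _ _

theorem bcRep_eq_one (ρ0 : G →* Module.End R T) {g : G} (hg : ρ0 g = 1) :
    bcRep (O := O) ρ0 g = 1 := by
  rw [bcRep_apply, hg, LinearMap.baseChange_one]

/-- the common eigen-submodule of the base-changed operators -/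
def eigenSub (Tl : ι → Module.End R T) (b : ι → O) : Submodule O (O ⊗[R] T) :=
  ⨅ i, LinearMap.ker ((Tl i).baseChange O - b i • (LinearMap.id : (O ⊗[R] T) →ₗ[O] (O ⊗[R] T)))

theorem mem_eigenSub {Tl : ι → Module.End R T} {b : ι → O} {x : O ⊗[R] T} :
    x ∈ eigenSub Tl b ↔ ∀ i, (Tl i).baseChange O x = b i • x := by
  simp only [eigenSub, Submodule.mem_iInf, LinearMap.mem_ker, LinearMap.sub_apply,
    LinearMap.smul_apply, LinearMap.id_coe, id_eq, sub_eq_zero]

/-- base change of a composite, applied -/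
theorem baseChange_mul_apply (f g : Module.End R T) (x : O ⊗[R] T) :
    (f * g).baseChange O x = f.baseChange O (g.baseChange O x) := by
  rw [LinearMap.baseChange_mul]; rfl

/-- the eigen-submodule is stable under the base-changed action -/
theorem bcRep_mem_eigenSub (ρ0 : G →* Module.End R T) (Tl : ι → Module.End R T) (b : ι → O)
    (hcomm : ∀ g i, ρ0 g * Tl i = Tl i * ρ0 g) (g : G) {x : O ⊗[R] T}
    (hx : x ∈ eigenSub Tl b) : bcRep ρ0 g x ∈ eigenSub Tl b := by
  rw [mem_eigenSub] at hx ⊢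
  intro i
  rw [bcRep_apply, ← baseChange_mul_apply, ← hcomm g i, baseChange_mul_apply, hx i, map_smul]

/-- saturation: the eigen-submodule is the kernel of maps into a torsion-free module -/
theorem mem_eigenSub_of_smul_mem [IsDomain O] [Module.IsTorsionFree O (O ⊗[R] T)]
    {Tl : ι → Module.End R T} {b : ι → O} {a : O} (ha : a ≠ 0) {x : O ⊗[R] T}
    (hx : a • x ∈ eigenSub Tl b) : x ∈ eigenSub Tl b := by
  rw [mem_eigenSub] at hx ⊢
  intro i
  have h := hx i
  rw [map_smul, smul_comm (b i) a x] at h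
  exact smul_right_injective (O ⊗[R] T) ha h

/-- the restricted action on the eigen-submodule -/
noncomputable def rhoE (ρ0 : G →* Module.End R T) (Tl : ι → Module.End R T) (b : ι → O)
    (hcomm : ∀ g i, ρ0 g * Tl i = Tl i * ρ0 g) : G →* Module.End O (eigenSub Tl b) where
  toFun g := (bcRep ρ0 g).restrict (fun _ hx => bcRep_mem_eigenSub ρ0 Tl b hcomm g hx)
  map_one' := by
    ext x
    simp [LinearMap.restrict_apply]
  map_mul' g h := by
    ext x
    simp [LinearMap.restrict_apply]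

@[simp] theorem rhoE_apply_coe (ρ0 : G →* Module.End R T) (Tl : ι → Module.End R T) (b : ι → O)
    (hcomm : ∀ g i, ρ0 g * Tl i = Tl i * ρ0 g) (g : G) (x : eigenSub Tl b) :
    ((rhoE ρ0 Tl b hcomm g x : eigenSub Tl b) : O ⊗[R] T) = bcRep ρ0 g x := rfl

theorem rhoE_eq_one (ρ0 : G →* Module.End R T) (Tl : ι → Module.End R T) (b : ι → O)
    (hcomm : ∀ g i, ρ0 g * Tl i = Tl i * ρ0 g) {g : G} (hg : ρ0 g = 1) :
    rhoE ρ0 Tl b hcomm g = 1 := by
  ext x
  rw [rhoE_apply_coe, bcRep_eq_one ρ0 hg]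
  rfl

/-- an elementwise identity on `T` between `R`-linear maps passes to the base change -/
theorem baseChange_congr {f g : Module.End R T} (h : ∀ t, f t = g t) (x : O ⊗[R] T) :
    f.baseChange O x = g.baseChange O x := by
  have : f = g := LinearMap.ext h
  rw [this]

/-- **Relation transfer, square form.** If `σ² - T_i σ + c = 0` on `T` then
`σ² - b_i σ + c = 0` on the eigen-submodule. -/
theorem rhoE_sq_rel (ρ0 : G →* Module.End R T) (Tl : ι → Module.End R T) (b : ι → O)
    (hcomm : ∀ g i, ρ0 g * Tl i = Tl i * ρ0 g) (σ : G) (i : ι) (c : R)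
    (hrel : ∀ t : T, ρ0 σ (ρ0 σ t) - Tl i (ρ0 σ t) + c • t = 0) :
    rhoE ρ0 Tl b hcomm σ * rhoE ρ0 Tl b hcomm σ - b i • rhoE ρ0 Tl b hcomm σ
      + algebraMap R O c • (1 : Module.End O (eigenSub Tl b)) = 0 := by
  ext x
  have hEnd : ρ0 σ * ρ0 σ - Tl i * ρ0 σ + c • (1 : Module.End R T) = 0 := by
    ext t
    simpa using hrel t
  have h1 := congrArg (fun f : Module.End R T => f.baseChange O (x : O ⊗[R] T)) hEnd
  simp only [LinearMap.baseChange_add, LinearMap.baseChange_sub, LinearMap.baseChange_smul,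
    LinearMap.baseChange_zero, LinearMap.add_apply, LinearMap.sub_apply, LinearMap.smul_apply,
    LinearMap.zero_apply, baseChange_mul_apply, LinearMap.baseChange_one,
    Module.End.one_apply] at h1
  have hx' : bcRep ρ0 σ (x : O ⊗[R] T) ∈ eigenSub Tl b :=
    bcRep_mem_eigenSub ρ0 Tl b hcomm σ x.2
  have h2 := mem_eigenSub.mp hx' i
  rw [bcRep_apply] at h2
  rw [h2] at h1
  simp only [LinearMap.add_apply, LinearMap.sub_apply, LinearMap.smul_apply, Module.End.mul_apply,
    Module.End.one_apply, Submodule.coe_add, Submodule.coe_sub, Submodule.coe_smul,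
    rhoE_apply_coe, bcRep_apply, LinearMap.zero_apply, Submodule.coe_zero, algebraMap_smul]
  exact h1

/-- **Relation transfer, inverse form.** If `σ² - T_i σ + c = 0` on `T` then
`σ + c σ⁻¹ = b_i` on the eigen-submodule. -/
theorem rhoE_inv_rel (ρ0 : G →* Module.End R T) (Tl : ι → Module.End R T) (b : ι → O)
    (hcomm : ∀ g i, ρ0 g * Tl i = Tl i * ρ0 g) (σ : G) (i : ι) (c : R)
    (hrel : ∀ t : T, ρ0 σ (ρ0 σ t) - Tl i (ρ0 σ t) + c • t = 0) :
    rhoE ρ0 Tl b hcomm σ + algebraMap R O c • rhoE ρ0 Tl b hcomm σ⁻¹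
      = b i • (1 : Module.End O (eigenSub Tl b)) := by
  have h := rhoE_sq_rel ρ0 Tl b hcomm σ i c hrel
  have hinv : rhoE ρ0 Tl b hcomm σ * rhoE ρ0 Tl b hcomm σ⁻¹ = 1 := by
    rw [← map_mul, mul_inv_cancel, map_one]
  have hinvx : ∀ x, rhoE ρ0 Tl b hcomm σ (rhoE ρ0 Tl b hcomm σ⁻¹ x) = x := fun x => by
    rw [← Module.End.mul_apply, hinv, Module.End.one_apply]
  refine LinearMap.ext fun x => ?_
  have hx := congrArg (fun f : Module.End O (eigenSub Tl b) => f (rhoE ρ0 Tl b hcomm σ⁻¹ x)) h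
  simp only [LinearMap.add_apply, LinearMap.sub_apply, LinearMap.smul_apply, Module.End.mul_apply,
    Module.End.one_apply, hinvx, LinearMap.zero_apply] at hx
  rw [sub_add_eq_add_sub, sub_eq_zero] at hx
  rw [LinearMap.add_apply, LinearMap.smul_apply, LinearMap.smul_apply, Module.End.one_apply, hx]

/-- `rhoE_sq_rel` with the relation given as an identity in `End_R T` -/
theorem rhoE_sq_rel_of_end (ρ0 : G →* Module.End R T) (Tl : ι → Module.End R T) (b : ι → O)
    (hcomm : ∀ g i, ρ0 g * Tl i = Tl i * ρ0 g) (σ : G) (i : ι) (c : R)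
    (hrel : ρ0 σ * ρ0 σ - Tl i * ρ0 σ + c • (1 : Module.End R T) = 0) :
    rhoE ρ0 Tl b hcomm σ * rhoE ρ0 Tl b hcomm σ - b i • rhoE ρ0 Tl b hcomm σ
      + algebraMap R O c • (1 : Module.End O (eigenSub Tl b)) = 0 :=
  rhoE_sq_rel ρ0 Tl b hcomm σ i c fun t => by
    have := congrArg (fun f : Module.End R T => f t) hrel
    simpa using this

/-- `rhoE_inv_rel` with the relation given as an identity in `End_R T` -/
theorem rhoE_inv_rel_of_end (ρ0 : G →* Module.End R T) (Tl : ι → Module.End R T) (b : ι → O)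
    (hcomm : ∀ g i, ρ0 g * Tl i = Tl i * ρ0 g) (σ : G) (i : ι) (c : R)
    (hrel : ρ0 σ * ρ0 σ - Tl i * ρ0 σ + c • (1 : Module.End R T) = 0) :
    rhoE ρ0 Tl b hcomm σ + algebraMap R O c • rhoE ρ0 Tl b hcomm σ⁻¹
      = b i • (1 : Module.End O (eigenSub Tl b)) :=
  rhoE_inv_rel ρ0 Tl b hcomm σ i c fun t => by
    have := congrArg (fun f : Module.End R T => f t) hrel
    simpa using this

end General

section Continuity

variable {R : Type*} [CommRing R] {O : Type*} [CommRing O] [Algebra R O]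
  {T : Type*} [AddCommGroup T] [Module R T] {G : Type*} [Group G] {ι : Type*}

/-- membership in `(span {π}) ^ n • ⊤` is divisibility by `π ^ n` -/
theorem exists_eq_pow_smul_of_mem (π : R) (n : ℕ) {x : T}
    (hx : x ∈ (Ideal.span {π}) ^ n • (⊤ : Submodule R T)) : ∃ t' : T, x = π ^ n • t' := by
  rw [Ideal.span_singleton_pow, Submodule.ideal_span_singleton_smul] at hx
  obtain ⟨t', -, ht'⟩ := hx
  exact ⟨t', ht'.symm⟩

/-- triviality modulo `π ^ n` passes to the base change -/
theorem bcRep_sub_eq_smul (ρ0 : G →* Module.End R T) (σ : G) (r : R)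
    (h : ∀ t : T, ∃ t' : T, ρ0 σ t - t = r • t') (x : O ⊗[R] T) :
    ∃ x' : O ⊗[R] T, bcRep ρ0 σ x - x = algebraMap R O r • x' := by
  induction x using TensorProduct.induction_on with
  | zero => exact ⟨0, by simp⟩
  | tmul a t =>
    obtain ⟨t', ht'⟩ := h t
    refine ⟨a ⊗ₜ[R] t', ?_⟩
    rw [bcRep_tmul, ← TensorProduct.tmul_sub, ht', TensorProduct.tmul_smul, algebraMap_smul]
  | add x y hx hy =>
    obtain ⟨x', hx'⟩ := hx
    obtain ⟨y', hy'⟩ := hy
    refine ⟨x' + y', ?_⟩
    rw [map_add, add_sub_add_comm, hx', hy', smul_add]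

/-- triviality modulo `r` passes to the eigen-submodule (saturation) -/
theorem rhoE_sub_eq_smul [IsDomain O] [Module.IsTorsionFree O (O ⊗[R] T)]
    (ρ0 : G →* Module.End R T) (Tl : ι → Module.End R T) (b : ι → O)
    (hcomm : ∀ g i, ρ0 g * Tl i = Tl i * ρ0 g) (σ : G) (r : R)
    (h : ∀ t : T, ∃ t' : T, ρ0 σ t - t = r • t') (x : eigenSub Tl b) :
    ∃ x' : eigenSub Tl b, rhoE ρ0 Tl b hcomm σ x - x = algebraMap R O r • x' := by
  by_cases hr : algebraMap R O r = 0
  · refine ⟨0, ?_⟩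
    obtain ⟨y, hy⟩ := bcRep_sub_eq_smul (O := O) ρ0 σ r h (x : O ⊗[R] T)
    rw [hr, zero_smul] at hy
    rw [smul_zero]
    apply Subtype.ext
    rw [Submodule.coe_sub, rhoE_apply_coe, hy, Submodule.coe_zero]
  · obtain ⟨y, hy⟩ := bcRep_sub_eq_smul (O := O) ρ0 σ r h (x : O ⊗[R] T)
    have hmem : algebraMap R O r • y ∈ eigenSub Tl b := by
      rw [← hy]
      exact Submodule.sub_mem _ (bcRep_mem_eigenSub ρ0 Tl b hcomm σ x.2) x.2
    refine ⟨⟨y, mem_eigenSub_of_smul_mem hr hmem⟩, ?_⟩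
    apply Subtype.ext
    rw [Submodule.coe_sub, rhoE_apply_coe, hy]
    rfl

end Continuity

section Adic

variable {R : Type*} [CommRing R] {O : Type} [CommRing O] [IsLocalRing O] [Algebra R O]
  {T : Type} [AddCommGroup T] [Module R T] {ι : Type*}

local notation "GQ" => (AlgebraicClosure ℚ ≃ₐ[ℚ] AlgebraicClosure ℚ)

/-- **Adic continuity on the eigen-submodule** from triviality modulo `π ^ n` on `T` at finite
levels, for any `π : R` whose image lies in the maximal ideal of `O`. -/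
theorem isAdicContinuous_rhoE [IsDomain O] [Module.IsTorsionFree O (O ⊗[R] T)]
    (ρ0 : GQ →* Module.End R T) (Tl : ι → Module.End R T) (b : ι → O)
    (hcomm : ∀ g i, ρ0 g * Tl i = Tl i * ρ0 g) (π : R)
    (hπ : algebraMap R O π ∈ IsLocalRing.maximalIdeal O)
    (hcont : ∀ n : ℕ, ∃ L : IntermediateField ℚ (AlgebraicClosure ℚ), FiniteDimensional ℚ L ∧
      ∀ σ : GQ, (∀ x ∈ L, σ x = x) → ∀ t : T, ∃ t' : T, ρ0 σ t - t = π ^ n • t') :
    GaloisActionIsAdicContinuous O (rhoE ρ0 Tl b hcomm) := by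
  intro n
  obtain ⟨L, hL, h⟩ := hcont n
  refine ⟨L, hL, fun σ hσ v => ?_⟩
  obtain ⟨x', hx'⟩ := rhoE_sub_eq_smul ρ0 Tl b hcomm σ (π ^ n) (h σ hσ) v
  rw [hx', map_pow]
  exact Submodule.smul_mem_smul (Ideal.pow_mem_pow hπ n) Submodule.mem_top

/-- the same for the whole base-changed module `O ⊗[R] T` -/
theorem isAdicContinuous_bcRep
    (ρ0 : GQ →* Module.End R T) (π : R)
    (hπ : algebraMap R O π ∈ IsLocalRing.maximalIdeal O)
    (hcont : ∀ n : ℕ, ∃ L : IntermediateField ℚ (AlgebraicClosure ℚ), FiniteDimensional ℚ L ∧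
      ∀ σ : GQ, (∀ x ∈ L, σ x = x) → ∀ t : T, ∃ t' : T, ρ0 σ t - t = π ^ n • t') :
    GaloisActionIsAdicContinuous O (bcRep (O := O) ρ0) := by
  intro n
  obtain ⟨L, hL, h⟩ := hcont n
  refine ⟨L, hL, fun σ hσ v => ?_⟩
  obtain ⟨x', hx'⟩ := bcRep_sub_eq_smul (O := O) ρ0 σ (π ^ n) (h σ hσ) v
  rw [hx', map_pow]
  exact Submodule.smul_mem_smul (Ideal.pow_mem_pow hπ n) Submodule.mem_top

/-- `isAdicContinuous_rhoE` with the finite-level hypothesis in the spelling
`ρ0 σ t - t ∈ (span {π}) ^ n • ⊤` (the output of `TateModule.map_sub_self_mem`) -/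
theorem isAdicContinuous_rhoE_of_mem [IsDomain O] [Module.IsTorsionFree O (O ⊗[R] T)]
    (ρ0 : GQ →* Module.End R T) (Tl : ι → Module.End R T) (b : ι → O)
    (hcomm : ∀ g i, ρ0 g * Tl i = Tl i * ρ0 g) (π : R)
    (hπ : algebraMap R O π ∈ IsLocalRing.maximalIdeal O)
    (hcont : ∀ n : ℕ, ∃ L : IntermediateField ℚ (AlgebraicClosure ℚ), FiniteDimensional ℚ L ∧
      ∀ σ : GQ, (∀ x ∈ L, σ x = x) →
        ∀ t : T, ρ0 σ t - t ∈ (Ideal.span {π}) ^ n • (⊤ : Submodule R T)) :
    GaloisActionIsAdicContinuous O (rhoE ρ0 Tl b hcomm) :=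
  isAdicContinuous_rhoE ρ0 Tl b hcomm π hπ fun n => by
    obtain ⟨L, hL, h⟩ := hcont n
    exact ⟨L, hL, fun σ hσ t => exists_eq_pow_smul_of_mem π n (h σ hσ t)⟩

end Adic

section PID

variable {R : Type*} [CommRing R] {O : Type*} [CommRing O] [Algebra R O]
  {T : Type*} [AddCommGroup T] [Module R T] {ι : Type*}

theorem isTorsionFree_baseChange [Module.Free R T] : Module.IsTorsionFree O (O ⊗[R] T) :=
  inferInstance

theorem free_eigenSub [IsDomain O] [IsPrincipalIdealRing O] [Module.Free R T] [Module.Finite R T]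
    (Tl : ι → Module.End R T) (b : ι → O) :
    Module.Free O (eigenSub Tl b) := inferInstance

theorem finite_eigenSub [IsNoetherianRing O] [Module.Finite R T]
    (Tl : ι → Module.End R T) (b : ι → O) :
    Module.Finite O (eigenSub Tl b) := inferInstance

theorem nontrivial_eigenSub (Tl : ι → Module.End R T) (b : ι → O)
    (h : ∃ v : O ⊗[R] T, v ≠ 0 ∧ ∀ i, (Tl i).baseChange O v = b i • v) :
    Nontrivial (eigenSub Tl b) := by
  obtain ⟨v, hv0, hv⟩ := h
  refine ⟨⟨⟨v, mem_eigenSub.mpr hv⟩, 0, fun h0 => hv0 ?_⟩⟩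
  exact congrArg Subtype.val h0

end PID

end Fermat.Agent.S30.EigenSub
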