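import Mathlib
import Fermat.Agent.S29.Betti.EigenSupport
import Fermat.Agent.S49.LinAlg
import Fermat.Agent.S16.Lower.LatticeRank

/-!
# S30, leaf (C): a character of the Hecke algebra occurs on the Betti side

`χ : 𝕋_S = heckeAlgebra N 2 S →+* O`, `O` a domain of characteristic zero.  Then there is a nonzero
admissible character `c : Γ₀(N) → O` (`c ∈ Betti.XMod N O O`) with
`T_ℓ c = χ (T_ℓ) • c` for every prime `ℓ ∤ N`, `ℓ ∉ S`.

Chain:
* (a) `S49.exists_eigenchar` at the prime ideal `ker χ`: `w ≠ 0` in `S₂(Γ₀(N))` and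
  `θ : 𝕋_S →+* ℂ` with `T w = θ T • w`, `ker θ ≤ ker χ`; integrality of `𝕋_S` over `ℤ` (S22) and
  characteristic zero give `ker χ ≤ ker θ`;
* (b) `v := periodMap N w` is a nonzero admissible `ℂ`-valued character with eigen-relations
  `θ (T_ℓ)` (`Betti.periodMap_heckeTLin`);
* (c) `EigenReduce.exists_eigen_reduction_generic` over the field `E = Frac (𝕋_S / ker χ)`
  (`𝔓 = ⊥`), with `E → ℂ` induced by `θ` and `E → Frac O` induced by `χ`;
* (d) `Γ₀(N)` is finitely generated: clear denominators.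
-/

set_option autoImplicit false

namespace Fermat.Agent.S30.EigenChar

open CongruenceSubgroup Matrix.SpecialLinearGroup
open ModularCurve ModularCurve.Period
open Fermat.Agent.S29.Betti
open scoped MatrixGroups

noncomputable section

section Algebra

/-- incomparability, by hand: `T` integral over `ℤ`, `θ : T →+* ℂ`, `χ : T →+* O` with `O` a
nontrivial ring of characteristic zero and `ker θ ≤ ker χ`; then `ker χ ≤ ker θ`. -/
theorem ker_le_ker_of_isIntegral {T : Type*} [CommRing T] [Algebra.IsIntegral ℤ T]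
    {O : Type*} [CommRing O] [CharZero O] (θ : T →+* ℂ) (χ : T →+* O)
    (h : RingHom.ker θ ≤ RingHom.ker χ) : RingHom.ker χ ≤ RingHom.ker θ := by
  intro t ht
  rw [RingHom.mem_ker] at ht ⊢
  by_contra hne
  have hint : IsIntegral ℤ (θ t) := (Algebra.IsIntegral.isIntegral (R := ℤ) t).map θ.toIntAlgHom
  have h0 : (minpoly ℤ (θ t)).coeff 0 ≠ 0 := by
    have hq : (minpoly ℚ (θ t)).coeff 0 ≠ 0 :=
      minpoly.coeff_zero_ne_zero hint.tower_top hne
    rw [minpoly.isIntegrallyClosed_eq_field_fractions' ℚ hint, Polynomial.coeff_map] at hq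
    intro h
    apply hq
    rw [h, map_zero]
  -- `P(t) ∈ ker θ`
  have h1 : θ (Polynomial.aeval t (minpoly ℤ (θ t))) = 0 := by
    have := Polynomial.aeval_algHom_apply θ.toIntAlgHom t (minpoly ℤ (θ t))
    have h2 : θ.toIntAlgHom (Polynomial.aeval t (minpoly ℤ (θ t))) = 0 := by
      rw [← this]
      exact minpoly.aeval ℤ (θ t)
    exact h2
  have h3 : χ (Polynomial.aeval t (minpoly ℤ (θ t))) = 0 := h h1
  have h4 : χ.toIntAlgHom (Polynomial.aeval t (minpoly ℤ (θ t))) = 0 := h3
  rw [← Polynomial.aeval_algHom_apply] at h4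
  have h5 : χ.toIntAlgHom t = 0 := ht
  rw [h5, Polynomial.aeval_def, Polynomial.eval₂_at_zero] at h4
  apply h0
  have h6 : ((minpoly ℤ (θ t)).coeff 0 : O) = 0 := by simpa using h4
  exact_mod_cast h6

/-- reduction over a field `E` mapping to `ℂ` and to `K`. -/
theorem exists_reduction_field {E : Type*} [Field E] {K : Type*} [Field K]
    (fθ : E →+* ℂ) (fχ : E →+* K)
    {Γ : Type*} [Group Γ] [Group.FG Γ] {Rr : Type*} (n : Rr → ℕ) (x : ∀ r, Fin (n r) → Γ)
    (y : Rr → Γ) (a : Rr → E) (v : Additive Γ →+ ℂ) (hv : v ≠ 0)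
    (hev : ∀ r, ∑ i, v (Additive.ofMul (x r i)) = fθ (a r) * v (Additive.ofMul (y r))) :
    ∃ c : Additive Γ →+ K, c ≠ 0 ∧
      (∀ g : Γ, v (Additive.ofMul g) = 0 → c (Additive.ofMul g) = 0) ∧
      ∀ r, ∑ i, c (Additive.ofMul (x r i)) = fχ (a r) * c (Additive.ofMul (y r)) := by
  let _ : Algebra E K := fχ.toAlgebra
  let _ : Module E ℂ := Module.compHom ℂ fθ
  have hsmul : ∀ (e : E) (z : ℂ), e • z = fθ e * z := fun e z => rfl
  have hC : ∀ s : E, s ∉ (⊥ : Ideal E) → ∀ z : ℂ, s • z = 0 → z = 0 := by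
    intro s hs z hsz
    rw [hsmul] at hsz
    have hs0 : s ≠ 0 := fun h => hs (by rw [h]; exact Ideal.zero_mem _)
    have : fθ s ≠ 0 := fun h => hs0 ((map_eq_zero fθ).mp h)
    exact (mul_eq_zero.mp hsz).resolve_left this
  have hk : RingHom.ker (algebraMap E K) = (⊥ : Ideal E) :=
    (RingHom.injective_iff_ker_eq_bot _).mp fχ.injective
  exact Fermat.Agent.S29.Eigen.EigenReduce.exists_eigen_reduction_generic n x y a v hv
    (fun r => by rw [hev r, hsmul]) (⊥ : Ideal E) hC hk

/-- reduction along two ring homs `θ : T →+* ℂ`, `χ : T →+* O ⊆ K` with the same kernel. -/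
theorem exists_reduction_of_ker_eq {T : Type*} [CommRing T] {O : Type*} [CommRing O] [IsDomain O]
    {K : Type*} [Field K] [Algebra O K] (hinj : Function.Injective (algebraMap O K))
    (χ : T →+* O) (θ : T →+* ℂ) (hker : RingHom.ker θ = RingHom.ker χ)
    {Γ : Type*} [Group Γ] [Group.FG Γ] {Rr : Type*} (n : Rr → ℕ) (x : ∀ r, Fin (n r) → Γ)
    (y : Rr → Γ) (a : Rr → T) (v : Additive Γ →+ ℂ) (hv : v ≠ 0)
    (hev : ∀ r, ∑ i, v (Additive.ofMul (x r i)) = θ (a r) * v (Additive.ofMul (y r))) :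
    ∃ c : Additive Γ →+ K, c ≠ 0 ∧
      (∀ g : Γ, v (Additive.ofMul g) = 0 → c (Additive.ofMul g) = 0) ∧
      ∀ r, ∑ i, c (Additive.ofMul (x r i)) =
        algebraMap O K (χ (a r)) * c (Additive.ofMul (y r)) := by
  have hprime : (RingHom.ker χ).IsPrime := RingHom.ker_isPrime χ
  have hdom : IsDomain (T ⧸ RingHom.ker χ) := Ideal.Quotient.isDomain (RingHom.ker χ)
  let gχ : T ⧸ RingHom.ker χ →+* K := (algebraMap O K).comp (RingHom.kerLift χ)
  have hgχ : Function.Injective gχ := hinj.comp (RingHom.kerLift_injective χ)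
  let gθ : T ⧸ RingHom.ker χ →+* ℂ := Ideal.Quotient.lift (RingHom.ker χ) θ
    (fun a ha => by rw [← hker] at ha; exact ha)
  have hgθ : Function.Injective gθ :=
    RingHom.lift_injective_of_ker_le_ideal (RingHom.ker χ) _ (by rw [hker])
  have hfθ : ∀ t : T, (IsFractionRing.lift hgθ : FractionRing (T ⧸ RingHom.ker χ) →+* ℂ)
      (algebraMap (T ⧸ RingHom.ker χ) (FractionRing (T ⧸ RingHom.ker χ))
        (Ideal.Quotient.mk (RingHom.ker χ) t)) = θ t := by
    intro t
    rw [IsFractionRing.lift_algebraMap]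
    exact Ideal.Quotient.lift_mk _ _ _
  have hfχ : ∀ t : T, (IsFractionRing.lift hgχ : FractionRing (T ⧸ RingHom.ker χ) →+* K)
      (algebraMap (T ⧸ RingHom.ker χ) (FractionRing (T ⧸ RingHom.ker χ))
        (Ideal.Quotient.mk (RingHom.ker χ) t)) = algebraMap O K (χ t) := by
    intro t
    rw [IsFractionRing.lift_algebraMap]
    rfl
  obtain ⟨c, hc0, hkill, hrel⟩ := exists_reduction_field
    (IsFractionRing.lift hgθ : FractionRing (T ⧸ RingHom.ker χ) →+* ℂ)
    (IsFractionRing.lift hgχ : FractionRing (T ⧸ RingHom.ker χ) →+* K) n x y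
    (fun r => algebraMap (T ⧸ RingHom.ker χ) (FractionRing (T ⧸ RingHom.ker χ))
      (Ideal.Quotient.mk (RingHom.ker χ) (a r))) v hv
    (fun r => by rw [hev r, hfθ])
  exact ⟨c, hc0, hkill, fun r => by rw [hrel r, hfχ]⟩

/-- clearing denominators of a character of a finitely generated group. -/
theorem exists_integral_multiple {O : Type*} [CommRing O] [IsDomain O] (K : Type*) [Field K]
    [Algebra O K] [IsFractionRing O K] {Γ : Type*} [Group Γ] [Group.FG Γ]
    (c : Additive Γ →+ K) :
    ∃ (s : O) (c' : Additive Γ →+ O), s ≠ 0 ∧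
      ∀ g : Additive Γ, algebraMap O K (c' g) = algebraMap O K s * c g := by
  classical
  obtain ⟨G, hG⟩ := Group.FG.out (G := Γ)
  obtain ⟨b, hb⟩ := IsLocalization.exist_integer_multiples_of_finset (nonZeroDivisors O)
    (G.image fun g => c (Additive.ofMul g))
  have hb0 : (b : O) ≠ 0 := nonZeroDivisors.coe_ne_zero b
  let f : O →+ K := (algebraMap O K).toAddMonoidHom
  have hf : Function.Injective f := IsFractionRing.injective O K
  -- all values of `b • c` are integral
  have hmem : ∀ g : Additive Γ, algebraMap O K (b : O) * c g ∈ f.range := by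
    intro g
    have hsub : Additive.toMul g ∈ Subgroup.closure (G : Set Γ) := by rw [hG]; trivial
    have key : ∀ γ ∈ Subgroup.closure (G : Set Γ),
        algebraMap O K (b : O) * c (Additive.ofMul γ) ∈ f.range := by
      intro γ hγ
      induction hγ using Subgroup.closure_induction with
      | mem γ hγ =>
        obtain ⟨z, hz⟩ := hb _ (Finset.mem_image_of_mem _ hγ)
        refine ⟨z, ?_⟩
        rw [Algebra.smul_def] at hz
        exact hz
      | one => rw [ofMul_one, map_zero, mul_zero]; exact f.range.zero_mem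
      | mul γ δ _ _ hγ hδ =>
        rw [ofMul_mul, map_add, mul_add]
        exact f.range.add_mem hγ hδ
      | inv γ _ hγ =>
        rw [ofMul_inv, map_neg, mul_neg]
        exact f.range.neg_mem hγ
    exact key _ hsub
  let φ : Additive Γ →+ K :=
    { toFun := fun g => algebraMap O K (b : O) * c g
      map_zero' := by rw [map_zero, mul_zero]
      map_add' := fun g h => by rw [map_add, mul_add] }
  let c' : Additive Γ →+ O :=
    (AddMonoidHom.ofInjective hf).symm.toAddMonoidHom.comp (φ.codRestrict f.range hmem)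
  refine ⟨b, c', hb0, fun g => ?_⟩
  have := AddMonoidHom.apply_ofInjective_symm hf (φ.codRestrict f.range hmem g)
  exact this

end Algebra

section Eigenvector

variable {N : ℕ} [NeZero N] (S : Set ℕ)

/-- **(a)** the character `χ` of the Hecke algebra occurs, up to an embedding of its image into `ℂ`,
in the space of cusp forms. -/
theorem exists_eigenvector {O : Type*} [CommRing O] [IsDomain O] [CharZero O]
    (χ : CuspForm.heckeAlgebra N 2 S →+* O) :
    ∃ (w : CuspForm (Gamma0 N) 2) (θ : CuspForm.heckeAlgebra N 2 S →+* ℂ), w ≠ 0 ∧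
      (∀ t : CuspForm.heckeAlgebra N 2 S,
        (t : Module.End ℂ (CuspForm (Gamma0 N) 2)) w = θ t • w) ∧
      RingHom.ker θ = RingHom.ker χ := by
  have hfd : FiniteDimensional ℂ (CuspForm (Gamma0 N) 2) :=
    Fermat.Agent.S16.Lower.LatticeRank.finiteDimensional_cuspForm N
  have hfin : Module.Finite ℤ (CuspForm.heckeAlgebra N 2 S) := Fermat.Agent.S22.result N 2 S
  have hint : Algebra.IsIntegral ℤ (CuspForm.heckeAlgebra N 2 S) := Algebra.IsIntegral.of_finite _ _
  let ρ : CuspForm.heckeAlgebra N 2 S →+* Module.End ℂ (CuspForm (Gamma0 N) 2) :=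
    (CuspForm.heckeAlgebra N 2 S).val.toRingHom
  have hprime : (RingHom.ker χ).IsPrime := RingHom.ker_isPrime χ
  obtain ⟨w, θ, hw, hθ, hnv⟩ := Fermat.Agent.S49.exists_eigenchar ρ (RingHom.ker χ)
    (fun s hs h0 => hs (by
      have : s = 0 := Subtype.ext h0
      rw [this]
      exact (RingHom.ker χ).zero_mem))
  have hle : RingHom.ker θ ≤ RingHom.ker χ := by
    intro s hs
    by_contra hsχ
    exact hnv s hsχ hs
  exact ⟨w, θ, hw, hθ, le_antisymm hle (ker_le_ker_of_isIntegral θ χ hle)⟩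

end Eigenvector

section Reduce

variable {N : ℕ} [NeZero N] (S : Set ℕ)

/-- the index type of the relations: primes `ℓ ∤ N` outside `S`, and group elements. -/
abbrev RelIdxS : Type := {q : GoodPrime N // (q.1 : ℕ) ∉ S} × Gamma0 N

/-- **(b) + (c)** a nonzero admissible character with values in a field `K ⊇ O` and eigenvalues
`χ (T_ℓ)`, `ℓ ∤ N`, `ℓ ∉ S`. -/
theorem exists_eigen_char_field {O : Type*} [CommRing O] [IsDomain O] [CharZero O]
    (K : Type*) [Field K] [Algebra O K] (hinj : Function.Injective (algebraMap O K))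
    (χ : CuspForm.heckeAlgebra N 2 S →+* O) :
    ∃ c : Additive (Gamma0 N) →+ K, c ≠ 0 ∧ IsAdmChar c ∧
      ∀ (ℓ : ℕ) [Fact ℓ.Prime] (hℓ : ℓ.Prime) (hℓN : ¬ ℓ ∣ N) (hℓS : ℓ ∉ S),
        heckeHom hℓN K c = algebraMap O K (χ (CuspForm.heckeAlgebra.T hℓ hℓN hℓS)) • c := by
  classical
  obtain ⟨w, θ, hw, hθ, hker⟩ := exists_eigenvector S χ
  -- the complex character
  set v : Additive (Gamma0 N) →+ ℂ := periodMap N w with hv
  have hv0 : v ≠ 0 := periodMap_ne_zero hw
  -- the relations
  let tOf : RelIdxS (N := N) S → CuspForm.heckeAlgebra N 2 S := fun r =>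
    CuspForm.heckeAlgebra.T (k := 2) r.1.1.1.2 r.1.1.2 r.1.2
  have hev : ∀ r : RelIdxS (N := N) S,
      ∑ i, v (Additive.ofMul (relX N (r.1.1, r.2) i)) = θ (tOf r) * v (Additive.ofMul r.2) := by
    intro r
    rw [sum_relX, hv, ← periodMap_heckeTLin r.1.1.1.2 r.1.1.2]
    have h1 : CuspForm.heckeTLin 2 r.1.1.1.2 r.1.1.2 w = θ (tOf r) • w := hθ (tOf r)
    rw [h1, Fermat.Agent.S21.periodMap_smul]
    rfl
  obtain ⟨c, hc0, hkill, hrel⟩ := exists_reduction_of_ker_eq hinj χ θ hker
    (fun r : RelIdxS (N := N) S => relCard N (r.1.1, r.2))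
    (fun r => relX N (r.1.1, r.2)) (fun r => r.2) tOf v hv0 hev
  refine ⟨c, hc0, ?_, ?_⟩
  · rintro γ (hγ | hγ)
    · apply hkill
      have := Fermat.Agent.S21.periodMap_mem_parabolicHoms N w
      rw [mem_parabolicHoms_iff] at this
      exact this γ hγ
    · exact hkill γ (apply_eq_zero_of_isOfFinOrder N v hγ)
  · intro ℓ _ hℓ hℓN hℓS
    refine AddMonoidHom.ext fun γ' => ?_
    obtain ⟨γ, rfl⟩ := Additive.ofMul.surjective γ'
    let r : RelIdxS (N := N) S := (⟨⟨⟨ℓ, hℓ⟩, hℓN⟩, hℓS⟩, γ)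
    have h1 := hrel r
    rw [sum_relX] at h1
    rw [AddMonoidHom.smul_apply, smul_eq_mul]
    exact h1

/-- **S30, leaf (C).**  A character `χ` of the Hecke algebra `𝕋_S` with values in a domain `O` of
characteristic zero occurs on the Betti side: there is a nonzero admissible `O`-valued character
of `Γ₀(N)` on which `T_ℓ` acts by `χ (T_ℓ)` for every prime `ℓ ∤ N`, `ℓ ∉ S`. -/
theorem exists_eigen_XMod {O : Type*} [CommRing O] [IsDomain O] [CharZero O]
    (χ : CuspForm.heckeAlgebra N 2 S →+* O) :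
    ∃ c : XMod N O O, c ≠ 0 ∧
      ∀ (ℓ : ℕ) [Fact ℓ.Prime] (hℓ : ℓ.Prime) (hℓN : ¬ ℓ ∣ N) (hℓS : ℓ ∉ S),
        heckeX hℓN O O c = χ (CuspForm.heckeAlgebra.T hℓ hℓN hℓS) • c := by
  classical
  have hinj : Function.Injective (algebraMap O (FractionRing O)) :=
    IsFractionRing.injective O (FractionRing O)
  obtain ⟨c, hc0, hadm, hrel⟩ := exists_eigen_char_field S (FractionRing O) hinj χ
  obtain ⟨s, c', hs0, hc'⟩ := exists_integral_multiple (O := O) (FractionRing O) c
  have hs0' : algebraMap O (FractionRing O) s ≠ 0 := fun h =>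
    hs0 (hinj (by rw [h, map_zero]))
  have hadm' : IsAdmChar c' := by
    intro γ hγ
    apply hinj
    rw [hc', hadm γ hγ, mul_zero, map_zero]
  refine ⟨⟨c', hadm'⟩, ?_, ?_⟩
  · intro h0
    apply hc0
    refine AddMonoidHom.ext fun g => ?_
    have h1 : c' g = 0 := by
      have := congrArg (fun u : XMod N O O => (u : Additive (Gamma0 N) →+ O) g) h0
      exact this
    have h2 := hc' g
    rw [h1, map_zero] at h2
    exact (mul_eq_zero.mp h2.symm).resolve_left hs0'
  · intro ℓ _ hℓ hℓN hℓS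
    apply Subtype.ext
    rw [heckeX_coe]
    show heckeHom hℓN O c' = χ (CuspForm.heckeAlgebra.T hℓ hℓN hℓS) • c'
    -- compare after composing with `O → Frac O`
    let φ : O →+ FractionRing O := (algebraMap O (FractionRing O)).toAddMonoidHom
    have hφc : φ.comp c' = algebraMap O (FractionRing O) s • c := by
      refine AddMonoidHom.ext fun g => ?_
      rw [AddMonoidHom.comp_apply, AddMonoidHom.smul_apply, smul_eq_mul]
      exact hc' g
    have h1 : φ.comp (heckeHom hℓN O c') =
        φ.comp (χ (CuspForm.heckeAlgebra.T hℓ hℓN hℓS) • c') := by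
      rw [← heckeHom_comp, hφc]
      have h2 : heckeHom hℓN (FractionRing O) (algebraMap O (FractionRing O) s • c) =
          algebraMap O (FractionRing O) s • heckeHom hℓN (FractionRing O) c :=
        (heckeHomL hℓN (FractionRing O) (FractionRing O)).map_smul _ c
      rw [h2, hrel ℓ hℓ hℓN hℓS, smul_comm, ← hφc]
      refine AddMonoidHom.ext fun g => ?_
      rw [AddMonoidHom.smul_apply, AddMonoidHom.comp_apply, AddMonoidHom.comp_apply,
        AddMonoidHom.smul_apply, smul_eq_mul, smul_eq_mul]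
      exact (map_mul (algebraMap O (FractionRing O)) _ _).symm
    refine AddMonoidHom.ext fun g => ?_
    have h3 := congrArg (fun u : Additive (Gamma0 N) →+ FractionRing O => u g) h1
    exact hinj h3

end Reduce

end

end Fermat.Agent.S30.EigenChar
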