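import Mathlib
import Fermat.Agent.S29.Betti.EigenSupport

/-!
# S30, step (C2): the `χ`-eigenvector in `A ⊗[R] H(R)` (PID / flat form)

`R` a PID (`ℤ_[p]`), `A` a commutative ring which is a torsion-free and flat `R`-algebra
(`𝒪'`), `Γ` a finitely generated group.

* `exists_decomp` : an `A`-valued character of `Γ` is `∑ j, c_j • λ_j` with `λ_j ∈ A` linearly
  independent over `R` and `R`-valued characters `c_j`, each killing what `c` kills;
* `eq_zero_of_evT_eq_zero` : the evaluations `A ⊗[R] P → A` are jointly injective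
  (`P ≤ Hom(Γ, R)`), by flatness along `P ↪ R^S`;
* `exists_tensor_eigen` : a nonzero eigen-character `c : Γ → A` of transfer operators gives a
  nonzero common eigenvector in `A ⊗[R] P`;
* `exists_eigen_of_embedding` : transport along an injective equivariant `R`-linear map;
* `exists_tensor_eigen_XMod`, `exists_eigen_XMod_of_embedding` : the instantiation at
  `Γ = Γ₀(N)`, `P = Betti.XMod N R R`, `T q = Betti.heckeX`.
-/

set_option autoImplicit false

namespace Fermat.Agent.S30.TensorEigen

open scoped TensorProduct

noncomputable section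

section Generic

variable {Γ : Type*} [Group Γ]
variable (R : Type*) [CommRing R]
variable {A : Type*} [CommRing A] [Algebra R A]

section Decomp

variable [Group.FG Γ] [IsDomain R] [IsPrincipalIdealRing R] [Module.IsTorsionFree R A]

/-- **Decomposition.**  An `A`-valued character of a f.g. group is `∑ j, c_j • λ_j` with
`λ_j ∈ A` linearly independent over the PID `R` and `R`-valued characters `c_j`, each killing
what `c` kills. -/
theorem exists_decomp (c : Additive Γ →+ A) :
    ∃ (m : ℕ) (lam : Fin m → A) (cj : Fin m → (Additive Γ →+ R)),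
      LinearIndependent R lam ∧
      (∀ g : Additive Γ, c g = ∑ j, (cj j g) • lam j) ∧
      ∀ g : Additive Γ, c g = 0 → ∀ j, cj j g = 0 := by
  classical
  obtain ⟨S, hS⟩ := Group.fg_def.1 (inferInstance : Group.FG Γ)
  let U : Submodule R A :=
    Submodule.span R ((fun g : Γ => c (Additive.ofMul g)) '' (S : Set Γ))
  have hUfin : Module.Finite R U :=
    Module.Finite.span_of_finite R ((Finset.finite_toSet S).image _)
  have hUtf : Module.IsTorsionFree R U :=
    Function.Injective.moduleIsTorsionFree U.subtype U.subtype_injective (fun _ _ => rfl)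
  have hUfree : Module.Free R U := Module.free_of_finite_type_torsion_free'
  have hU : ∀ g : Γ, c (Additive.ofMul g) ∈ U := by
    intro g
    have hg : g ∈ Subgroup.closure (S : Set Γ) := by rw [hS]; trivial
    induction hg using Subgroup.closure_induction with
    | mem g hg => exact Submodule.subset_span ⟨g, hg, rfl⟩
    | one => rw [ofMul_one, map_zero]; exact Submodule.zero_mem _
    | mul g h _ _ hg hh => rw [ofMul_mul, map_add]; exact Submodule.add_mem _ hg hh
    | inv g _ hg => rw [ofMul_inv, map_neg]; exact Submodule.neg_mem _ hg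
  let c' : Additive Γ →+ U :=
    { toFun := fun g => ⟨c g, hU (Additive.toMul g)⟩
      map_zero' := Subtype.ext (map_zero c)
      map_add' := fun g h => Subtype.ext (map_add c g h) }
  let b := Module.finBasis R U
  refine ⟨Module.finrank R U, fun j => (b j : A),
    fun j => (b.coord j).toAddMonoidHom.comp c', ?_, ?_, ?_⟩
  · exact b.linearIndependent.map' U.subtype (Submodule.ker_subtype U)
  · intro g
    have h1 := b.sum_repr (c' g)
    have h2 : ((∑ j, b.repr (c' g) j • b j : U) : A) = c g := by rw [h1]; rfl
    rw [← h2, Submodule.coe_sum]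
    rfl
  · intro g hg j
    have : c' g = 0 := Subtype.ext hg
    show b.coord j (c' g) = 0
    rw [this, map_zero]

end Decomp

variable (P : Submodule R (Additive Γ →+ R))

/-- evaluation at a group element on a submodule of `R`-valued characters. -/
def evP (γ : Γ) : P →ₗ[R] R where
  toFun u := (u : Additive Γ →+ R) (Additive.ofMul γ)
  map_add' _ _ := rfl
  map_smul' _ _ := rfl

/-- evaluation on `A ⊗ P`: `λ ⊗ u ↦ u γ • λ`. -/
def evT (γ : Γ) : A ⊗[R] P →ₗ[R] A :=
  TensorProduct.lift (((LinearMap.lsmul R A).comp (evP R P γ)).flip)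

@[simp] theorem evT_tmul (γ : Γ) (l : A) (u : P) :
    evT R P γ (l ⊗ₜ u) = ((u : Additive Γ →+ R) (Additive.ofMul γ)) • l := by
  simp [evT, evP]

/-- the evaluations on a finite generating set. -/
def evS (S : Finset Γ) : P →ₗ[R] (S → R) :=
  LinearMap.pi fun s => evP R P (s : Γ)

theorem evS_injective {S : Finset Γ} (hS : Subgroup.closure (S : Set Γ) = ⊤) :
    Function.Injective (evS R P S) := by
  intro u v huv
  apply Subtype.ext
  refine AddMonoidHom.ext fun g' => ?_
  obtain ⟨g, rfl⟩ := Additive.ofMul.surjective g'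
  have hg : g ∈ Subgroup.closure (S : Set Γ) := by rw [hS]; trivial
  induction hg using Subgroup.closure_induction with
  | mem g hg => exact congrFun huv ⟨g, hg⟩
  | one => rw [ofMul_one, map_zero, map_zero]
  | mul g h _ _ hg hh => rw [ofMul_mul, map_add, map_add, hg, hh]
  | inv g _ hg => rw [ofMul_inv, map_neg, map_neg, hg]

/-- the evaluations are jointly injective on `A ⊗ P` (`A` flat, `Γ` f.g.). -/
theorem eq_zero_of_evT_eq_zero [Group.FG Γ] [Module.Flat R A] (z : A ⊗[R] P)
    (hz : ∀ γ : Γ, evT R P γ z = 0) : z = 0 := by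
  classical
  obtain ⟨S, hS⟩ := Group.fg_def.1 (inferInstance : Group.FG Γ)
  have hinj : Function.Injective ((evS R P S).lTensor A) :=
    Module.Flat.lTensor_preserves_injective_linearMap (M := A) _ (evS_injective R P hS)
  have hcomp : ((TensorProduct.piScalarRight R R A S).toLinearMap ∘ₗ (evS R P S).lTensor A) =
      LinearMap.pi fun s : S => evT R P (s : Γ) := by
    apply TensorProduct.ext'
    intro l u
    ext s
    simp [evS, evP]
  have h0 : (TensorProduct.piScalarRight R R A S) ((evS R P S).lTensor A z) = 0 := by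
    have := congrArg (fun f => f z) hcomp
    simp only [LinearMap.comp_apply, LinearEquiv.coe_toLinearMap] at this
    rw [this]
    ext s
    exact hz s
  have h1 : (evS R P S).lTensor A z = 0 := by
    have := (TensorProduct.piScalarRight R R A S).injective (h0.trans (map_zero _).symm)
    exact this
  exact hinj (h1.trans (map_zero _).symm)

variable {ι : Type*} (T : ι → P →ₗ[R] P) (m : ι → ℕ) (t : ∀ l, Fin (m l) → Γ → Γ)

/-- **Tensor form (PID / flat).**  `P` a submodule of `R`-valued characters of `Γ` containing
every character that kills the kernel of `c`; `T l` endomorphisms of `P` given by a transfer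
formula `(T l u) γ = ∑ i, u (t l i γ)`; `c` a nonzero `A`-valued character with
`∑ i, c (t l i γ) = b l * c γ`.  Then `A ⊗[R] P` contains a nonzero common eigenvector of the
`T l ⊗ 1` with eigenvalues `b l`. -/
theorem exists_tensor_eigen [Group.FG Γ] [IsDomain R] [IsPrincipalIdealRing R]
    [Module.IsTorsionFree R A] [Module.Flat R A]
    (hT : ∀ (l : ι) (u : P) (γ : Γ), ((T l u : P) : Additive Γ →+ R) (Additive.ofMul γ) =
      ∑ i, (u : Additive Γ →+ R) (Additive.ofMul (t l i γ)))
    (c : Additive Γ →+ A) (hc : c ≠ 0) (b : ι → A)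
    (hcb : ∀ (l : ι) (γ : Γ), ∑ i, c (Additive.ofMul (t l i γ)) = b l * c (Additive.ofMul γ))
    (hP : ∀ u : Additive Γ →+ R, (∀ g, c g = 0 → u g = 0) → u ∈ P) :
    ∃ w : A ⊗[R] P, w ≠ 0 ∧ ∀ l, (T l).baseChange A w = b l • w := by
  classical
  obtain ⟨m', lam, cj, -, hsum, hkill⟩ := exists_decomp R c
  have hcjP : ∀ j, cj j ∈ P := fun j => hP _ (fun g hg => hkill g hg j)
  let w : A ⊗[R] P := ∑ j, lam j ⊗ₜ (⟨cj j, hcjP j⟩ : P)
  have hev : ∀ γ : Γ, evT R P γ w = c (Additive.ofMul γ) := by
    intro γ
    simp only [w, map_sum, evT_tmul]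
    exact (hsum _).symm
  refine ⟨w, ?_, ?_⟩
  · intro hw
    apply hc
    refine AddMonoidHom.ext fun g' => ?_
    obtain ⟨γ, rfl⟩ := Additive.ofMul.surjective g'
    rw [← hev γ, hw, map_zero]
    rfl
  · intro l
    rw [← sub_eq_zero]
    apply eq_zero_of_evT_eq_zero R P
    intro γ
    have h1 : evT R P γ ((T l).baseChange A w) = ∑ i, c (Additive.ofMul (t l i γ)) := by
      simp only [w, map_sum, LinearMap.baseChange_tmul, evT_tmul, hT]
      simp_rw [Finset.sum_smul]
      rw [Finset.sum_comm]
      refine Finset.sum_congr rfl fun i _ => ?_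
      exact (hsum _).symm
    have h2 : evT R P γ (b l • w) = b l * c (Additive.ofMul γ) := by
      simp only [w, Finset.smul_sum, TensorProduct.smul_tmul', map_sum, evT_tmul, smul_eq_mul]
      rw [hsum, Finset.mul_sum]
      refine Finset.sum_congr rfl fun j _ => ?_
      rw [mul_smul_comm]
    rw [map_sub, h1, h2, hcb, sub_self]

/-- **Transport along an injective equivariant `R`-linear map** (`A` flat over `R`). -/
theorem exists_eigen_of_embedding [Module.Flat R A] {M : Type*} [AddCommGroup M] [Module R M]
    (e : P →ₗ[R] M) (he : Function.Injective e) (TM : ι → M →ₗ[R] M)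
    (hcomm : ∀ l u, e (T l u) = TM l (e u)) (b : ι → A)
    (w : A ⊗[R] P) (hw : w ≠ 0) (hwe : ∀ l, (T l).baseChange A w = b l • w) :
    ∃ v : A ⊗[R] M, v ≠ 0 ∧ ∀ l, (TM l).baseChange A v = b l • v := by
  refine ⟨e.baseChange A w, ?_, ?_⟩
  · intro h0
    apply hw
    have hinj : Function.Injective (e.baseChange A) := by
      have := Module.Flat.lTensor_preserves_injective_linearMap (M := A) e he
      intro z z' hzz'
      apply this
      simpa [LinearMap.baseChange_eq_ltensor] using hzz'
    exact hinj (by rw [h0, map_zero])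
  · intro l
    have h1 : (TM l).baseChange A ∘ₗ e.baseChange A = e.baseChange A ∘ₗ (T l).baseChange A := by
      rw [← LinearMap.baseChange_comp, ← LinearMap.baseChange_comp]
      congr 1
      ext u
      exact (hcomm l u).symm
    have h2 := congrArg (fun f => f w) h1
    simp only [LinearMap.comp_apply] at h2
    rw [h2, hwe, map_smul]

end Generic

/-! ### The instantiation at `Γ₀(N)`, `P = XMod N R R`, `T q = heckeX` -/

section XMod

open CongruenceSubgroup Fermat.Agent.S29.Betti

variable (N : ℕ) [NeZero N]
variable (R : Type*) [CommRing R] [IsDomain R] [IsPrincipalIdealRing R]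
variable {A : Type*} [CommRing A] [Algebra R A] [Module.IsTorsionFree R A]
  [Module.Flat R A]

/-- **the `χ`-eigenvector in `A ⊗[R] H(R)`** from a nonzero admissible eigen-character with
values in `A` (character form). -/
theorem exists_tensor_eigen_XMod_of_char (c : Additive (Gamma0 N) →+ A) (hc : c ≠ 0)
    (hadm : IsAdmChar c) (b : GoodPrime N → A)
    (hcb : ∀ q : GoodPrime N, heckeHom q.2 A c = b q • c) :
    ∃ w : A ⊗[R] XMod N R R, w ≠ 0 ∧
      ∀ q : GoodPrime N, (heckeX q.2 R R).baseChange A w = b q • w := by
  refine exists_tensor_eigen R (XMod N R R) (fun q : GoodPrime N => heckeX q.2 R R)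
    (fun q => Fintype.card (OnePoint (ZMod (q.1 : ℕ)))) (stepFin N) ?_ c hc b ?_ ?_
  · intro q u γ
    rw [sum_stepFin]
    rfl
  · intro q γ
    rw [sum_stepFin, hcb q]
    rfl
  · intro u hu γ hγ
    exact hu _ (hadm γ hγ)

/-- the same for an element of `XMod N A A` with `heckeX q c = b q • c` (the output shape of
step (C)). -/
theorem exists_tensor_eigen_XMod (c : XMod N A A) (hc : c ≠ 0) (b : GoodPrime N → A)
    (hcb : ∀ q : GoodPrime N, heckeX q.2 A A c = b q • c) :
    ∃ w : A ⊗[R] XMod N R R, w ≠ 0 ∧
      ∀ q : GoodPrime N, (heckeX q.2 R R).baseChange A w = b q • w := by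
  refine exists_tensor_eigen_XMod_of_char N R (c : Additive (Gamma0 N) →+ A) ?_ c.2 b ?_
  · intro h
    exact hc (Subtype.ext h)
  · intro q
    have := congrArg (fun u : XMod N A A => (u : Additive (Gamma0 N) →+ A)) (hcb q)
    exact this

/-- **`χ` occurs in `A ⊗[R] M`** for every `R`-module `M` with operators `TM q` receiving an
injective equivariant `R`-linear map from `H(R) = XMod N R R` (`M` := the Tate module). -/
theorem exists_eigen_XMod_of_embedding (c : XMod N A A) (hc : c ≠ 0) (b : GoodPrime N → A)
    (hcb : ∀ q : GoodPrime N, heckeX q.2 A A c = b q • c)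
    {M : Type*} [AddCommGroup M] [Module R M] (e : XMod N R R →ₗ[R] M)
    (he : Function.Injective e) (TM : GoodPrime N → M →ₗ[R] M)
    (hcomm : ∀ (q : GoodPrime N) (u : XMod N R R), e (heckeX q.2 R R u) = TM q (e u)) :
    ∃ v : A ⊗[R] M, v ≠ 0 ∧ ∀ q : GoodPrime N, (TM q).baseChange A v = b q • v := by
  obtain ⟨w, hw, hwe⟩ := exists_tensor_eigen_XMod N R c hc b hcb
  exact exists_eigen_of_embedding R (XMod N R R) (fun q : GoodPrime N => heckeX q.2 R R)
    e he TM hcomm b w hw hwe

end XMod

end

end Fermat.Agent.S30.TensorEigen
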