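import Mathlib
import Fermat.Agent.S30.EigenChar
import Fermat.Agent.S30.TensorEigen

/-!
# S30, step (C3): `χ` occurs in `O ⊗[R] M` (junction of `EigenChar` and `TensorEigen`)

`χ : 𝕋_S = heckeAlgebra N 2 S →+* O`, `O` a domain of characteristic zero which is a torsion-free
flat algebra over the PID `R` (`R = ℤ_[p]`, `O = 𝒪'`).

* `exists_tensor_eigen_of_chi` : a nonzero `w ∈ O ⊗[R] XMod N R R` with
  `(T_ℓ ⊗ 1) w = χ (T_ℓ) • w` for every prime `ℓ ∤ N`, `ℓ ∉ S`;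
* `exists_eigen_of_chi` : the same in `O ⊗[R] M` for every `R`-module `M` with operators `TM ℓ`
  receiving an injective equivariant `R`-linear map from `XMod N R R` (`M` := the Tate module
  of `J₀(N)`, `e` := the limit of the Kummer class maps).
-/

set_option autoImplicit false

namespace Fermat.Agent.S30.ChiOccurs

open CongruenceSubgroup Fermat.Agent.S29.Betti
open scoped TensorProduct

noncomputable section

variable (N : ℕ) [NeZero N] (S : Set ℕ)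
variable (R : Type*) [CommRing R] [IsDomain R] [IsPrincipalIdealRing R]
variable {O : Type*} [CommRing O] [IsDomain O] [CharZero O] [Algebra R O]
  [Module.IsTorsionFree R O] [Module.Flat R O]

/-- the primes `ℓ ∤ N`, `ℓ ∉ S`. -/
abbrev PrimeOut : Type := {ℓ : Nat.Primes // ¬ (ℓ : ℕ) ∣ N ∧ (ℓ : ℕ) ∉ S}

instance instFactPrimeOut (i : PrimeOut N S) : Fact (i.1 : ℕ).Prime := ⟨i.1.2⟩

/-- forget `ℓ ∉ S`. -/
def toGood (i : PrimeOut N S) : GoodPrime N := ⟨i.1, i.2.1⟩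

/-- **`χ` occurs in `O ⊗[R] H(R)`.** -/
theorem exists_tensor_eigen_of_chi (χ : CuspForm.heckeAlgebra N 2 S →+* O) :
    ∃ w : O ⊗[R] XMod N R R, w ≠ 0 ∧
      ∀ (ℓ : ℕ) [Fact ℓ.Prime] (hℓ : ℓ.Prime) (hℓN : ¬ ℓ ∣ N) (hℓS : ℓ ∉ S),
        (heckeX hℓN R R).baseChange O w = χ (CuspForm.heckeAlgebra.T hℓ hℓN hℓS) • w := by
  obtain ⟨c, hc, hcb⟩ := Fermat.Agent.S30.EigenChar.exists_eigen_XMod (N := N) S χ
  have hc' : (c : Additive (Gamma0 N) →+ O) ≠ 0 := fun h => hc (Subtype.ext h)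
  obtain ⟨w, hw, hwe⟩ := Fermat.Agent.S30.TensorEigen.exists_tensor_eigen R (XMod N R R)
    (fun i : PrimeOut N S => heckeX (toGood N S i).2 R R)
    (fun i => Fintype.card (OnePoint (ZMod ((toGood N S i).1 : ℕ))))
    (fun i => stepFin N (toGood N S i))
    (fun i u γ => by
      rw [sum_stepFin]
      rfl)
    (c : Additive (Gamma0 N) →+ O) hc'
    (fun i => χ (CuspForm.heckeAlgebra.T i.1.2 i.2.1 i.2.2))
    (fun i γ => by
      rw [sum_stepFin]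
      have := congrArg (fun u : XMod N O O => (u : Additive (Gamma0 N) →+ O))
        (hcb (i.1 : ℕ) i.1.2 i.2.1 i.2.2)
      exact DFunLike.congr_fun this (Additive.ofMul γ))
    (fun u hu γ hγ => hu _ (c.2 γ hγ))
  refine ⟨w, hw, ?_⟩
  intro ℓ _ hℓ hℓN hℓS
  exact hwe ⟨⟨ℓ, hℓ⟩, hℓN, hℓS⟩

/-- **`χ` occurs in `O ⊗[R] M`** for every `R`-module `M` with operators `TM ℓ` receiving an
injective equivariant `R`-linear map from `H(R) = XMod N R R`. -/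
theorem exists_eigen_of_chi (χ : CuspForm.heckeAlgebra N 2 S →+* O)
    {M : Type*} [AddCommGroup M] [Module R M] (e : XMod N R R →ₗ[R] M)
    (he : Function.Injective e)
    (TM : ∀ (ℓ : ℕ), ℓ.Prime → ¬ ℓ ∣ N → M →ₗ[R] M)
    (hcomm : ∀ (ℓ : ℕ) [Fact ℓ.Prime] (hℓ : ℓ.Prime) (hℓN : ¬ ℓ ∣ N) (u : XMod N R R),
      e (heckeX hℓN R R u) = TM ℓ hℓ hℓN (e u)) :
    ∃ v : O ⊗[R] M, v ≠ 0 ∧
      ∀ (ℓ : ℕ) (hℓ : ℓ.Prime) (hℓN : ¬ ℓ ∣ N) (hℓS : ℓ ∉ S),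
        (TM ℓ hℓ hℓN).baseChange O v = χ (CuspForm.heckeAlgebra.T hℓ hℓN hℓS) • v := by
  obtain ⟨w, hw, hwe⟩ := exists_tensor_eigen_of_chi N S R χ
  obtain ⟨v, hv, hve⟩ := Fermat.Agent.S30.TensorEigen.exists_eigen_of_embedding R (XMod N R R)
    (fun i : PrimeOut N S => heckeX (toGood N S i).2 R R) e he
    (fun i : PrimeOut N S => TM (i.1 : ℕ) i.1.2 i.2.1)
    (fun i u => hcomm (i.1 : ℕ) i.1.2 i.2.1 u)
    (fun i => χ (CuspForm.heckeAlgebra.T i.1.2 i.2.1 i.2.2)) w hw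
    (fun i => hwe (i.1 : ℕ) i.1.2 i.2.1 i.2.2)
  refine ⟨v, hv, ?_⟩
  intro ℓ hℓ hℓN hℓS
  exact hve ⟨⟨ℓ, hℓ⟩, hℓN, hℓS⟩

end

end Fermat.Agent.S30.ChiOccurs
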