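import Mathlib
import Fermat.Prelude.Thm_IsAdicComplete_of_module_finite

set_option autoImplicit false

/-!
# The abstract `p`-adic Tate module of an additive commutative group  (S30, leaf T)

For an additive commutative group `A` and a prime `p`, `tate A p` is the group of sequences
`x : ℕ → A` with `x 0 = 0` and `p • x (k+1) = x k` (so `p ^ k • x k = 0`), i.e.
`lim_k A[p^k]` along multiplication by `p`.  It is a `ℤ_[p]`-module, torsion-free and `p`-adically
separated; it is finitely generated (hence free) as soon as `A[p]` is finite; it is functorial in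
`A`; relations which hold on all `A[p^k]` hold on `tate A p`; an endomorphism which is the identity
on `A[p^n]` is the identity modulo `p ^ n`.
-/

namespace Fermat.Agent.S30.TateModule

variable (A : Type*) [AddCommGroup A] (p : ℕ)

/-- the Tate module `lim_k A[p^k]`. -/
def tate : AddSubgroup (ℕ → A) where
  carrier := {x | x 0 = 0 ∧ ∀ k, p • x (k + 1) = x k}
  zero_mem' := ⟨rfl, fun k => by simp⟩
  add_mem' := by
    rintro x y ⟨hx0, hx⟩ ⟨hy0, hy⟩
    refine ⟨by simp [hx0, hy0], fun k => ?_⟩
    simp only [Pi.add_apply, smul_add, hx k, hy k]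
  neg_mem' := by
    rintro x ⟨hx0, hx⟩
    refine ⟨by simp [hx0], fun k => ?_⟩
    simp only [Pi.neg_apply, smul_neg, hx k]

variable {A p}

theorem mem_tate {x : ℕ → A} : x ∈ tate A p ↔ x 0 = 0 ∧ ∀ k, p • x (k + 1) = x k := Iff.rfl

@[simp] theorem coe_zero_apply (x : tate A p) : (x : ℕ → A) 0 = 0 := x.2.1

theorem smul_succ (x : tate A p) (k : ℕ) : p • (x : ℕ → A) (k + 1) = (x : ℕ → A) k := x.2.2 k

theorem pow_smul_add (x : tate A p) (k j : ℕ) : p ^ j • (x : ℕ → A) (k + j) = (x : ℕ → A) k := by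
  induction j with
  | zero => simp
  | succ j ih =>
    rw [pow_succ, mul_smul, ← add_assoc, smul_succ, ih]

theorem pow_smul_self (x : tate A p) (k : ℕ) : p ^ k • (x : ℕ → A) k = 0 := by
  have h := pow_smul_add x 0 k
  rw [zero_add] at h
  rw [h, coe_zero_apply]

@[ext] theorem ext {x y : tate A p} (h : ∀ k, (x : ℕ → A) k = (y : ℕ → A) k) : x = y :=
  Subtype.ext (funext h)

/-- `m • y` only depends on `m` modulo `p ^ k` if `p ^ k • y = 0` -/
theorem nsmul_congr {y : A} {k : ℕ} (hy : p ^ k • y = 0) {m n : ℕ}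
    (h : (m : ZMod (p ^ k)) = (n : ZMod (p ^ k))) : m • y = n • y := by
  rw [ZMod.natCast_eq_natCast_iff] at h
  wlog hmn : m ≤ n generalizing m n
  · exact (this h.symm (le_of_not_ge hmn)).symm
  obtain ⟨t, ht⟩ := (Nat.modEq_iff_dvd' hmn).mp h
  have : n = m + p ^ k * t := by omega
  rw [this, add_smul, mul_comm, mul_smul, hy, smul_zero, add_zero]

/-! ### The `ℤ_[p]`-module structure -/

variable [hp : Fact p.Prime]

theorem val_toZModPow_succ_cast (a : ℤ_[p]) (k : ℕ) :
    (((PadicInt.toZModPow (k + 1) a).val : ℕ) : ZMod (p ^ k))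
      = (((PadicInt.toZModPow k a).val : ℕ) : ZMod (p ^ k)) := by
  have : NeZero (p ^ k) := ⟨pow_ne_zero _ hp.out.ne_zero⟩
  have : NeZero (p ^ (k + 1)) := ⟨pow_ne_zero _ hp.out.ne_zero⟩
  rw [ZMod.natCast_val, ZMod.natCast_val, ZMod.cast_id', id,
    PadicInt.cast_toZModPow k (k + 1) (Nat.le_succ k)]

/-- the scalar action of `ℤ_[p]`, componentwise through `ℤ_[p] → ℤ/p^k`. -/
noncomputable def smulFun (a : ℤ_[p]) (x : ℕ → A) : ℕ → A :=
  fun k => (PadicInt.toZModPow k a).val • x k

theorem smulFun_mem (a : ℤ_[p]) {x : ℕ → A} (hx : x ∈ tate A p) : smulFun a x ∈ tate A p := by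
  refine ⟨?_, fun k => ?_⟩
  · show _ • x 0 = 0
    rw [hx.1, smul_zero]
  · show p • ((PadicInt.toZModPow (k + 1) a).val • x (k + 1)) = (PadicInt.toZModPow k a).val • x k
    rw [smul_comm, hx.2 k]
    exact nsmul_congr (pow_smul_self ⟨x, hx⟩ k) (val_toZModPow_succ_cast a k)

noncomputable instance instSMul : SMul ℤ_[p] (tate A p) :=
  ⟨fun a x => ⟨smulFun a x, smulFun_mem a x.2⟩⟩

theorem smul_apply (a : ℤ_[p]) (x : tate A p) (k : ℕ) :
    ((a • x : tate A p) : ℕ → A) k = (PadicInt.toZModPow k a).val • (x : ℕ → A) k := rfl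

/-- the action of `a` on the `k`-th component is by any natural number congruent to `a` -/
theorem smul_apply_of_cast (a : ℤ_[p]) (x : tate A p) (k : ℕ) (n : ℕ)
    (h : PadicInt.toZModPow k a = (n : ZMod (p ^ k))) :
    ((a • x : tate A p) : ℕ → A) k = n • (x : ℕ → A) k := by
  have : NeZero (p ^ k) := ⟨pow_ne_zero _ hp.out.ne_zero⟩
  rw [smul_apply]
  apply nsmul_congr (pow_smul_self x k)
  rw [ZMod.natCast_zmod_val, h]

noncomputable instance instModule : Module ℤ_[p] (tate A p) where
  one_smul x := by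
    ext k
    rw [smul_apply_of_cast 1 x k 1 (by rw [map_one, Nat.cast_one]), one_smul]
  mul_smul a b x := by
    ext k
    have : NeZero (p ^ k) := ⟨pow_ne_zero _ hp.out.ne_zero⟩
    rw [smul_apply_of_cast (a * b) x k
      ((PadicInt.toZModPow k a).val * (PadicInt.toZModPow k b).val)
      (by rw [map_mul, Nat.cast_mul, ZMod.natCast_zmod_val, ZMod.natCast_zmod_val]),
      smul_apply, smul_apply, mul_smul]
  smul_zero a := by
    ext k
    rw [smul_apply]
    exact smul_zero _
  smul_add a x y := by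
    ext k
    rw [smul_apply]
    exact smul_add _ _ _
  add_smul a b x := by
    ext k
    have : NeZero (p ^ k) := ⟨pow_ne_zero _ hp.out.ne_zero⟩
    rw [smul_apply_of_cast (a + b) x k
      ((PadicInt.toZModPow k a).val + (PadicInt.toZModPow k b).val)
      (by rw [map_add, Nat.cast_add, ZMod.natCast_zmod_val, ZMod.natCast_zmod_val]),
      add_smul]
    rfl
  zero_smul x := by
    ext k
    rw [smul_apply_of_cast 0 x k 0 (by rw [map_zero, Nat.cast_zero]), zero_smul]
    rfl

theorem natCast_smul_apply (n : ℕ) (x : tate A p) (k : ℕ) :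
    (((n : ℤ_[p]) • x : tate A p) : ℕ → A) k = n • (x : ℕ → A) k :=
  smul_apply_of_cast _ x k n (map_natCast _ n)

theorem p_smul_apply_succ (x : tate A p) (k : ℕ) :
    (((p : ℤ_[p]) • x : tate A p) : ℕ → A) (k + 1) = (x : ℕ → A) k := by
  rw [natCast_smul_apply, smul_succ]

theorem p_pow_smul_apply_add (x : tate A p) (m k : ℕ) :
    ((((p : ℤ_[p]) ^ m) • x : tate A p) : ℕ → A) (k + m) = (x : ℕ → A) k := by
  have h : ((p : ℤ_[p]) ^ m) = ((p ^ m : ℕ) : ℤ_[p]) := by push_cast; rfl
  rw [h, natCast_smul_apply, pow_smul_add]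

/-! ### Torsion-freeness and separatedness -/

omit hp in
/-- the shift of an element whose first components vanish -/
def shift (m : ℕ) (x : tate A p) (h : (x : ℕ → A) m = 0) : tate A p :=
  ⟨fun k => (x : ℕ → A) (k + m), by
    refine ⟨by show (x : ℕ → A) (0 + m) = 0; rw [zero_add]; exact h, fun k => ?_⟩
    have : k + 1 + m = (k + m) + 1 := by omega
    show p • (x : ℕ → A) (k + 1 + m) = (x : ℕ → A) (k + m)
    rw [this, smul_succ]⟩

omit hp in
theorem shift_apply (m : ℕ) (x : tate A p) (h : (x : ℕ → A) m = 0) (k : ℕ) :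
    (shift m x h : ℕ → A) k = (x : ℕ → A) (k + m) := rfl

omit hp in
theorem apply_eq_zero_of_le (x : tate A p) {m k : ℕ} (hkm : k ≤ m) (h : (x : ℕ → A) m = 0) :
    (x : ℕ → A) k = 0 := by
  obtain ⟨j, rfl⟩ := Nat.exists_eq_add_of_le hkm
  rw [← pow_smul_add x k j, h, smul_zero]

theorem p_pow_smul_apply_of_le (y : tate A p) {m k : ℕ} (hkm : k ≤ m) :
    ((((p : ℤ_[p]) ^ m) • y : tate A p) : ℕ → A) k = 0 := by
  have h : ((p : ℤ_[p]) ^ m) = ((p ^ m : ℕ) : ℤ_[p]) := by push_cast; rfl
  obtain ⟨j, rfl⟩ := Nat.exists_eq_add_of_le hkm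
  rw [h, natCast_smul_apply, pow_add, mul_comm, mul_smul, pow_smul_self, smul_zero]

theorem p_pow_smul_shift (m : ℕ) (x : tate A p) (h : (x : ℕ → A) m = 0) :
    ((p : ℤ_[p]) ^ m) • shift m x h = x := by
  ext k
  rcases le_total k m with hkm | hmk
  · rw [p_pow_smul_apply_of_le _ hkm, apply_eq_zero_of_le x hkm h]
  · obtain ⟨j, rfl⟩ := Nat.exists_eq_add_of_le hmk
    rw [add_comm m j, p_pow_smul_apply_add, shift_apply]

/-- `x ∈ p^m T` iff the `m`-th component of `x` vanishes -/
theorem exists_eq_p_pow_smul_iff (x : tate A p) (m : ℕ) :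
    (∃ y : tate A p, ((p : ℤ_[p]) ^ m) • y = x) ↔ (x : ℕ → A) m = 0 := by
  constructor
  · rintro ⟨y, rfl⟩
    exact p_pow_smul_apply_of_le y le_rfl
  · intro h
    exact ⟨shift m x h, p_pow_smul_shift m x h⟩

theorem p_smul_eq_zero {x : tate A p} (h : (p : ℤ_[p]) • x = 0) : x = 0 := by
  ext k
  rw [← p_smul_apply_succ x k, h]
  rfl

theorem p_pow_smul_eq_zero {x : tate A p} {m : ℕ} (h : ((p : ℤ_[p]) ^ m) • x = 0) : x = 0 := by
  induction m with
  | zero => simpa using h
  | succ m ih =>
    rw [pow_succ', mul_smul] at h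
    exact ih (p_smul_eq_zero h)

instance instIsTorsionFree : Module.IsTorsionFree ℤ_[p] (tate A p) := by
  apply Module.IsTorsionFree.of_smul_eq_zero
  intro a x hax
  by_cases ha : a = 0
  · exact Or.inl ha
  · right
    have h1 := PadicInt.unitCoeff_spec ha
    rw [h1, mul_smul] at hax
    have h2 : ((p : ℤ_[p]) ^ a.valuation) • x = 0 := by
      have h3 := congrArg (fun z => (((PadicInt.unitCoeff ha)⁻¹ : ℤ_[p]ˣ) : ℤ_[p]) • z) hax
      simp only [smul_zero] at h3
      rwa [← mul_smul, Units.inv_mul, one_smul] at h3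
    exact p_pow_smul_eq_zero h2

theorem mem_span_pow_smul_top_iff (x : tate A p) (m : ℕ) :
    x ∈ ((Ideal.span {(p : ℤ_[p])}) ^ m • (⊤ : Submodule ℤ_[p] (tate A p))) ↔
      (x : ℕ → A) m = 0 := by
  rw [Ideal.span_singleton_pow, Submodule.ideal_span_singleton_smul,
    ← exists_eq_p_pow_smul_iff]
  constructor
  · intro hx
    obtain ⟨y, -, hy⟩ := (Submodule.mem_smul_pointwise_iff_exists _ _ _).mp hx
    exact ⟨y, hy⟩
  · rintro ⟨y, hy⟩
    exact (Submodule.mem_smul_pointwise_iff_exists _ _ _).mpr ⟨y, Submodule.mem_top, hy⟩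

instance instIsHausdorff : IsHausdorff (Ideal.span {(p : ℤ_[p])}) (tate A p) := by
  refine ⟨fun x hx => ?_⟩
  ext k
  have h := hx k
  rw [SModEq.zero, mem_span_pow_smul_top_iff] at h
  rw [h]
  rfl

/-! ### Finite generation -/

section Finite

variable (A p)

/-- the ideal `(p)` of `ℤ_[p]` -/
noncomputable abbrev pIdeal : Ideal ℤ_[p] := Ideal.span {(p : ℤ_[p])}

omit hp in
/-- the first component, in `A[p]` -/
def first (x : tate A p) : {a : A // p • a = 0} :=
  ⟨(x : ℕ → A) 1, by rw [smul_succ, coe_zero_apply]⟩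

theorem first_injective_on_quotient (x y : tate A p) (h : first A p x = first A p y) :
    (Submodule.Quotient.mk x : tate A p ⧸ (pIdeal p • (⊤ : Submodule ℤ_[p] (tate A p)))) =
      Submodule.Quotient.mk y := by
  rw [Submodule.Quotient.eq]
  have h1 : ((x - y : tate A p) : ℕ → A) 1 = 0 := by
    have := congrArg Subtype.val h
    show (x : ℕ → A) 1 - (y : ℕ → A) 1 = 0
    rw [sub_eq_zero]
    exact this
  have h2 := (mem_span_pow_smul_top_iff (x - y) 1).mpr h1
  rwa [pow_one] at h2

instance instFiniteQuotient [Finite {a : A // p • a = 0}] :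
    Finite (tate A p ⧸ (pIdeal p • (⊤ : Submodule ℤ_[p] (tate A p)))) := by
  apply Finite.of_injective (fun q => first A p (Quotient.out q))
  intro q q' h
  have h1 := first_injective_on_quotient A p _ _ h
  have e : ∀ q : tate A p ⧸ (pIdeal p • (⊤ : Submodule ℤ_[p] (tate A p))),
      Submodule.Quotient.mk (Quotient.out q) = q := fun q => Quotient.out_eq q
  rwa [e, e] at h1

instance instIsAdicCompleteP : IsAdicComplete (pIdeal p) ℤ_[p] := by
  have h : pIdeal p = IsLocalRing.maximalIdeal ℤ_[p] := PadicInt.maximalIdeal_eq_span_p.symm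
  rw [h]
  infer_instance

/-- **the Tate module is finitely generated over `ℤ_[p]` as soon as `A[p]` is finite.** -/
instance instModuleFinite [Finite {a : A // p • a = 0}] : Module.Finite ℤ_[p] (tate A p) := by
  classical
  let Q := tate A p ⧸ (pIdeal p • (⊤ : Submodule ℤ_[p] (tate A p)))
  let _ : Fintype Q := Fintype.ofFinite Q
  let v : Q → tate A p := fun q => Quotient.out q
  let f : (Q → ℤ_[p]) →ₗ[ℤ_[p]] tate A p := Fintype.linearCombination ℤ_[p] v
  have : IsAdicComplete (pIdeal p) (Q → ℤ_[p]) := IsAdicComplete.of_module_finite _ _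
  have hsurj : Function.Surjective
      ((pIdeal p • (⊤ : Submodule ℤ_[p] (tate A p))).mkQ ∘ₗ f) := by
    intro q
    refine ⟨Pi.single q 1, ?_⟩
    show Submodule.Quotient.mk (f (Pi.single q 1)) = q
    have : f (Pi.single q 1) = v q := by
      show Fintype.linearCombination ℤ_[p] v (Pi.single q 1) = v q
      rw [Fintype.linearCombination_apply_single, one_smul]
    rw [this]
    exact Quotient.out_eq q
  have hf : Function.Surjective f := surjective_of_mkQ_comp_surjective (I := pIdeal p) hsurj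
  exact Module.Finite.of_surjective f hf

/-- **the Tate module is free over `ℤ_[p]` as soon as `A[p]` is finite.** -/
instance instModuleFree [Finite {a : A // p • a = 0}] : Module.Free ℤ_[p] (tate A p) :=
  Module.free_of_finite_type_torsion_free'

end Finite

/-! ### Additive maps into a Tate module are `ℤ_[p]`-linear -/

/-- **every additive map from a `ℤ_[p]`-module to a Tate module is `ℤ_[p]`-linear** (the Tate module
is `p`-adically separated and `ℕ` is dense in `ℤ_[p]`). -/
theorem map_padic_smul {M : Type*} [AddCommGroup M] [Module ℤ_[p] M] (g : M →+ tate A p)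
    (a : ℤ_[p]) (m : M) : g (a • m) = a • g m := by
  ext k
  -- write `a = n + p^k b`
  obtain ⟨b, hb⟩ := Ideal.mem_span_singleton.mp (PadicInt.appr_spec k a)
  have ha : a = (a.appr k : ℤ_[p]) + (p : ℤ_[p]) ^ k * b := by rw [← hb]; ring
  have h1 : g (a • m) = (a.appr k : ℤ_[p]) • g m + ((p : ℤ_[p]) ^ k) • g (b • m) := by
    conv_lhs => rw [ha]
    rw [add_smul, map_add, mul_smul]
    have e1 : ∀ (n : ℕ) (z : M), g ((n : ℤ_[p]) • z) = (n : ℤ_[p]) • g z := by
      intro n z
      rw [Nat.cast_smul_eq_nsmul, Nat.cast_smul_eq_nsmul, map_nsmul]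
    have e2 : ((p : ℤ_[p]) ^ k) = ((p ^ k : ℕ) : ℤ_[p]) := by push_cast; rfl
    rw [e1, e2, e1]
  have h2 : a • g m = (a.appr k : ℤ_[p]) • g m + ((p : ℤ_[p]) ^ k) • (b • g m) := by
    conv_lhs => rw [ha]
    rw [add_smul, mul_smul]
  rw [h1, h2]
  show ((_ : tate A p) : ℕ → A) k + ((_ : tate A p) : ℕ → A) k
    = ((_ : tate A p) : ℕ → A) k + ((_ : tate A p) : ℕ → A) k
  rw [p_pow_smul_apply_of_le _ le_rfl, p_pow_smul_apply_of_le _ le_rfl]

/-- an additive map into a Tate module, as a linear map -/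
noncomputable def toLinear {M : Type*} [AddCommGroup M] [Module ℤ_[p] M] (g : M →+ tate A p) :
    M →ₗ[ℤ_[p]] tate A p where
  toFun := g
  map_add' := map_add g
  map_smul' := map_padic_smul g

@[simp] theorem toLinear_apply {M : Type*} [AddCommGroup M] [Module ℤ_[p] M] (g : M →+ tate A p)
    (m : M) : toLinear g m = g m := rfl

/-! ### Functoriality -/

section Functor

variable {B C : Type*} [AddCommGroup B] [AddCommGroup C]

omit hp in
theorem map_mem (f : A →+ B) {x : ℕ → A} (hx : x ∈ tate A p) : (fun k => f (x k)) ∈ tate B p := by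
  refine ⟨?_, fun k => ?_⟩
  · show f (x 0) = 0
    rw [hx.1, map_zero]
  · show p • f (x (k + 1)) = f (x k)
    rw [← map_nsmul, hx.2 k]

/-- functoriality of the Tate module, additive version (no primality needed) -/
def mapAdd (f : A →+ B) : tate A p →+ tate B p where
  toFun x := ⟨fun k => f ((x : ℕ → A) k), map_mem f x.2⟩
  map_zero' := by
    apply Subtype.ext
    funext k
    exact map_zero f
  map_add' x y := by
    apply Subtype.ext
    funext k
    exact map_add f _ _

/-- **functoriality of the Tate module** -/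
noncomputable def map (f : A →+ B) : tate A p →ₗ[ℤ_[p]] tate B p := toLinear (mapAdd f)

@[simp] theorem map_apply (f : A →+ B) (x : tate A p) (k : ℕ) :
    ((map f x : tate B p) : ℕ → B) k = f ((x : ℕ → A) k) := rfl

theorem map_id : map (AddMonoidHom.id A) = (LinearMap.id : tate A p →ₗ[ℤ_[p]] tate A p) := by
  ext x k
  rfl

theorem map_comp (g : B →+ C) (f : A →+ B) :
    (map (g.comp f) : tate A p →ₗ[ℤ_[p]] tate C p) = (map g).comp (map f) := by
  ext x k
  rfl

theorem map_add' (f g : A →+ B) :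
    (map (f + g) : tate A p →ₗ[ℤ_[p]] tate B p) = map f + map g := by
  ext x k
  rfl

theorem map_zero' : (map (0 : A →+ B) : tate A p →ₗ[ℤ_[p]] tate B p) = 0 := by
  ext x k
  rfl

theorem map_neg' (f : A →+ B) : (map (-f) : tate A p →ₗ[ℤ_[p]] tate B p) = -map f := by
  ext x k
  rfl

theorem map_sub' (f g : A →+ B) :
    (map (f - g) : tate A p →ₗ[ℤ_[p]] tate B p) = map f - map g := by
  ext x k
  rfl

theorem map_injective {f : A →+ B} (hf : Function.Injective f) :
    Function.Injective (map f : tate A p →ₗ[ℤ_[p]] tate B p) := by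
  intro x y h
  ext k
  apply hf
  have := congrArg (fun z : tate B p => (z : ℕ → B) k) h
  exact this

/-- **relations pass to the Tate module**: an additive map which kills all the `p`-power torsion
induces `0`. -/
theorem map_eq_zero_of_kills {f : A →+ B} (h : ∀ (k : ℕ) (a : A), p ^ k • a = 0 → f a = 0) :
    (map f : tate A p →ₗ[ℤ_[p]] tate B p) = 0 := by
  ext x k
  exact h k _ (pow_smul_self x k)

/-- two additive maps which agree on all the `p`-power torsion induce the same map. -/
theorem map_eq_of_agree {f g : A →+ B}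
    (h : ∀ (k : ℕ) (a : A), p ^ k • a = 0 → f a = g a) :
    (map f : tate A p →ₗ[ℤ_[p]] tate B p) = map g := by
  ext x k
  exact h k _ (pow_smul_self x k)

/-- **adic continuity**: an additive endomorphism which is the identity on `A[p^n]` is the identity
modulo `p^n` on the Tate module. -/
theorem map_sub_self_mem {f : A →+ A} {n : ℕ} (h : ∀ a : A, p ^ n • a = 0 → f a = a)
    (x : tate A p) :
    map f x - x ∈ ((Ideal.span {(p : ℤ_[p])}) ^ n • (⊤ : Submodule ℤ_[p] (tate A p))) := by
  rw [mem_span_pow_smul_top_iff]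
  show f ((x : ℕ → A) n) - (x : ℕ → A) n = 0
  rw [h _ (pow_smul_self x n), sub_self]

/-- the ring homomorphism `End(A) → End_{ℤ_p}(T_p A)`. -/
noncomputable def mapEnd : AddMonoid.End A →+* Module.End ℤ_[p] (tate A p) where
  toFun f := map f
  map_one' := map_id
  map_mul' f g := map_comp f g
  map_zero' := map_zero'
  map_add' f g := map_add' f g

@[simp] theorem mapEnd_apply (f : AddMonoid.End A) (x : tate A p) (k : ℕ) :
    ((mapEnd f x : tate A p) : ℕ → A) k = f ((x : ℕ → A) k) := rfl

/-- the representation on the Tate module induced by an action by additive endomorphisms. -/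
noncomputable def rep {G : Type*} [Monoid G] (φ : G →* AddMonoid.End A) :
    G →* Module.End ℤ_[p] (tate A p) :=
  (mapEnd (A := A) (p := p)).toMonoidHom.comp φ

@[simp] theorem rep_apply {G : Type*} [Monoid G] (φ : G →* AddMonoid.End A) (g : G)
    (x : tate A p) (k : ℕ) : ((rep φ g x : tate A p) : ℕ → A) k = φ g ((x : ℕ → A) k) := rfl

theorem mapEnd_commute {f g : AddMonoid.End A} (h : f * g = g * f) :
    (mapEnd f : Module.End ℤ_[p] (tate A p)) * mapEnd g = mapEnd g * mapEnd f := by
  rw [← map_mul, ← map_mul, h]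

end Functor

/-! ### Compatible systems -/

section System

omit hp in
/-- the element of the Tate module given by a compatible sequence -/
def ofCompat (y : ℕ → A) (h0 : y 0 = 0) (h : ∀ k, p • y (k + 1) = y k) : tate A p :=
  ⟨y, h0, h⟩

omit hp in
@[simp] theorem ofCompat_apply (y : ℕ → A) (h0 : y 0 = 0) (h : ∀ k, p • y (k + 1) = y k) (k : ℕ) :
    (ofCompat y h0 h : ℕ → A) k = y k := rfl

variable {M : Type*} [AddCommGroup M]

omit hp in
/-- a compatible system of additive maps `e k : M →+ A` (`e 0 = 0`, `p • e (k+1) = e k`) gives an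
additive map into the Tate module -/
def ofSystemAdd (e : ℕ → M →+ A) (h0 : ∀ m, e 0 m = 0) (h : ∀ k m, p • e (k + 1) m = e k m) :
    M →+ tate A p where
  toFun m := ofCompat (fun k => e k m) (h0 m) (fun k => h k m)
  map_zero' := by
    apply Subtype.ext
    funext k
    exact map_zero (e k)
  map_add' a b := by
    apply Subtype.ext
    funext k
    exact map_add (e k) a b

omit hp in
@[simp] theorem ofSystemAdd_apply (e : ℕ → M →+ A) (h0 : ∀ m, e 0 m = 0)
    (h : ∀ k m, p • e (k + 1) m = e k m) (m : M) (k : ℕ) :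
    (ofSystemAdd e h0 h m : ℕ → A) k = e k m := rfl

/-- ... which is automatically `ℤ_[p]`-linear if `M` is a `ℤ_[p]`-module -/
noncomputable def ofSystem [Module ℤ_[p] M] (e : ℕ → M →+ A) (h0 : ∀ m, e 0 m = 0)
    (h : ∀ k m, p • e (k + 1) m = e k m) : M →ₗ[ℤ_[p]] tate A p :=
  toLinear (ofSystemAdd e h0 h)

@[simp] theorem ofSystem_apply [Module ℤ_[p] M] (e : ℕ → M →+ A) (h0 : ∀ m, e 0 m = 0)
    (h : ∀ k m, p • e (k + 1) m = e k m) (m : M) (k : ℕ) :
    (ofSystem e h0 h m : ℕ → A) k = e k m := rfl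

theorem ofSystem_injective [Module ℤ_[p] M] (e : ℕ → M →+ A) (h0 : ∀ m, e 0 m = 0)
    (h : ∀ k m, p • e (k + 1) m = e k m) (hinj : ∀ m, (∀ k, e k m = 0) → m = 0) :
    Function.Injective (ofSystem e h0 h) := by
  rw [← LinearMap.ker_eq_bot, LinearMap.ker_eq_bot']
  intro m hm
  apply hinj
  intro k
  have := congrArg (fun z : tate A p => (z : ℕ → A) k) hm
  exact this

/-- equivariance of a compatible system passes to the limit -/
theorem ofSystem_equivariant [Module ℤ_[p] M] (e : ℕ → M →+ A) (h0 : ∀ m, e 0 m = 0)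
    (h : ∀ k m, p • e (k + 1) m = e k m) (t : M → M) (f : A →+ A)
    (hcomm : ∀ k m, e k (t m) = f (e k m)) (m : M) :
    ofSystem e h0 h (t m) = map f (ofSystem e h0 h m) := by
  ext k
  exact hcomm k m

end System

end Fermat.Agent.S30.TateModule
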