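import Mathlib
import Fermat.Agent.S29.Betti.EigenSupport
import Fermat.Agent.S30.TateModule
import Fermat.Agent.S30.TensorEigen

set_option autoImplicit false

/-!
# S30, leaf (B1): the limit map from `p`-adic admissible characters to compatible systems

* (L1) reductions `redX p k : XMod N ℤ_[p] ℤ_[p] →+ XMod N (ZMod (p^k)) (ZMod (p^k))`, transition
  maps `castX p k`, their compatibility with the Hecke operators, joint injectivity;
* (L2) a compatible injective Hecke-equivariant system of class maps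
  `κ k : XMod N (ZMod (p^k)) (ZMod (p^k)) →+ A` gives the sequence `eSeq κ ψ k := κ k (redX p k ψ)`,
  which is a point of the Tate module of `A`, depends `ℤ_[p]`-linearly and injectively on `ψ`, and
  is Hecke-equivariant.
-/

namespace Fermat.Agent.S30.LimitMap

open Fermat.Agent.S29.Betti CongruenceSubgroup
open scoped MatrixGroups

noncomputable section

variable {N : ℕ}

/-! ### Pushforward of admissible characters along a coefficient homomorphism -/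

section Push

variable {R R' : Type*} [Semiring R] [Semiring R'] {A A' : Type*} [AddCommGroup A]
  [AddCommGroup A'] [Module R A] [Module R' A']

/-- pushforward of admissible characters along a homomorphism of coefficient groups -/
def pushX (R R' : Type*) [Semiring R] [Semiring R'] {A A' : Type*} [AddCommGroup A]
    [AddCommGroup A'] [Module R A] [Module R' A'] (φ : A →+ A') :
    XMod N R A →+ XMod N R' A' where
  toFun c := ⟨φ.comp (c : Additive (Gamma0 N) →+ A), fun γ hγ => by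
    rw [AddMonoidHom.comp_apply, c.2 γ hγ, map_zero]⟩
  map_zero' := Subtype.ext (by simp)
  map_add' c d := Subtype.ext (by
    refine DFunLike.ext _ _ fun γ => ?_
    simp)

@[simp] theorem pushX_coe (φ : A →+ A') (c : XMod N R A) :
    ((pushX R R' φ c : XMod N R' A') : Additive (Gamma0 N) →+ A')
      = φ.comp (c : Additive (Gamma0 N) →+ A) := rfl

theorem pushX_apply (φ : A →+ A') (c : XMod N R A) (γ : Additive (Gamma0 N)) :
    ((pushX R R' φ c : XMod N R' A') : Additive (Gamma0 N) →+ A') γ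
      = φ ((c : Additive (Gamma0 N) →+ A) γ) := rfl

theorem pushX_heckeX {ℓ : ℕ} [Fact ℓ.Prime] (hℓN : ¬ ℓ ∣ N) (φ : A →+ A') (c : XMod N R A) :
    pushX R R' φ (heckeX hℓN R A c) = heckeX hℓN R' A' (pushX R R' φ c) := by
  apply Subtype.ext
  rw [pushX_coe, heckeX_coe, heckeX_coe, pushX_coe, heckeHom_comp]

theorem pushX_comp {R'' : Type*} [Semiring R''] {A'' : Type*} [AddCommGroup A'']
    [Module R'' A''] (φ : A →+ A') (φ' : A' →+ A'') (c : XMod N R A) :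
    pushX R' R'' φ' (pushX R R' φ c) = pushX R R'' (φ'.comp φ) c := rfl

end Push

/-! ### (L1) the `p`-adic reductions -/

section Red

variable (p : ℕ) [hp : Fact p.Prime]

/-- reduction modulo `p ^ k` of a `p`-adic admissible character -/
def redX (k : ℕ) : XMod N ℤ_[p] ℤ_[p] →+ XMod N (ZMod (p ^ k)) (ZMod (p ^ k)) :=
  pushX ℤ_[p] (ZMod (p ^ k)) (PadicInt.toZModPow k).toAddMonoidHom

/-- the transition map from level `p ^ (k + 1)` to level `p ^ k` -/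
def castX (k : ℕ) :
    XMod N (ZMod (p ^ (k + 1))) (ZMod (p ^ (k + 1))) →+ XMod N (ZMod (p ^ k)) (ZMod (p ^ k)) :=
  pushX (ZMod (p ^ (k + 1))) (ZMod (p ^ k))
    (ZMod.castHom (pow_dvd_pow p (Nat.le_succ k)) (ZMod (p ^ k))).toAddMonoidHom

theorem redX_apply (k : ℕ) (ψ : XMod N ℤ_[p] ℤ_[p]) (γ : Additive (Gamma0 N)) :
    ((redX p k ψ : XMod N (ZMod (p ^ k)) (ZMod (p ^ k))) : Additive (Gamma0 N) →+ ZMod (p ^ k)) γ
      = PadicInt.toZModPow k ((ψ : Additive (Gamma0 N) →+ ℤ_[p]) γ) := rfl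

omit hp in
theorem castX_apply (k : ℕ) (u : XMod N (ZMod (p ^ (k + 1))) (ZMod (p ^ (k + 1))))
    (γ : Additive (Gamma0 N)) :
    ((castX p k u : XMod N (ZMod (p ^ k)) (ZMod (p ^ k))) : Additive (Gamma0 N) →+ ZMod (p ^ k)) γ
      = ZMod.castHom (pow_dvd_pow p (Nat.le_succ k)) (ZMod (p ^ k))
          ((u : Additive (Gamma0 N) →+ ZMod (p ^ (k + 1))) γ) := rfl

theorem castX_redX (k : ℕ) (ψ : XMod N ℤ_[p] ℤ_[p]) :
    castX p k (redX p (k + 1) ψ) = redX p k ψ := by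
  apply Subtype.ext
  refine DFunLike.ext _ _ fun γ => ?_
  rw [castX_apply, redX_apply, redX_apply]
  have h := PadicInt.zmod_cast_comp_toZModPow (p := p) k (k + 1) (Nat.le_succ k)
  exact congrArg (fun f : ℤ_[p] →+* ZMod (p ^ k) => f ((ψ : Additive (Gamma0 N) →+ ℤ_[p]) γ)) h

theorem redX_smul (k : ℕ) (a : ℤ_[p]) (ψ : XMod N ℤ_[p] ℤ_[p]) :
    redX p k (a • ψ) = PadicInt.toZModPow k a • redX p k ψ := by
  apply Subtype.ext
  refine DFunLike.ext _ _ fun γ => ?_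
  rw [redX_apply]
  show PadicInt.toZModPow k (a • (ψ : Additive (Gamma0 N) →+ ℤ_[p]) γ) =
    PadicInt.toZModPow k a • ((redX p k ψ : XMod N (ZMod (p ^ k)) (ZMod (p ^ k))) :
      Additive (Gamma0 N) →+ ZMod (p ^ k)) γ
  rw [redX_apply, smul_eq_mul, smul_eq_mul, map_mul]

theorem redX_heckeX {ℓ : ℕ} [Fact ℓ.Prime] (hℓN : ¬ ℓ ∣ N) (k : ℕ) (ψ : XMod N ℤ_[p] ℤ_[p]) :
    redX p k (heckeX hℓN ℤ_[p] ℤ_[p] ψ)
      = heckeX hℓN (ZMod (p ^ k)) (ZMod (p ^ k)) (redX p k ψ) :=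
  pushX_heckeX hℓN _ ψ

omit hp in
theorem castX_heckeX {ℓ : ℕ} [Fact ℓ.Prime] (hℓN : ¬ ℓ ∣ N) (k : ℕ)
    (u : XMod N (ZMod (p ^ (k + 1))) (ZMod (p ^ (k + 1)))) :
    castX p k (heckeX hℓN (ZMod (p ^ (k + 1))) (ZMod (p ^ (k + 1))) u)
      = heckeX hℓN (ZMod (p ^ k)) (ZMod (p ^ k)) (castX p k u) :=
  pushX_heckeX hℓN _ u

/-- the reductions are jointly injective -/
theorem eq_zero_of_redX {ψ : XMod N ℤ_[p] ℤ_[p]} (h : ∀ k, redX p k ψ = 0) : ψ = 0 := by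
  apply Subtype.ext
  refine DFunLike.ext _ _ fun γ => ?_
  have h1 : ∀ k, PadicInt.toZModPow k ((ψ : Additive (Gamma0 N) →+ ℤ_[p]) γ)
      = PadicInt.toZModPow k (0 : ℤ_[p]) := by
    intro k
    rw [← redX_apply, h k, map_zero]
    rfl
  exact PadicInt.ext_of_toZModPow.1 h1

theorem redX_zero_level (ψ : XMod N ℤ_[p] ℤ_[p]) : redX p 0 ψ = 0 := by
  apply Subtype.ext
  refine DFunLike.ext _ _ fun γ => ?_
  have : Subsingleton (ZMod (p ^ 0)) := by
    rw [pow_zero]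
    infer_instance
  exact Subsingleton.elim _ _

end Red

/-! ### (L2) the limit of a compatible system of class maps -/

section Limit

variable (p : ℕ) [hp : Fact p.Prime] {A : Type*} [AddCommGroup A]

/-- A compatible system of class maps `κ k : X(ℤ/p^k) → A`. -/
structure System (N p : ℕ) [Fact p.Prime] (A : Type*) [AddCommGroup A] where
  /-- the class maps -/
  κ : ∀ k : ℕ, XMod N (ZMod (p ^ k)) (ZMod (p ^ k)) →+ A
  /-- injectivity at every level -/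
  inj : ∀ k, Function.Injective (κ k)
  /-- compatibility with the transition maps -/
  compat : ∀ (k : ℕ) (u : XMod N (ZMod (p ^ (k + 1))) (ZMod (p ^ (k + 1)))),
    κ k (castX p k u) = p • κ (k + 1) u

variable {p} (Sy : System N p A)

/-- the compatible sequence attached to a `p`-adic admissible character -/
def eSeq (ψ : XMod N ℤ_[p] ℤ_[p]) (k : ℕ) : A := Sy.κ k (redX p k ψ)

theorem eSeq_zero_level (ψ : XMod N ℤ_[p] ℤ_[p]) : eSeq Sy ψ 0 = 0 := by
  rw [eSeq, redX_zero_level, map_zero]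

theorem eSeq_succ (ψ : XMod N ℤ_[p] ℤ_[p]) (k : ℕ) :
    p • eSeq Sy ψ (k + 1) = eSeq Sy ψ k := by
  rw [eSeq, eSeq, ← Sy.compat, castX_redX]

theorem pow_smul_eSeq (ψ : XMod N ℤ_[p] ℤ_[p]) (k : ℕ) : p ^ k • eSeq Sy ψ k = 0 := by
  induction k with
  | zero => rw [pow_zero, one_smul, eSeq_zero_level]
  | succ k ih => rw [pow_succ, mul_smul, eSeq_succ, ih]

theorem eSeq_add (ψ ψ' : XMod N ℤ_[p] ℤ_[p]) (k : ℕ) :
    eSeq Sy (ψ + ψ') k = eSeq Sy ψ k + eSeq Sy ψ' k := by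
  rw [eSeq, map_add, map_add]
  rfl

theorem eSeq_zero (k : ℕ) : eSeq Sy (0 : XMod N ℤ_[p] ℤ_[p]) k = 0 := by
  rw [eSeq, map_zero, map_zero]

theorem eSeq_neg (ψ : XMod N ℤ_[p] ℤ_[p]) (k : ℕ) : eSeq Sy (-ψ) k = -eSeq Sy ψ k := by
  rw [eSeq, map_neg, map_neg]
  rfl

theorem eSeq_sub (ψ ψ' : XMod N ℤ_[p] ℤ_[p]) (k : ℕ) :
    eSeq Sy (ψ - ψ') k = eSeq Sy ψ k - eSeq Sy ψ' k := by
  rw [eSeq, map_sub, map_sub]
  rfl

/-- `ℤ_[p]`-linearity, componentwise. -/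
theorem eSeq_smul (a : ℤ_[p]) (ψ : XMod N ℤ_[p] ℤ_[p]) (k : ℕ) :
    eSeq Sy (a • ψ) k = (PadicInt.toZModPow k a).val • eSeq Sy ψ k := by
  have : NeZero (p ^ k) := ⟨pow_ne_zero k hp.out.ne_zero⟩
  rw [eSeq, redX_smul, eSeq, ← map_nsmul, ← Nat.cast_smul_eq_nsmul (ZMod (p ^ k)),
    ZMod.natCast_zmod_val]

/-- the same with the `k`-th approximation of `a` -/
theorem eSeq_smul_appr (a : ℤ_[p]) (ψ : XMod N ℤ_[p] ℤ_[p]) (k : ℕ) :
    eSeq Sy (a • ψ) k = a.appr k • eSeq Sy ψ k := by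
  have : NeZero (p ^ k) := ⟨pow_ne_zero k hp.out.ne_zero⟩
  rw [eSeq, redX_smul, eSeq, ← map_nsmul, ← Nat.cast_smul_eq_nsmul (ZMod (p ^ k))]
  rfl

/-- **injectivity of the limit map** -/
theorem eSeq_injective {ψ ψ' : XMod N ℤ_[p] ℤ_[p]} (h : ∀ k, eSeq Sy ψ k = eSeq Sy ψ' k) :
    ψ = ψ' := by
  rw [← sub_eq_zero]
  apply eq_zero_of_redX p
  intro k
  apply Sy.inj k
  have := eSeq_sub Sy ψ ψ' k
  rw [h k, sub_self] at this
  rw [map_zero]
  exact this

/-- **Hecke equivariance of the limit map** -/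
theorem eSeq_heckeX {ℓ : ℕ} [Fact ℓ.Prime] (hℓN : ¬ ℓ ∣ N) (TA : A →+ A)
    (hT : ∀ (k : ℕ) (u : XMod N (ZMod (p ^ k)) (ZMod (p ^ k))),
      Sy.κ k (heckeX hℓN (ZMod (p ^ k)) (ZMod (p ^ k)) u) = TA (Sy.κ k u))
    (ψ : XMod N ℤ_[p] ℤ_[p]) (k : ℕ) :
    eSeq Sy (heckeX hℓN ℤ_[p] ℤ_[p] ψ) k = TA (eSeq Sy ψ k) := by
  rw [eSeq, redX_heckeX, hT, eSeq]

/-! ### The packaged limit map into the Tate module -/

open Fermat.Agent.S30.TateModule

/-- the `k`-th component of the limit map, as an additive map -/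
def eComp (k : ℕ) : XMod N ℤ_[p] ℤ_[p] →+ A := (Sy.κ k).comp (redX p k)

theorem eComp_apply (k : ℕ) (ψ : XMod N ℤ_[p] ℤ_[p]) : eComp Sy k ψ = eSeq Sy ψ k := rfl

/-- **the limit map** `X(ℤ_p) → T_p(A)`, `ψ ↦ (κ_k (ψ mod p^k))_k` -/
def e : XMod N ℤ_[p] ℤ_[p] →ₗ[ℤ_[p]] tate A p :=
  ofSystem (eComp Sy) (fun ψ => eSeq_zero_level Sy ψ) (fun k ψ => eSeq_succ Sy ψ k)

@[simp] theorem e_apply (ψ : XMod N ℤ_[p] ℤ_[p]) (k : ℕ) :
    ((e Sy ψ : tate A p) : ℕ → A) k = Sy.κ k (redX p k ψ) := rfl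

theorem e_injective : Function.Injective (e Sy) := by
  apply ofSystem_injective
  intro ψ h
  apply eSeq_injective Sy
  intro k
  rw [eSeq_zero]
  exact h k

/-- **Hecke equivariance of the limit map** -/
theorem e_heckeX {ℓ : ℕ} [Fact ℓ.Prime] (hℓN : ¬ ℓ ∣ N) (TA : A →+ A)
    (hT : ∀ (k : ℕ) (u : XMod N (ZMod (p ^ k)) (ZMod (p ^ k))),
      Sy.κ k (heckeX hℓN (ZMod (p ^ k)) (ZMod (p ^ k)) u) = TA (Sy.κ k u))
    (ψ : XMod N ℤ_[p] ℤ_[p]) :
    e Sy (heckeX hℓN ℤ_[p] ℤ_[p] ψ) = TateModule.map TA (e Sy ψ) := by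
  ext k
  exact eSeq_heckeX Sy hℓN TA hT ψ k

end Limit

/-! ### `χ` occurs in `𝒪' ⊗ T_p(A)` -/

section Eigen

open Fermat.Agent.S30.TateModule
open scoped TensorProduct

variable (N) [NeZero N] {p : ℕ} [hp : Fact p.Prime] {A : Type*} [AddCommGroup A]
  (Sy : System N p A)

omit [NeZero N] in
/-- Hecke equivariance of the limit map, indexed by the good primes -/
theorem e_heckeX_good (TA : GoodPrime N → A →+ A)
    (hT : ∀ (q : GoodPrime N) (k : ℕ) (u : XMod N (ZMod (p ^ k)) (ZMod (p ^ k))),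
      Sy.κ k (heckeX q.2 (ZMod (p ^ k)) (ZMod (p ^ k)) u) = TA q (Sy.κ k u))
    (q : GoodPrime N) (ψ : XMod N ℤ_[p] ℤ_[p]) :
    e Sy (heckeX q.2 ℤ_[p] ℤ_[p] ψ) = TateModule.map (TA q) (e Sy ψ) :=
  e_heckeX Sy q.2 (TA q) (hT q) ψ

/-- **`χ` occurs in `𝒪' ⊗[ℤ_p] T_p(A)`**: a nonzero `𝒪'`-valued admissible eigen-character
(`EigenChar.exists_eigen_XMod`) and a compatible injective Hecke-equivariant system of class
maps give a nonzero eigenvector of the Hecke operators on the base-changed Tate module. -/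
theorem exists_eigen_tate {O : Type*} [CommRing O] [Algebra ℤ_[p] O]
    [Module.IsTorsionFree ℤ_[p] O] [Module.Flat ℤ_[p] O]
    (c : XMod N O O) (hc : c ≠ 0) (b : GoodPrime N → O)
    (hcb : ∀ q : GoodPrime N, heckeX q.2 O O c = b q • c)
    (TA : GoodPrime N → A →+ A)
    (hT : ∀ (q : GoodPrime N) (k : ℕ) (u : XMod N (ZMod (p ^ k)) (ZMod (p ^ k))),
      Sy.κ k (heckeX q.2 (ZMod (p ^ k)) (ZMod (p ^ k)) u) = TA q (Sy.κ k u)) :
    ∃ v : O ⊗[ℤ_[p]] tate A p, v ≠ 0 ∧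
      ∀ q : GoodPrime N, (TateModule.map (TA q)).baseChange O v = b q • v :=
  Fermat.Agent.S30.TensorEigen.exists_eigen_XMod_of_embedding N ℤ_[p] c hc b hcb (e Sy)
    (e_injective Sy) (fun q => TateModule.map (TA q)) (e_heckeX_good N Sy TA hT)

end Eigen

end

end Fermat.Agent.S30.LimitMap
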