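import Mathlib
import Fermat.Agent.S30.ChiOccurs
import Fermat.Agent.S30.LimitMap

/-!
# S30, step (C4): `χ` occurs in `O ⊗[ℤ_p] T_p(A)` (junction `ChiOccurs` + `LimitMap`)

`χ : 𝕋_S = heckeAlgebra N 2 S →+* O`, `O` a domain of characteristic zero, torsion-free (hence
flat) over `ℤ_[p]`; `Sy : LimitMap.System N p A` a compatible injective system of class maps
`κ_k : X(ℤ/p^k) → A`, Hecke-equivariant for operators `TA ℓ` on `A` (`ℓ ∤ N` prime).  Then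
`O ⊗[ℤ_p] tate A p` contains a nonzero `v` with `(T_ℓ ⊗ 1) v = χ (T_ℓ) • v` for every prime
`ℓ ∤ N`, `ℓ ∉ S` (exactly the primes of the S30 statement; the version
`LimitMap.exists_eigen_tate` asks for the eigen-equation at ALL `ℓ ∤ N`, which step (C) does not
provide).
-/

set_option autoImplicit false

namespace Fermat.Agent.S30.ChiTate

open CongruenceSubgroup Fermat.Agent.S29.Betti Fermat.Agent.S30.TateModule
open scoped TensorProduct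

noncomputable section

variable (N : ℕ) [NeZero N] {p : ℕ} [hp : Fact p.Prime] {A : Type*} [AddCommGroup A]
  (Sy : Fermat.Agent.S30.LimitMap.System N p A) (S : Set ℕ)
variable {O : Type*} [CommRing O] [IsDomain O] [CharZero O] [Algebra ℤ_[p] O]
  [Module.IsTorsionFree ℤ_[p] O] [Module.Flat ℤ_[p] O]

/-- **`χ` occurs in `O ⊗[ℤ_p] T_p(A)`.** -/
theorem exists_eigen_tate_of_chi (χ : CuspForm.heckeAlgebra N 2 S →+* O)
    (TA : ∀ ℓ : ℕ, ℓ.Prime → ¬ ℓ ∣ N → A →+ A)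
    (hT : ∀ (ℓ : ℕ) [Fact ℓ.Prime] (hℓ : ℓ.Prime) (hℓN : ¬ ℓ ∣ N) (k : ℕ)
      (u : XMod N (ZMod (p ^ k)) (ZMod (p ^ k))),
      Sy.κ k (heckeX hℓN (ZMod (p ^ k)) (ZMod (p ^ k)) u) = TA ℓ hℓ hℓN (Sy.κ k u)) :
    ∃ v : O ⊗[ℤ_[p]] tate A p, v ≠ 0 ∧
      ∀ (ℓ : ℕ) (hℓ : ℓ.Prime) (hℓN : ¬ ℓ ∣ N) (hℓS : ℓ ∉ S),
        (TateModule.map (p := p) (TA ℓ hℓ hℓN)).baseChange O v =
          χ (CuspForm.heckeAlgebra.T hℓ hℓN hℓS) • v :=
  Fermat.Agent.S30.ChiOccurs.exists_eigen_of_chi N S ℤ_[p] χ (Fermat.Agent.S30.LimitMap.e Sy)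
    (Fermat.Agent.S30.LimitMap.e_injective Sy)
    (fun ℓ hℓ hℓN => TateModule.map (p := p) (TA ℓ hℓ hℓN))
    (fun ℓ _ hℓ hℓN u =>
      Fermat.Agent.S30.LimitMap.e_heckeX Sy hℓN (TA ℓ hℓ hℓN) (hT ℓ hℓ hℓN) u)

end

end Fermat.Agent.S30.ChiTate
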