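import Mathlib
import Fermat.Agent.S29.Desc.HeckeSquare

/-!
# S30: descent of a torsion-valued class-map system from `ℂ` to `ℚ̄`

* abstract part (Mathlib only): `bc : A →+ B` injective and surjective on torsion
  (`∀ n > 0, n • y = 0 → y ∈ range bc`).  Every additive `κC : X →+ B` killed by some `n > 0`
  lifts uniquely to `lift … κC : X →+ A` with `bc ∘ lift = κC` (`bc_lift`), and torsion,
  injectivity, equivariance and level compatibility pass from `κC` to the lift.
* concrete part: `A = J₀(N)(ℚ̄) = Pic⁰(F_ℚ̄ N)`, `B = Pic⁰(F_ℂ N)`, `bc = Desc.Main.bcJ ℚ̄ ℂ N`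
  (`bcJ_torsion_surj`), so that any system of Kummer class maps
  `κC k : X k →+ Pic⁰(F_ℂ N)` (killed by `n k > 0`) descends to
  `kappaBar … k : X k →+ JZero N` (`bcJ_kappaBar`, `kappaBar_torsion`, `kappaBar_injective`,
  `kappaBar_hecke` w.r.t. `heckeOperatorBar`, `kappaBar_compat`).
-/

set_option autoImplicit false
set_option linter.unusedSectionVars false
set_option linter.style.haveILetI false

noncomputable section

open AlgebraicCurve ModularCurve

namespace Fermat.Agent.S30.KappaBar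

/-! ### abstract part -/

section Abstract

variable {A B : Type*} [AddCommGroup A] [AddCommGroup B] (bc : A →+ B)

/-- `bc` is surjective on torsion. -/
def TorsionSurj : Prop := ∀ n : ℕ, 0 < n → ∀ y : B, n • y = 0 → ∃ x : A, bc x = y

variable {bc}
variable {X : Type*} [AddCommGroup X]

theorem exists_lift (hinj : Function.Injective bc) (hsurj : TorsionSurj bc) {n : ℕ} (hn : 0 < n)
    (κC : X →+ B) (htors : ∀ u, n • κC u = 0) :
    ∃ κ : X →+ A, ∀ u, bc (κ u) = κC u := by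
  choose f hf using fun u => hsurj n hn (κC u) (htors u)
  refine ⟨AddMonoidHom.mk' f (fun a b => hinj ?_), hf⟩
  rw [map_add, hf, hf, hf, map_add]

/-- the lift of a torsion-valued additive map through `bc`. -/
def lift (hinj : Function.Injective bc) (hsurj : TorsionSurj bc) {n : ℕ} (hn : 0 < n)
    (κC : X →+ B) (htors : ∀ u, n • κC u = 0) : X →+ A :=
  (exists_lift hinj hsurj hn κC htors).choose

@[simp] theorem bc_lift (hinj : Function.Injective bc) (hsurj : TorsionSurj bc) {n : ℕ}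
    (hn : 0 < n) (κC : X →+ B) (htors : ∀ u, n • κC u = 0) (u : X) :
    bc (lift hinj hsurj hn κC htors u) = κC u :=
  (exists_lift hinj hsurj hn κC htors).choose_spec u

/-- uniqueness of the lift. -/
theorem eq_lift (hinj : Function.Injective bc) (hsurj : TorsionSurj bc) {n : ℕ}
    (hn : 0 < n) (κC : X →+ B) (htors : ∀ u, n • κC u = 0) (κ : X →+ A)
    (h : ∀ u, bc (κ u) = κC u) : κ = lift hinj hsurj hn κC htors := by
  ext u
  apply hinj
  rw [h, bc_lift]

theorem lift_torsion (hinj : Function.Injective bc) (hsurj : TorsionSurj bc) {n : ℕ}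
    (hn : 0 < n) (κC : X →+ B) (htors : ∀ u, n • κC u = 0) (u : X) :
    n • lift hinj hsurj hn κC htors u = 0 := by
  apply hinj
  rw [map_nsmul, bc_lift, htors, map_zero]

theorem lift_injective (hinj : Function.Injective bc) (hsurj : TorsionSurj bc) {n : ℕ}
    (hn : 0 < n) (κC : X →+ B) (htors : ∀ u, n • κC u = 0) (hκ : Function.Injective κC) :
    Function.Injective (lift hinj hsurj hn κC htors) := by
  intro u v h
  apply hκ
  rw [← bc_lift hinj hsurj hn κC htors u, h, bc_lift]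

/-- equivariance passes to the lift. -/
theorem lift_equivariant (hinj : Function.Injective bc) (hsurj : TorsionSurj bc) {n : ℕ}
    (hn : 0 < n) (κC : X →+ B) (htors : ∀ u, n • κC u = 0)
    (TA : A → A) (TB : B → B) (hT : ∀ x, bc (TA x) = TB (bc x))
    (TX : X → X) (hC : ∀ u, κC (TX u) = TB (κC u)) (u : X) :
    lift hinj hsurj hn κC htors (TX u) = TA (lift hinj hsurj hn κC htors u) := by
  apply hinj
  rw [bc_lift, hT, bc_lift, hC]

/-- level compatibility passes to the lifts. -/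
theorem lift_compat (hinj : Function.Injective bc) (hsurj : TorsionSurj bc)
    {Y : Type*} [AddCommGroup Y] {n n' : ℕ} (hn : 0 < n) (hn' : 0 < n')
    (κC : X →+ B) (htors : ∀ u, n • κC u = 0) (κC' : Y →+ B) (htors' : ∀ u, n' • κC' u = 0)
    (red : Y → X) (m : ℕ) (hC : ∀ u, κC (red u) = m • κC' u) (u : Y) :
    lift hinj hsurj hn κC htors (red u) = m • lift hinj hsurj hn' κC' htors' u := by
  apply hinj
  rw [bc_lift, map_nsmul, bc_lift, hC]

end Abstract

/-! ### concrete part: `ℚ̄ ⊆ ℂ`, the modular function fields -/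

section Concrete

open Fermat.Agent.S29.HeckeInputsL Fermat.Agent.S29.Desc.DataLaurent
open Fermat.Agent.S29.Desc.Main
open Fermat.Agent.S29.Desc.MainOf (Kb)

attribute [local instance] algQbarC

variable (N : ℕ) [NeZero N]

/-- the base change of divisor classes `J₀(N)(ℚ̄) → Pic⁰(F_ℂ N)`. -/
def bcQC : JZero N →+ Pic0 ℂ (FL ℂ N) :=
  haveI := isScalarTower_QbarC
  bcJ Kb ℂ N

theorem bcQC_injective : Function.Injective (bcQC N) :=
  haveI := isScalarTower_QbarC
  bcJ_injective Kb ℂ N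

/-- `bcQC` commutes with the Hecke operators. -/
theorem bcQC_hecke (ℓ : Nat.Primes) (x : JZero N) :
    bcQC N (heckeOperatorBar N ℓ x) =
      (haveI : NeZero (ℓ : ℕ) := ⟨ℓ.2.ne_zero⟩; heckeOperatorAlong ℂ N ℓ (bcQC N x)) := by
  haveI := isScalarTower_QbarC
  haveI : NeZero (ℓ : ℕ) := ⟨ℓ.2.ne_zero⟩
  exact Fermat.Agent.S29.Desc.HeckeSquare.bcJ_heckeOperatorAlong Kb ℂ N ℓ x

/-- **torsion descends**: every torsion class over `ℂ` comes from `ℚ̄`. -/
theorem bcQC_torsionSurj : TorsionSurj (bcQC N) := by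
  intro n hn y hy
  haveI := isScalarTower_QbarC
  haveI : Finite (Pic0.torsion ℂ (FL ℂ N) n) :=
    Fermat.Agent.S29.Desc.FiniteTorsionMain.finite_torsion N hn
  obtain ⟨bc, hbc⟩ := exists_bc_FL Kb ℂ N (upFL Kb ℂ N) (comap_upFL Kb ℂ N) (eq_upFL Kb ℂ N)
    (dich_upFL Kb ℂ N) n (bcJ Kb ℂ N) (bcJ_injective Kb ℂ N) (bcJ_mk Kb ℂ N)
  have hy' : y ∈ Pic0.torsion ℂ (FL ℂ N) n := by
    rw [Pic0.mem_torsion, natCast_zsmul]
    exact hy
  refine ⟨((bc.symm ⟨y, hy'⟩ : Pic0.torsion Kb (FL Kb N) n) : Pic0 Kb (FL Kb N)), ?_⟩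
  have h := hbc (bc.symm ⟨y, hy'⟩)
  rw [AddEquiv.apply_symm_apply] at h
  exact h.symm

variable {N}
variable {X : Type*} [AddCommGroup X]

/-- **the descended class map** `X →+ J₀(N)(ℚ̄)` of a torsion-valued `κC : X →+ Pic⁰(F_ℂ N)`. -/
def kappaBar {n : ℕ} (hn : 0 < n) (κC : X →+ Pic0 ℂ (FL ℂ N)) (htors : ∀ u, n • κC u = 0) :
    X →+ JZero N :=
  lift (bcQC_injective N) (bcQC_torsionSurj N) hn κC htors

@[simp] theorem bcQC_kappaBar {n : ℕ} (hn : 0 < n) (κC : X →+ Pic0 ℂ (FL ℂ N))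
    (htors : ∀ u, n • κC u = 0) (u : X) : bcQC N (kappaBar hn κC htors u) = κC u :=
  bc_lift _ _ hn κC htors u

theorem kappaBar_torsion {n : ℕ} (hn : 0 < n) (κC : X →+ Pic0 ℂ (FL ℂ N))
    (htors : ∀ u, n • κC u = 0) (u : X) : n • kappaBar hn κC htors u = 0 :=
  lift_torsion _ _ hn κC htors u

theorem kappaBar_injective {n : ℕ} (hn : 0 < n) (κC : X →+ Pic0 ℂ (FL ℂ N))
    (htors : ∀ u, n • κC u = 0) (hκ : Function.Injective κC) :
    Function.Injective (kappaBar hn κC htors) :=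
  lift_injective _ _ hn κC htors hκ

/-- Hecke equivariance descends (`heckeOperatorAlong ℂ N ℓ` to `heckeOperatorBar N ℓ`). -/
theorem kappaBar_hecke {n : ℕ} (hn : 0 < n) (κC : X →+ Pic0 ℂ (FL ℂ N))
    (htors : ∀ u, n • κC u = 0) (ℓ : Nat.Primes) (TX : X → X)
    (hC : ∀ u, κC (TX u) =
      (haveI : NeZero (ℓ : ℕ) := ⟨ℓ.2.ne_zero⟩; heckeOperatorAlong ℂ N ℓ (κC u))) (u : X) :
    kappaBar hn κC htors (TX u) = heckeOperatorBar N ℓ (kappaBar hn κC htors u) :=
  lift_equivariant (bcQC_injective N) (bcQC_torsionSurj N) hn κC htors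
    (heckeOperatorBar N ℓ)
    (haveI : NeZero (ℓ : ℕ) := ⟨ℓ.2.ne_zero⟩; heckeOperatorAlong ℂ N ℓ)
    (bcQC_hecke N ℓ) TX hC u

/-- level compatibility descends. -/
theorem kappaBar_compat {Y : Type*} [AddCommGroup Y] {n n' : ℕ} (hn : 0 < n) (hn' : 0 < n')
    (κC : X →+ Pic0 ℂ (FL ℂ N)) (htors : ∀ u, n • κC u = 0)
    (κC' : Y →+ Pic0 ℂ (FL ℂ N)) (htors' : ∀ u, n' • κC' u = 0)
    (red : Y → X) (m : ℕ) (hC : ∀ u, κC (red u) = m • κC' u) (u : Y) :
    kappaBar hn κC htors (red u) = m • kappaBar hn' κC' htors' u :=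
  lift_compat _ _ hn hn' κC htors κC' htors' red m hC u

end Concrete

end Fermat.Agent.S30.KappaBar

end
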