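import Mathlib
import Fermat.Agent.S29.Kummer.BlocksC
import Fermat.Agent.S29.Kummer.BlockKC
import Fermat.Agent.S29.Hk.BlockKCC

/-!
# S30 (block B0): the Kummer class map over `ℂ` for a GENERAL exponent `n ≥ 1`

The files `Kummer/BlockKC` and `Hk/BlockKCC` of S29 construct, for a prime `p`, the injective
Hecke-equivariant class map `X N (ZMod p) → Pic⁰(F_ℂ)[p]`.  Nothing in the proof uses primality;
here the same construction is carried out for every `n` with `[NeZero n]` (the landed files cannot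
be edited), and the Kummer specification is kept in the statement:

* `bridge_n` : the hypotheses `Hk.Equivariant.Bridge` at the bridge `PhiC N`, `ζ = exp (2πi/n)`;
* `exists_kum_n` : every admissible character `Γ₀(N) → ZMod n` is in Kummer relation with a class;
* `hkInput_n` : the analytic half of (Hk) for exponent `n`;
* `exists_eN` : an injective additive `e : X N (ZMod n) → Pic⁰(F_ℂ)[n]` with `Kum (e u) u` and
  `T_ℓ (e u) = e (T_ℓ u)` for all primes `ℓ ∤ N`;
* `eN`, `eN_injective`, `eN_kum`, `eN_hecke`, `eN_unique` : a chosen such map and its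
  characterisation (`Kum x u → x = eN u`).
-/

set_option autoImplicit false
set_option linter.unusedSectionVars false
set_option linter.style.haveILetI false

noncomputable section

namespace Fermat.Agent.S30.KummerN

open AlgebraicCurve ModularCurve CongruenceSubgroup
open Fermat.Agent.S24 Fermat.Agent.S24.PsiLe
open Fermat.Agent.S29.ModFunC (PhiC)
open Fermat.Agent.S29.Eis Fermat.Agent.S29.Kummer.ClassMapC Fermat.Agent.S29.Hk.Equivariant
open Fermat.Agent.S29.Kummer.BlockKC (zetaMer zetaMer_isPrimitiveRoot algebraMap_charOf HkInput)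
open Fermat.Agent.S29.Hk.HeckeProd Fermat.Agent.S29.Betti
open Fermat.Agent.S29 (HeckeInputsL.hasPrincipalDivisors_L)
open scoped MatrixGroups

local instance instPrinN (M : ℕ) [NeZero M] : HasPrincipalDivisors ℂ (FC M) :=
  Fermat.Agent.S29.HeckeInputsL.hasPrincipalDivisors_L ℂ M

variable (N n : ℕ) [NeZero N] [NeZero n]

/-- the action of `Γ₀(N)` on `Mer`. -/
abbrev rhoN (γ : Gamma0 N) : Mer →+* Mer := compMer (γ : SL(2, ℤ))

/-- the source group: admissible `ZMod n`-valued characters of `Γ₀(N)`. -/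
abbrev XN : AddSubgroup (Additive (Gamma0 N) →+ ZMod n) :=
  (XMod N (ZMod n) (ZMod n)).toAddSubgroup

/-- the bridge hypotheses of `Hk/Equivariant` for exponent `n`. -/
theorem bridge_n : Bridge ℂ (PhiC N) (rhoN N) (zetaMer n) n := by
  have hB := Fermat.Agent.S29.Kummer.BlocksC.blocksC N n
  exact
    { prim := zetaMer_isPrimitiveRoot n
      rho_zeta := fun γ => by
        have h1 := hB.phi_inv γ
          (algebraMap ℂ (FC N) (Complex.exp (2 * Real.pi * Complex.I / n)))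
        rwa [hB.phi_const] at h1
      rho_Phi := hB.phi_inv
      conv := hB.root
      const := fun f hf h => by
        obtain ⟨a, ha⟩ := hB.const f hf h
        exact ⟨a, ha.symm⟩
      root := fun c => IsAlgClosed.exists_pow_nat_eq c (NeZero.pos n) }

/-- every admissible character is realised by a class. -/
theorem exists_kum_n (u : Additive (Gamma0 N) →+ ZMod n) (hu : IsAdmHom u) :
    ∃ x : Pic0 ℂ (FC N), Kum (PhiC N) (rhoN N) (zetaMer n) n x u := by
  have hB := Fermat.Agent.S29.Kummer.BlocksC.blocksC N n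
  have hn0 : n ≠ 0 := NeZero.ne n
  obtain ⟨y, hy0, hymult, hycusp⟩ := hB.eis u hu
  have hinv : ∀ γ : Gamma0 N, compMer (γ : SL(2, ℤ)) (y ^ n) = y ^ n := by
    intro γ
    rw [map_pow, hymult γ, mul_pow, ← map_pow, charOf_pow, map_one, one_mul]
  have hcusp : ∀ g : SL(2, ℤ), compMer g (y ^ n) ∈ MerInf N := by
    intro g
    rw [map_pow]
    exact pow_mem (hycusp g) n
  obtain ⟨f, hf⟩ := hB.conv (y ^ n) hinv hcusp
  have hf0 : f ≠ 0 := by
    rintro rfl
    rw [map_zero] at hf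
    exact hy0 ((pow_eq_zero_iff hn0).1 hf.symm)
  have hdvd : ∀ Q : Place ℂ (FC N), (n : ℤ) ∣ Q.ord f := by
    refine hB.dict y hy0 f hf ?_ ?_ hycusp
    · intro γ hγ h12
      have hfin : IsOfFinOrder (⟨γ, hγ⟩ : Gamma0 N) := by
        rw [isOfFinOrder_iff_pow_eq_one]
        exact ⟨12, by norm_num, Subtype.ext h12⟩
      have h1 := hymult ⟨γ, hγ⟩
      rw [(charOf_eq_one_iff _ _).mpr (hu ⟨γ, hγ⟩ (Or.inr hfin)), Units.val_one, map_one,
        one_mul] at h1
      exact h1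
    · intro γ hγ htr
      have h4 : (((⟨γ, hγ⟩ : Gamma0 N) : SL(2, ℤ)) : Matrix (Fin 2) (Fin 2) ℤ).trace ^ 2 = 4 := by
        show (γ : Matrix (Fin 2) (Fin 2) ℤ).trace ^ 2 = 4
        rw [htr]
        norm_num
      have h1 := hymult ⟨γ, hγ⟩
      rw [(charOf_eq_one_iff _ _).mpr (hu ⟨γ, hγ⟩ (Or.inl h4)), Units.val_one, map_one,
        one_mul] at h1
      exact h1
  exact Kum.exists_of_dvd hf0 hf.symm hdvd (fun γ => by
    show compMer (γ : SL(2, ℤ)) y = _
    rw [hymult γ, algebraMap_charOf])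

/-- the analytic half of (Hk) for exponent `n`. -/
theorem hkInput_n : HkInput N n (PhiC N) := by
  intro ℓ hℓ hℓN
  haveI : NeZero ℓ := ⟨hℓ.out.ne_zero⟩
  refine ⟨heckeProd ℓ, fun f => Fermat.Agent.S29.Hk.BlockKCC.hA_PhiC N ℓ hℓN f, ?_⟩
  intro y u _ hy γ
  have hz : ∀ a : ZMod n, zetaMer n ^ a.val = algebraMap ℂ Mer (ZMod.stdAddChar a) := by
    intro a
    rw [zetaMer, ← map_pow, ZMod.stdAddChar_apply, ZMod.toCircle_apply, ← Complex.exp_nat_mul]
    congr 2
    ring
  rw [hz]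
  apply compMer_heckeProd_stdAddChar hℓN u y
  intro δ
  rw [hy δ, hz]

/-- the Hecke operator on `Pic⁰(F_ℂ)` as a correspondence. -/
theorem heckeOperatorAlong_eq (ℓ : ℕ) [NeZero ℓ] :
    heckeOperatorAlong ℂ N ℓ =
      Pic0.correspondence (heckeBetaBar ℂ N ℓ) (heckeAlphaBar ℂ N ℓ)
        (Fermat.Agent.S29.HeckeInputsL.heckeBetaBarIntegral ℂ N ℓ)
        (Fermat.Agent.S29.HeckeInputsL.heckeAlphaBarIntegral ℂ N ℓ)
        (Fermat.Agent.S29.HeckeInputsL.fundamentalIdentityAlong_beta ℂ N ℓ)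
        (Fermat.Agent.S29.HeckeInputsL.finiteAlong_alpha ℂ N ℓ)
        (Fermat.Agent.S29.HeckeInputsL.normFormulaAlong_alpha ℂ N ℓ) :=
  Fermat.Agent.S29.HeckeInputsL.heckeOperatorAlong_eq_heckePic0Bar ℂ N ℓ

/-- **Hecke transport of the Kummer relation for exponent `n`.** -/
theorem kum_hecke (ℓ : ℕ) [hℓ : Fact ℓ.Prime] [NeZero ℓ] (hℓN : ¬ ℓ ∣ N) {x : Pic0 ℂ (FC N)}
    {u : Additive (Gamma0 N) →+ ZMod n} (h : Kum (PhiC N) (rhoN N) (zetaMer n) n x u) :
    Kum (PhiC N) (rhoN N) (zetaMer n) n (heckeOperatorAlong ℂ N ℓ x)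
      (heckeHom hℓN (ZMod n) u) := by
  obtain ⟨Hp, hHpΦ, hHp⟩ := hkInput_n N n ℓ hℓN
  rw [heckeOperatorAlong_eq N ℓ]
  exact Kum.hecke (heckeAlphaBar ℂ N ℓ) (heckeBetaBar ℂ N ℓ)
    (Fermat.Agent.S29.HeckeInputsL.heckeAlphaBarIntegral ℂ N ℓ)
    (Fermat.Agent.S29.HeckeInputsL.heckeBetaBarIntegral ℂ N ℓ)
    (Fermat.Agent.S29.HeckeInputsL.fundamentalIdentityAlong_beta ℂ N ℓ)
    (Fermat.Agent.S29.HeckeInputsL.finiteAlong_alpha ℂ N ℓ)
    (Fermat.Agent.S29.HeckeInputsL.normFormulaAlong_alpha ℂ N ℓ) Hp hHpΦ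
    (fun v => heckeHom hℓN (ZMod n) v) hHp h

/-- **the class map for exponent `n`** (existence). -/
theorem exists_eN :
    ∃ e : XN N n →+ Pic0.torsion ℂ (FC N) n, Function.Injective e ∧
      ∀ u : XN N n, Kum (PhiC N) (rhoN N) (zetaMer n) n
        ((e u : Pic0.torsion ℂ (FC N) n) : Pic0 ℂ (FC N))
        (u : Additive (Gamma0 N) →+ ZMod n) :=
  exists_section (bridge_n N n) (XN N n) (fun u hu => exists_kum_n N n u hu)

/-- a chosen class map for exponent `n`. -/
def eN : XN N n →+ Pic0.torsion ℂ (FC N) n := Classical.choose (exists_eN N n)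

theorem eN_injective : Function.Injective (eN N n) := (Classical.choose_spec (exists_eN N n)).1

theorem eN_kum (u : XN N n) :
    Kum (PhiC N) (rhoN N) (zetaMer n) n ((eN N n u : Pic0.torsion ℂ (FC N) n) : Pic0 ℂ (FC N))
      (u : Additive (Gamma0 N) →+ ZMod n) :=
  (Classical.choose_spec (exists_eN N n)).2 u

/-- the class map is characterised by the Kummer relation. -/
theorem eN_unique {x : Pic0 ℂ (FC N)} (u : XN N n)
    (h : Kum (PhiC N) (rhoN N) (zetaMer n) n x (u : Additive (Gamma0 N) →+ ZMod n)) :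
    x = ((eN N n u : Pic0.torsion ℂ (FC N) n) : Pic0 ℂ (FC N)) :=
  Kum.unique_class (bridge_n N n) h (eN_kum N n u)

/-- `T_ℓ` on the source. -/
def heckeXN (ℓ : ℕ) [Fact ℓ.Prime] (hℓN : ¬ ℓ ∣ N) (u : XN N n) : XN N n :=
  ⟨heckeHom hℓN (ZMod n) (u : Additive (Gamma0 N) →+ ZMod n), isAdmChar_heckeHom hℓN u.2⟩

/-- **Hecke equivariance of the class map for exponent `n`.** -/
theorem eN_hecke (ℓ : ℕ) [Fact ℓ.Prime] [NeZero ℓ] (hℓN : ¬ ℓ ∣ N) (u : XN N n) :
    heckeOperatorAlong ℂ N ℓ ((eN N n u : Pic0.torsion ℂ (FC N) n) : Pic0 ℂ (FC N)) =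
      ((eN N n (heckeXN N n ℓ hℓN u) : Pic0.torsion ℂ (FC N) n) : Pic0 ℂ (FC N)) :=
  eN_unique N n (heckeXN N n ℓ hℓN u) (kum_hecke N n ℓ hℓN (eN_kum N n u))

end Fermat.Agent.S30.KummerN

end
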