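import Mathlib
import Fermat.Agent.S30.KummerN

/-!
# S30 (block B0): compatibility of the Kummer class maps between the exponents `n * m` and `n`

* `redHom n m u` : the reduction `ZMod (n * m) → ZMod n` of a character;
* `Kum.of_mul` (abstract, on `Hk/Equivariant`): if `ζ' ^ m = ζ` and `ζ' ^ (n * m) = 1` then
  `Kum Φ ρ ζ' (n * m) x u → Kum Φ ρ ζ n (m • x) (redHom n m u)`
  (witness `(D, f, y) ↦ (m • D, f, y ^ m)`);
* `zetaMer_pow` : `zetaMer (n * m) ^ m = zetaMer n`;
* `redXN` : reduction on the admissible characters, `redXN_hecke`;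
* `eN_red` : **`eN N n (red u) = m • eN N (n * m) u`** in `Pic⁰(F_ℂ)`.
-/

set_option autoImplicit false
set_option linter.unusedSectionVars false
set_option linter.style.haveILetI false

noncomputable section

namespace Fermat.Agent.S30.KumCompat

open AlgebraicCurve ModularCurve CongruenceSubgroup
open Fermat.Agent.S24 Fermat.Agent.S24.PsiLe
open Fermat.Agent.S29.ModFunC (PhiC)
open Fermat.Agent.S29.Kummer.ClassMapC Fermat.Agent.S29.Hk.Equivariant
open Fermat.Agent.S29.Kummer.BlockKC (zetaMer)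
open Fermat.Agent.S29.Betti Fermat.Agent.S30.KummerN
open scoped MatrixGroups

section Abstract

variable {K F M Γ : Type*} [Field K] [Field F] [Algebra K F] [Field M] [Group Γ]

/-- reduction of a `ZMod (n * m)`-valued character modulo `n`. -/
def redHom (n m : ℕ) (u : Additive Γ →+ ZMod (n * m)) : Additive Γ →+ ZMod n :=
  (ZMod.castHom (dvd_mul_right n m) (ZMod n)).toAddMonoidHom.comp u

theorem redHom_apply (n m : ℕ) (u : Additive Γ →+ ZMod (n * m)) (γ : Additive Γ) :
    redHom n m u γ = ZMod.castHom (dvd_mul_right n m) (ZMod n) (u γ) := rfl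

theorem val_redHom (n m : ℕ) [NeZero n] [NeZero m] (u : Additive Γ →+ ZMod (n * m))
    (γ : Additive Γ) : (redHom n m u γ).val = (u γ).val % n := by
  rw [redHom_apply, ZMod.castHom_apply, ZMod.cast_eq_val, ZMod.val_natCast]

theorem mk_nsmul (m : ℕ) (D : Divisor.degZero (K := K) (F := F)) :
    Pic0.mk (m • D) = m • Pic0.mk D := by
  induction m with
  | zero => simp [Pic0.mk_zero]
  | succ k ih => rw [succ_nsmul, succ_nsmul, Pic0.mk_add, ih]

variable {Φ : F →+* M} {ρ : Γ → M →+* M}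

/-- **level compatibility of the Kummer relation.** -/
theorem Kum.of_mul {n m : ℕ} [NeZero n] [NeZero m] {ζ ζ' : M} (hζ : ζ' ^ m = ζ)
    (hζ' : ζ' ^ (n * m) = 1) {x : Pic0 K F} {u : Additive Γ →+ ZMod (n * m)}
    (h : Kum Φ ρ ζ' (n * m) x u) : Kum Φ ρ ζ n (m • x) (redHom n m u) := by
  obtain ⟨D, f, y, hx, hf, hD, hy, hρ⟩ := h
  have hζn : ζ ^ n = 1 := by rw [← hζ, ← pow_mul, mul_comm m n, hζ']
  refine ⟨m • D, f, y ^ m, by rw [mk_nsmul, hx], hf, fun v => ?_, ?_, fun γ => ?_⟩
  · have h1 := hD v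
    rw [AddSubgroup.coe_nsmul, Finsupp.smul_apply, nsmul_eq_mul]
    rw [Nat.cast_mul] at h1
    rw [← h1]
    ring
  · rw [← pow_mul, mul_comm m n, hy]
  · rw [map_pow, hρ γ, mul_pow, ← pow_mul, mul_comm _ m, pow_mul, hζ, val_redHom,
      ← pow_eq_pow_mod _ hζn]

end Abstract

/-- `exp (2πi/(n m)) ^ m = exp (2πi/n)`. -/
theorem zetaMer_pow (n m : ℕ) [NeZero n] [NeZero m] : zetaMer (n * m) ^ m = zetaMer n := by
  rw [zetaMer, zetaMer, ← map_pow, ← Complex.exp_nat_mul]
  congr 2
  have hn : (n : ℂ) ≠ 0 := Nat.cast_ne_zero.mpr (NeZero.ne n)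
  have hm : (m : ℂ) ≠ 0 := Nat.cast_ne_zero.mpr (NeZero.ne m)
  rw [Nat.cast_mul]
  field_simp

theorem zetaMer_pow_self (n : ℕ) [NeZero n] : zetaMer n ^ n = 1 :=
  (Fermat.Agent.S29.Kummer.BlockKC.zetaMer_isPrimitiveRoot n).pow_eq_one

section Concrete

variable (N n m : ℕ) [NeZero N] [NeZero n] [NeZero m]

/-- reduction preserves admissibility. -/
theorem isAdmChar_redHom {u : Additive (Gamma0 N) →+ ZMod (n * m)} (hu : IsAdmChar u) :
    IsAdmChar (redHom n m u) := by
  intro γ hγ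
  rw [redHom_apply, hu γ hγ, map_zero]

/-- reduction `X N (ZMod (n m)) → X N (ZMod n)`. -/
def redXN : XN N (n * m) →+ XN N n where
  toFun u := ⟨redHom n m (u : Additive (Gamma0 N) →+ ZMod (n * m)), isAdmChar_redHom N n m u.2⟩
  map_zero' := by
    apply Subtype.ext
    refine AddMonoidHom.ext fun γ => ?_
    show redHom n m ((0 : XN N (n * m)) : Additive (Gamma0 N) →+ ZMod (n * m)) γ = 0
    rw [redHom_apply, AddSubgroup.coe_zero, AddMonoidHom.zero_apply, map_zero]
  map_add' u v := by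
    apply Subtype.ext
    refine AddMonoidHom.ext fun γ => ?_
    show redHom n m ((u + v : XN N (n * m)) : Additive (Gamma0 N) →+ ZMod (n * m)) γ =
      redHom n m (u : Additive (Gamma0 N) →+ ZMod (n * m)) γ +
        redHom n m (v : Additive (Gamma0 N) →+ ZMod (n * m)) γ
    rw [redHom_apply, redHom_apply, redHom_apply, AddSubgroup.coe_add, AddMonoidHom.add_apply,
      map_add]

@[simp] theorem coe_redXN (u : XN N (n * m)) :
    ((redXN N n m u : XN N n) : Additive (Gamma0 N) →+ ZMod n) =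
      redHom n m (u : Additive (Gamma0 N) →+ ZMod (n * m)) := rfl

/-- reduction commutes with the Hecke operators. -/
theorem redXN_hecke (ℓ : ℕ) [Fact ℓ.Prime] (hℓN : ¬ ℓ ∣ N) (u : XN N (n * m)) :
    redXN N n m (heckeXN N (n * m) ℓ hℓN u) = heckeXN N n ℓ hℓN (redXN N n m u) := by
  apply Subtype.ext
  refine AddMonoidHom.ext fun γ => ?_
  show redHom n m (heckeHom hℓN (ZMod (n * m)) (u : Additive (Gamma0 N) →+ ZMod (n * m))) γ =
    heckeHom hℓN (ZMod n) (redHom n m (u : Additive (Gamma0 N) →+ ZMod (n * m))) γ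
  obtain ⟨g, rfl⟩ : ∃ g : Gamma0 N, Additive.ofMul g = γ := ⟨Additive.toMul γ, rfl⟩
  rw [redHom_apply, heckeHom_apply, heckeHom_apply, map_sum]
  rfl

/-- **level compatibility of the class maps**: `e_n (u mod n) = m • e_{n m} u`. -/
theorem eN_red (u : XN N (n * m)) :
    ((eN N n (redXN N n m u) : Pic0.torsion ℂ (FC N) n) : Pic0 ℂ (FC N)) =
      m • ((eN N (n * m) u : Pic0.torsion ℂ (FC N) (n * m)) : Pic0 ℂ (FC N)) := by
  have h := Kum.of_mul (n := n) (m := m) (zetaMer_pow n m) (zetaMer_pow_self (n * m))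
    (eN_kum N (n * m) u)
  exact (eN_unique N n (redXN N n m u) h).symm

end Concrete

end Fermat.Agent.S30.KumCompat

end
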