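import Mathlib
import Fermat.Agent.S30.KumCompat

/-!
# S30 (block B0): the system of Kummer class maps `κ_k : X N (ZMod (p^k)) → Pic⁰(F_ℂ N)`

The maps `eN N (p^k)` of `S30/KummerN` repackaged for the limit construction
(`S30/LimitMap`, `S30/TateModule.ofSystem`) and the descent to `ℚ̄` (`S30/KappaBar`):

* `Xk N p k` : the submodule `Betti.XMod N (ZMod (p^k)) (ZMod (p^k))` (as a type);
* `kappaC N p k : Xk N p k →+ Pic0 ℂ (FL ℂ N)`;
* `kappaC_injective`, `kappaC_tors : p^k • kappaC N p k u = 0`, `kappaC_zero`;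
* `kappaC_hecke` : `kappaC (heckeX u) = heckeOperatorAlong ℂ N ℓ (kappaC u)`;
* `castX N p k : Xk N p (k+1) →+ Xk N p k`, `castX_heckeX`;
* `kappaC_compat` / `kappaC_castX` : `kappaC k (castX u) = p • kappaC (k+1) u`.
-/

set_option autoImplicit false
set_option linter.unusedSectionVars false
set_option linter.style.haveILetI false

noncomputable section

namespace Fermat.Agent.S30.KappaC

open AlgebraicCurve ModularCurve CongruenceSubgroup
open Fermat.Agent.S29.HeckeInputsL (FL)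
open Fermat.Agent.S29.Betti Fermat.Agent.S30.KummerN Fermat.Agent.S30.KumCompat
open Fermat.Agent.S29.Hk.Equivariant
open scoped MatrixGroups

variable (N : ℕ) [NeZero N] (p : ℕ) [hp : Fact p.Prime]

local instance instNeZeroPow (k : ℕ) : NeZero (p ^ k) := ⟨pow_ne_zero k hp.out.ne_zero⟩

local instance instNeZeroP : NeZero p := ⟨hp.out.ne_zero⟩

/-- the admissible `ZMod (p^k)`-valued characters of `Γ₀(N)`. -/
abbrev Xk (k : ℕ) : Type := ↥(XMod N (ZMod (p ^ k)) (ZMod (p ^ k)))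

/-- `Xk` as the source of `eN`. -/
def toXN (k : ℕ) : Xk N p k →+ XN N (p ^ k) where
  toFun u := ⟨(u : Additive (Gamma0 N) →+ ZMod (p ^ k)), u.2⟩
  map_zero' := rfl
  map_add' _ _ := rfl

@[simp] theorem coe_toXN (k : ℕ) (u : Xk N p k) :
    ((toXN N p k u : XN N (p ^ k)) : Additive (Gamma0 N) →+ ZMod (p ^ k)) =
      (u : Additive (Gamma0 N) →+ ZMod (p ^ k)) := rfl

theorem toXN_injective (k : ℕ) : Function.Injective (toXN N p k) := by
  intro u v h
  apply Subtype.ext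
  exact congrArg (fun w : XN N (p ^ k) => (w : Additive (Gamma0 N) →+ ZMod (p ^ k))) h

/-- **the Kummer class map of level `p^k`** with values in `Pic⁰(F_ℂ N)`. -/
def kappaC (k : ℕ) : Xk N p k →+ Pic0 ℂ (FL ℂ N) :=
  ((Pic0.torsion ℂ (FL ℂ N) (p ^ k)).subtype.comp (eN N (p ^ k))).comp (toXN N p k)

theorem kappaC_apply (k : ℕ) (u : Xk N p k) :
    kappaC N p k u =
      ((eN N (p ^ k) (toXN N p k u) : Pic0.torsion ℂ (FL ℂ N) (p ^ k)) : Pic0 ℂ (FL ℂ N)) := rfl

theorem kappaC_injective (k : ℕ) : Function.Injective (kappaC N p k) := by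
  intro u v h
  apply toXN_injective N p k
  apply eN_injective N (p ^ k)
  exact Subtype.ext h

/-- the values are `p^k`-torsion. -/
theorem kappaC_tors (k : ℕ) (u : Xk N p k) : p ^ k • kappaC N p k u = 0 := by
  have h := (eN N (p ^ k) (toXN N p k u)).2
  rw [Pic0.mem_torsion, natCast_zsmul] at h
  exact h

theorem kappaC_zero (u : Xk N p 0) : kappaC N p 0 u = 0 := by
  have h : (1 : ℕ) • kappaC N p 0 u = 0 := kappaC_tors N p 0 u
  rwa [one_smul] at h

/-- the Kummer specification. -/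
theorem kappaC_kum (k : ℕ) (u : Xk N p k) :
    Kum (Fermat.Agent.S29.ModFunC.PhiC N) (rhoN N)
      (Fermat.Agent.S29.Kummer.BlockKC.zetaMer (p ^ k)) (p ^ k) (kappaC N p k u)
      (u : Additive (Gamma0 N) →+ ZMod (p ^ k)) :=
  eN_kum N (p ^ k) (toXN N p k u)

/-- **Hecke equivariance.** -/
theorem kappaC_hecke (k : ℕ) (ℓ : Nat.Primes) (hℓN : ¬ (ℓ : ℕ) ∣ N) (u : Xk N p k) :
    haveI : Fact (ℓ : ℕ).Prime := ⟨ℓ.2⟩
    kappaC N p k (heckeX hℓN (ZMod (p ^ k)) (ZMod (p ^ k)) u) =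
      (haveI : NeZero (ℓ : ℕ) := ⟨ℓ.2.ne_zero⟩; heckeOperatorAlong ℂ N ℓ (kappaC N p k u)) := by
  haveI : Fact (ℓ : ℕ).Prime := ⟨ℓ.2⟩
  haveI : NeZero (ℓ : ℕ) := ⟨ℓ.2.ne_zero⟩
  have h := eN_hecke N (p ^ k) (ℓ : ℕ) hℓN (toXN N p k u)
  rw [kappaC_apply, kappaC_apply]
  exact h.symm

/-- reduction `X N (ZMod (p^(k+1))) → X N (ZMod (p^k))`. -/
def castX (k : ℕ) : Xk N p (k + 1) →+ Xk N p k where
  toFun u := ⟨(ZMod.castHom (pow_dvd_pow p k.le_succ) (ZMod (p ^ k))).toAddMonoidHom.comp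
      (u : Additive (Gamma0 N) →+ ZMod (p ^ (k + 1))), fun γ hγ => by
        show ZMod.castHom (pow_dvd_pow p k.le_succ) (ZMod (p ^ k))
          ((u : Additive (Gamma0 N) →+ ZMod (p ^ (k + 1))) (Additive.ofMul γ)) = 0
        rw [u.2 γ hγ, map_zero]⟩
  map_zero' := by
    apply Subtype.ext
    refine AddMonoidHom.ext fun γ => ?_
    show ZMod.castHom (pow_dvd_pow p k.le_succ) (ZMod (p ^ k))
      (((0 : Xk N p (k + 1)) : Additive (Gamma0 N) →+ ZMod (p ^ (k + 1))) γ) = 0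
    rw [Submodule.coe_zero, AddMonoidHom.zero_apply, map_zero]
  map_add' u v := by
    apply Subtype.ext
    refine AddMonoidHom.ext fun γ => ?_
    show ZMod.castHom (pow_dvd_pow p k.le_succ) (ZMod (p ^ k))
      (((u + v : Xk N p (k + 1)) : Additive (Gamma0 N) →+ ZMod (p ^ (k + 1))) γ) =
      ZMod.castHom (pow_dvd_pow p k.le_succ) (ZMod (p ^ k))
        ((u : Additive (Gamma0 N) →+ ZMod (p ^ (k + 1))) γ) +
      ZMod.castHom (pow_dvd_pow p k.le_succ) (ZMod (p ^ k))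
        ((v : Additive (Gamma0 N) →+ ZMod (p ^ (k + 1))) γ)
    rw [Submodule.coe_add, AddMonoidHom.add_apply, map_add]

theorem castX_apply (k : ℕ) (u : Xk N p (k + 1)) (γ : Additive (Gamma0 N)) :
    ((castX N p k u : Xk N p k) : Additive (Gamma0 N) →+ ZMod (p ^ k)) γ =
      ZMod.castHom (pow_dvd_pow p k.le_succ) (ZMod (p ^ k))
        ((u : Additive (Gamma0 N) →+ ZMod (p ^ (k + 1))) γ) := rfl

/-- **level compatibility**, in a form independent of the spelling of the reduction map. -/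
theorem kappaC_compat (k : ℕ) (u : Xk N p (k + 1)) (v : Xk N p k)
    (h : ∀ γ : Additive (Gamma0 N), (v : Additive (Gamma0 N) →+ ZMod (p ^ k)) γ =
      ZMod.castHom (pow_dvd_pow p k.le_succ) (ZMod (p ^ k))
        ((u : Additive (Gamma0 N) →+ ZMod (p ^ (k + 1))) γ)) :
    kappaC N p k v = p • kappaC N p (k + 1) u := by
  have hK := kappaC_kum N p (k + 1) u
  have h1 : Kum (Fermat.Agent.S29.ModFunC.PhiC N) (rhoN N)
      (Fermat.Agent.S29.Kummer.BlockKC.zetaMer (p ^ k)) (p ^ k) (p • kappaC N p (k + 1) u)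
      (redHom (p ^ k) p (show Additive (Gamma0 N) →+ ZMod (p ^ k * p) from
        (u : Additive (Gamma0 N) →+ ZMod (p ^ (k + 1))))) :=
    Kum.of_mul (n := p ^ k) (m := p) (zetaMer_pow (p ^ k) p) (zetaMer_pow_self (p ^ k * p)) hK
  have h2 : redHom (p ^ k) p (show Additive (Gamma0 N) →+ ZMod (p ^ k * p) from
      (u : Additive (Gamma0 N) →+ ZMod (p ^ (k + 1)))) =
      (v : Additive (Gamma0 N) →+ ZMod (p ^ k)) := by
    refine AddMonoidHom.ext fun γ => ?_
    rw [h γ]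
    rfl
  rw [h2] at h1
  exact ((eN_unique N (p ^ k) (toXN N p k v) h1)).symm

theorem kappaC_castX (k : ℕ) (u : Xk N p (k + 1)) :
    kappaC N p k (castX N p k u) = p • kappaC N p (k + 1) u :=
  kappaC_compat N p k u (castX N p k u) (fun γ => castX_apply N p k u γ)

/-- reduction commutes with the Hecke operators. -/
theorem castX_heckeX (k : ℕ) (ℓ : ℕ) [Fact ℓ.Prime] (hℓN : ¬ ℓ ∣ N) (u : Xk N p (k + 1)) :
    castX N p k (heckeX hℓN (ZMod (p ^ (k + 1))) (ZMod (p ^ (k + 1))) u) =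
      heckeX hℓN (ZMod (p ^ k)) (ZMod (p ^ k)) (castX N p k u) := by
  apply Subtype.ext
  refine AddMonoidHom.ext fun γ => ?_
  obtain ⟨g, rfl⟩ : ∃ g : Gamma0 N, Additive.ofMul g = γ := ⟨Additive.toMul γ, rfl⟩
  rw [castX_apply, heckeX_coe, heckeX_coe, heckeHom_apply, heckeHom_apply, map_sum]
  rfl

end Fermat.Agent.S30.KappaC

end
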