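import Mathlib
import Fermat.Agent.S29.Desc.Main
import Fermat.Agent.S29.OpenStab
import Fermat.Agent.S29.Core.ESOp
import Fermat.Agent.S29.GaloisHecke

/-!
# S30 (B, concrete inputs): the torsion of `J₀(N)(ℚ̄)` — finiteness, uniform finite level, and the
Galois / Hecke endomorphisms with the Eichler–Shimura and inertia relations on `p`-power torsion

`JZero N = Pic⁰(F_N ⊗ ℚ̄)` with its `G_ℚ`-action (Prelude) and the Hecke operators
`heckeOperatorBar N ℓ`.

* `finite_torsion_bar N n` : `J₀(N)(ℚ̄)[n]` is finite (`n ≥ 1`): the base change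
  `Desc.Main.bcJ ℚ̄ ℂ N` is additive and injective, and `Pic⁰(F_ℂ)[n]` is finite
  (`Desc.FiniteTorsionMain`);
* `finite_nsmul_eq_zero N n` : the same in the spelling `Finite {a : JZero N // n • a = 0}`;
* `exists_level_torsion N n` : a finite normal `L/ℚ` such that `Gal(ℚ̄/L)` fixes `J₀(N)(ℚ̄)[n]`;
* `galAdd N : G_ℚ →* AddMonoid.End (JZero N)`, `heckeAdd N ℓ : AddMonoid.End (JZero N)`, they commute;
* `es_torsion`, `inertia_torsion` : `Core.ESOp` restated for these endomorphisms.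
-/

set_option autoImplicit false
set_option linter.unusedSectionVars false
set_option linter.style.haveILetI false

noncomputable section

open AlgebraicCurve ModularCurve
open Fermat.Agent.S29.HeckeInputsL Fermat.Agent.S29.Desc

namespace Fermat.Agent.S30.TorsionLevel

local notation "Kb" => AlgebraicClosure ℚ
local notation "GQ" => (AlgebraicClosure ℚ ≃ₐ[ℚ] AlgebraicClosure ℚ)

variable (N : ℕ) [NeZero N]

/-! ### Finiteness -/

/-- **`J₀(N)(ℚ̄)[n]` is finite.** -/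
theorem finite_torsion_bar (n : ℕ) [NeZero n] :
    Finite (Pic0.torsion Kb (modularFunctionFieldBar N) n) := by
  letI := Main.algQbarC
  haveI := Main.isScalarTower_QbarC
  haveI : Finite (Pic0.torsion ℂ (FL ℂ N) n) :=
    FiniteTorsionMain.finite_torsion N (Nat.pos_of_ne_zero (NeZero.ne n))
  have hmem : ∀ x : Pic0.torsion Kb (FL Kb N) n,
      Main.bcJ Kb ℂ N (x : Pic0 Kb (FL Kb N)) ∈ Pic0.torsion ℂ (FL ℂ N) n := by
    intro x
    have hx := x.2
    rw [Pic0.mem_torsion] at hx ⊢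
    rw [← map_zsmul, hx, map_zero]
  refine Finite.of_injective
    (fun x : Pic0.torsion Kb (FL Kb N) n =>
      (⟨Main.bcJ Kb ℂ N (x : Pic0 Kb (FL Kb N)), hmem x⟩ : Pic0.torsion ℂ (FL ℂ N) n)) ?_
  intro x y h
  have h1 : Main.bcJ Kb ℂ N (x : Pic0 Kb (FL Kb N)) = Main.bcJ Kb ℂ N (y : Pic0 Kb (FL Kb N)) :=
    congrArg Subtype.val h
  exact Subtype.ext (Main.bcJ_injective Kb ℂ N h1)

/-- the `ℕ`-multiple spelling of torsion. -/
theorem mem_torsion_iff_nsmul (n : ℕ) (x : JZero N) :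
    x ∈ Pic0.torsion Kb (modularFunctionFieldBar N) n ↔ n • x = 0 := by
  rw [Pic0.mem_torsion, natCast_zsmul]

/-- **`{a : J₀(N)(ℚ̄) // n • a = 0}` is finite.** -/
theorem finite_nsmul_eq_zero (n : ℕ) [NeZero n] : Finite {a : JZero N // n • a = 0} := by
  haveI := finite_torsion_bar N n
  refine Finite.of_injective
    (fun a : {a : JZero N // n • a = 0} =>
      (⟨a.1, (mem_torsion_iff_nsmul N n a.1).mpr a.2⟩ :
        Pic0.torsion Kb (modularFunctionFieldBar N) n)) ?_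
  intro a b h
  exact Subtype.ext (congrArg (fun z : Pic0.torsion Kb (modularFunctionFieldBar N) n =>
    (z : JZero N)) h)

/-! ### Uniform finite level -/

/-- **a finite normal level for all of `J₀(N)(ℚ̄)[n]`.** -/
theorem exists_level_torsion (n : ℕ) [NeZero n] :
    ∃ L : IntermediateField ℚ Kb, FiniteDimensional ℚ L ∧
      (∀ σ : Kb →ₐ[ℚ] Kb, L.map σ = L) ∧
      ∀ σ : GQ, (∀ a ∈ L, σ a = a) → ∀ x : JZero N, n • x = 0 → σ • x = x := by
  classical
  haveI : Finite ↥{a : JZero N | n • a = 0} := finite_nsmul_eq_zero N n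
  have hfin : Set.Finite {a : JZero N | n • a = 0} := Set.toFinite _
  obtain ⟨L, hL, hst, hfix⟩ := Fermat.Agent.S29.OpenStab.exists_fixing_finset N hfin.toFinset
  exact ⟨L, hL, hst, fun σ hσ x hx => hfix σ hσ x (hfin.mem_toFinset.mpr hx)⟩

/-! ### Galois and Hecke as additive endomorphisms -/

/-- the Galois action on `J₀(N)(ℚ̄)` by additive endomorphisms. -/
def galAdd : GQ →* AddMonoid.End (JZero N) :=
  DistribMulAction.toAddMonoidEnd GQ (JZero N)

@[simp] theorem galAdd_apply (σ : GQ) (x : JZero N) : galAdd N σ x = σ • x := rfl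

/-- the Hecke operator `T_ℓ` on `J₀(N)(ℚ̄)` as an additive endomorphism. -/
def heckeAdd (ℓ : Nat.Primes) : AddMonoid.End (JZero N) :=
  (heckeOperatorBar N ℓ).toAddMonoidHom

@[simp] theorem heckeAdd_apply (ℓ : Nat.Primes) (x : JZero N) :
    heckeAdd N ℓ x = heckeOperatorBar N ℓ x := rfl

/-- **Galois commutes with Hecke.** -/
theorem galAdd_mul_heckeAdd (σ : GQ) (ℓ : Nat.Primes) :
    galAdd N σ * heckeAdd N ℓ = heckeAdd N ℓ * galAdd N σ := by
  ext x
  show σ • heckeOperatorBar N ℓ x = heckeOperatorBar N ℓ (σ • x)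
  exact Fermat.Agent.S29.GaloisHecke.heckeOperatorBar_smul N ℓ σ x

/-- **Eichler–Shimura on `p`-power torsion**: `Φ² - T_ℓ Φ + ℓ` kills `J₀(N)(ℚ̄)[p^k]` for a Frobenius
lift `Φ` at a prime `ℓ ∤ N p`. -/
theorem es_torsion (p ℓ : ℕ) (hℓ : ℓ.Prime) (hndvd : ¬ ℓ ∣ N * p)
    (A : ValuationSubring Kb) (hA : A.LiesOverPrime ℓ) (Φ : GQ) (hΦ : A.IsFrobeniusAt Φ ℓ)
    (k : ℕ) (x : JZero N) (hx : p ^ k • x = 0) :
    (galAdd N Φ * galAdd N Φ - heckeAdd N ⟨ℓ, hℓ⟩ * galAdd N Φ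
      + (ℓ : AddMonoid.End (JZero N))) x = 0 := by
  have h := Fermat.Agent.S29.Core.ESOp.es_eq_zero N p ℓ hℓ hndvd A hA Φ hΦ x k hx
  have h1 : ((ℓ : AddMonoid.End (JZero N))) x = ℓ • x := by
    rw [AddMonoid.End.natCast_apply]
  show (galAdd N Φ * galAdd N Φ - heckeAdd N ⟨ℓ, hℓ⟩ * galAdd N Φ) x
      + ((ℓ : AddMonoid.End (JZero N))) x = 0
  rw [h1]
  show Φ • (Φ • x) - heckeOperatorBar N ⟨ℓ, hℓ⟩ (Φ • x) + ℓ • x = 0
  exact h

/-- **inertia acts trivially on `p`-power torsion** at a prime `q ∤ N p`. -/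
theorem inertia_torsion (p q : ℕ) (hq : q.Prime) (hndvd : ¬ q ∣ N * p)
    (A : ValuationSubring Kb) (hA : A.LiesOverPrime q) (σ : GQ)
    (hσ : σ ∈ A.inertiaSubgroupIn ℚ) (k : ℕ) (x : JZero N) (hx : p ^ k • x = 0) :
    galAdd N σ x = x :=
  Fermat.Agent.S29.Core.ESOp.inertia_smul_eq N p q hq hndvd A hA σ hσ x k hx

end Fermat.Agent.S30.TorsionLevel

end
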