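import Mathlib
import Fermat.Agent.S30.TateModule
import Fermat.Agent.S30.TorsionLevel

/-!
# S30 (B, concrete): the `p`-adic Tate module of `J₀(N)` with its Galois and Hecke actions

`TpJ N p := tate (JZero N) p = lim_k J₀(N)(ℚ̄)[p^k]` (abstract functor of `S30/TateModule`), a finitely
generated free `ℤ_[p]`-module, with

* `rhoT N p : G_ℚ →* Module.End ℤ_[p] (TpJ N p)` (the native Galois action),
* `heckeT N p ℓ : Module.End ℤ_[p] (TpJ N p)` (induced by `heckeOperatorBar N ℓ`),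
* `rhoT_mul_heckeT` : they commute,
* `es_T` : `Φ² - T_ℓ Φ + ℓ = 0` on `TpJ N p` for every Frobenius lift `Φ` at a prime `ℓ ∤ N p`,
* `inertia_T` : `rhoT σ = 1` for `σ` in an inertia group at a prime `q ∤ N p`,
* `level_T` : for every `n` a finite normal `L/ℚ` such that `Gal(ℚ̄/L)` acts trivially modulo `p ^ n`.
-/

set_option autoImplicit false
set_option linter.unusedSectionVars false
set_option linter.style.haveILetI false

noncomputable section

open AlgebraicCurve ModularCurve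
open Fermat.Agent.S30.TateModule Fermat.Agent.S30.TorsionLevel

namespace Fermat.Agent.S30.TateJ

local notation "Kb" => AlgebraicClosure ℚ
local notation "GQ" => (AlgebraicClosure ℚ ≃ₐ[ℚ] AlgebraicClosure ℚ)

variable (N : ℕ) [NeZero N] (p : ℕ) [hp : Fact p.Prime]

/-- the `p`-adic Tate module of `J₀(N)`. -/
abbrev TpJ : Type := tate (JZero N) p

instance instFiniteFirst : Finite {a : JZero N // p • a = 0} :=
  haveI : NeZero p := ⟨hp.out.ne_zero⟩
  finite_nsmul_eq_zero N p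

/-- `T_p J₀(N)` is a finitely generated `ℤ_[p]`-module. -/
theorem finite_TpJ : Module.Finite ℤ_[p] (TpJ N p) := inferInstance

/-- `T_p J₀(N)` is a free `ℤ_[p]`-module. -/
theorem free_TpJ : Module.Free ℤ_[p] (TpJ N p) := inferInstance

/-- the Galois action on `T_p J₀(N)`. -/
def rhoT : GQ →* Module.End ℤ_[p] (TpJ N p) := rep (galAdd N)

@[simp] theorem rhoT_apply (σ : GQ) (x : TpJ N p) (k : ℕ) :
    ((rhoT N p σ x : TpJ N p) : ℕ → JZero N) k = σ • (x : ℕ → JZero N) k := rfl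

/-- the Hecke operator `T_ℓ` on `T_p J₀(N)`. -/
def heckeT (ℓ : Nat.Primes) : Module.End ℤ_[p] (TpJ N p) := mapEnd (heckeAdd N ℓ)

@[simp] theorem heckeT_apply (ℓ : Nat.Primes) (x : TpJ N p) (k : ℕ) :
    ((heckeT N p ℓ x : TpJ N p) : ℕ → JZero N) k = heckeOperatorBar N ℓ ((x : ℕ → JZero N) k) := rfl

/-- **Galois commutes with Hecke on the Tate module.** -/
theorem rhoT_mul_heckeT (σ : GQ) (ℓ : Nat.Primes) :
    rhoT N p σ * heckeT N p ℓ = heckeT N p ℓ * rhoT N p σ :=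
  mapEnd_commute (galAdd_mul_heckeAdd N σ ℓ)

/-- **Eichler–Shimura on the Tate module**: `Φ² - T_ℓ Φ + ℓ = 0` for a Frobenius lift `Φ` at a prime
`ℓ ∤ N p`. -/
theorem es_T (ℓ : ℕ) (hℓ : ℓ.Prime) (hndvd : ¬ ℓ ∣ N * p)
    (A : ValuationSubring Kb) (hA : A.LiesOverPrime ℓ) (Φ : GQ) (hΦ : A.IsFrobeniusAt Φ ℓ) :
    rhoT N p Φ * rhoT N p Φ - heckeT N p ⟨ℓ, hℓ⟩ * rhoT N p Φ
      + (ℓ : Module.End ℤ_[p] (TpJ N p)) = 0 := by
  have h0 : (mapEnd (galAdd N Φ * galAdd N Φ - heckeAdd N ⟨ℓ, hℓ⟩ * galAdd N Φ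
      + (ℓ : AddMonoid.End (JZero N))) : Module.End ℤ_[p] (TpJ N p)) = 0 :=
    map_eq_zero_of_kills (fun k a ha => es_torsion N p ℓ hℓ hndvd A hA Φ hΦ k a ha)
  rw [map_add, map_sub, map_mul, map_mul, map_natCast] at h0
  exact h0

/-- the same, applied to a vector. -/
theorem es_T_apply (ℓ : ℕ) (hℓ : ℓ.Prime) (hndvd : ¬ ℓ ∣ N * p)
    (A : ValuationSubring Kb) (hA : A.LiesOverPrime ℓ) (Φ : GQ) (hΦ : A.IsFrobeniusAt Φ ℓ)
    (x : TpJ N p) :
    rhoT N p Φ (rhoT N p Φ x) - heckeT N p ⟨ℓ, hℓ⟩ (rhoT N p Φ x) + (ℓ : ℤ_[p]) • x = 0 := by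
  have h := congrArg (fun f : Module.End ℤ_[p] (TpJ N p) => f x) (es_T N p ℓ hℓ hndvd A hA Φ hΦ)
  simp only [LinearMap.add_apply, LinearMap.sub_apply, Module.End.mul_apply,
    LinearMap.zero_apply] at h
  have h2 : ((ℓ : Module.End ℤ_[p] (TpJ N p))) x = (ℓ : ℤ_[p]) • x := by
    rw [Module.End.natCast_apply]
    exact (Nat.cast_smul_eq_nsmul ℤ_[p] ℓ x).symm
  rw [← h2]
  exact h

/-- **inertia acts trivially on the Tate module** at a prime `q ∤ N p`. -/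
theorem inertia_T (q : ℕ) (hq : q.Prime) (hndvd : ¬ q ∣ N * p)
    (A : ValuationSubring Kb) (hA : A.LiesOverPrime q) (σ : GQ)
    (hσ : σ ∈ A.inertiaSubgroupIn ℚ) : rhoT N p σ = 1 := by
  have h0 : (map (galAdd N σ) : TpJ N p →ₗ[ℤ_[p]] TpJ N p) = map (AddMonoidHom.id (JZero N)) :=
    map_eq_of_agree (fun k a ha => inertia_torsion N p q hq hndvd A hA σ hσ k a ha)
  rw [map_id] at h0
  exact h0

/-- **finite level**: for every `n` there is a finite normal `L/ℚ` with `Gal(ℚ̄/L)` acting trivially on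
`T_p J₀(N)` modulo `p ^ n`. -/
theorem level_T (n : ℕ) :
    ∃ L : IntermediateField ℚ Kb, FiniteDimensional ℚ L ∧
      (∀ σ : Kb →ₐ[ℚ] Kb, L.map σ = L) ∧
      ∀ σ : GQ, (∀ a ∈ L, σ a = a) → ∀ x : TpJ N p,
        rhoT N p σ x - x ∈
          ((Ideal.span {(p : ℤ_[p])}) ^ n • (⊤ : Submodule ℤ_[p] (TpJ N p))) := by
  haveI : NeZero (p ^ n) := ⟨pow_ne_zero n hp.out.ne_zero⟩
  obtain ⟨L, hL, hst, hfix⟩ := exists_level_torsion N (p ^ n)
  refine ⟨L, hL, hst, fun σ hσ x => ?_⟩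
  exact map_sub_self_mem (f := galAdd N σ) (fun a ha => hfix σ hσ a ha) x

/-- the same with the ideal `(p ^ n)`. -/
theorem level_T' (n : ℕ) :
    ∃ L : IntermediateField ℚ Kb, FiniteDimensional ℚ L ∧
      (∀ σ : Kb →ₐ[ℚ] Kb, L.map σ = L) ∧
      ∀ σ : GQ, (∀ a ∈ L, σ a = a) → ∀ x : TpJ N p,
        rhoT N p σ x - x ∈
          (Ideal.span {(p : ℤ_[p]) ^ n} • (⊤ : Submodule ℤ_[p] (TpJ N p))) := by
  obtain ⟨L, hL, hst, hfix⟩ := level_T N p n
  refine ⟨L, hL, hst, fun σ hσ x => ?_⟩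
  have h := hfix σ hσ x
  rwa [Ideal.span_singleton_pow] at h

end Fermat.Agent.S30.TateJ

end
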