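import Mathlib
import Fermat.Agent.S30.KappaBar
import Fermat.Agent.S30.KappaC
import Fermat.Agent.S30.ChiTate
import Fermat.Agent.S30.TateJ

/-!
# S30: the compatible system of Kummer class maps into `J₀(N)(ℚ̄)` and `χ` in `𝒪 ⊗ T_p J₀(N)`

* `systemBar N p : LimitMap.System N p (JZero N)`: the descent (`KappaBar.kappaBar`) of the class
  maps `KappaC.kappaC N p k` over `ℂ`, with `bcQC_systemBar`, `systemBar_torsion`,
  `systemBar_hecke` (w.r.t. `TorsionLevel.heckeAdd`, i.e. `heckeOperatorBar`);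
* `eTate N p : XMod N ℤ_[p] ℤ_[p] →ₗ[ℤ_[p]] TpJ N p` (`LimitMap.e`), injective, with
  `eTate_heckeX : eTate (heckeX hℓN _ _ ψ) = heckeT N p ⟨ℓ, hℓ⟩ (eTate ψ)`;
* `exists_eigen_TpJ`: a character `χ` of the Hecke algebra away from `S` with values in a domain
  `O` of characteristic zero, flat over `ℤ_p`, occurs in `O ⊗[ℤ_p] T_p J₀(N)`:
  a nonzero `v` with `(heckeT N p ⟨ℓ, hℓ⟩).baseChange O v = χ (T_ℓ) • v` for all `ℓ ∉ S`, `ℓ ∤ N`.
-/

set_option autoImplicit false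
set_option linter.unusedSectionVars false
set_option linter.style.haveILetI false

noncomputable section

open AlgebraicCurve ModularCurve CongruenceSubgroup
open scoped TensorProduct

namespace Fermat.Agent.S30.KappaSystem

open Fermat.Agent.S29.HeckeInputsL (FL)
open Fermat.Agent.S29.Betti
open Fermat.Agent.S30.KappaBar Fermat.Agent.S30.KappaC Fermat.Agent.S30.LimitMap
open Fermat.Agent.S30.TateModule Fermat.Agent.S30.TorsionLevel Fermat.Agent.S30.TateJ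

variable (N : ℕ) [NeZero N] (p : ℕ) [hp : Fact p.Prime]

theorem pow_pos' (k : ℕ) : 0 < p ^ k := pow_pos hp.out.pos k

/-- the class map of level `p ^ k` over `ℚ̄`. -/
def kappaQ (k : ℕ) : XMod N (ZMod (p ^ k)) (ZMod (p ^ k)) →+ JZero N :=
  kappaBar (pow_pos' p k) (kappaC N p k) (kappaC_tors N p k)

@[simp] theorem bcQC_kappaQ (k : ℕ) (u : XMod N (ZMod (p ^ k)) (ZMod (p ^ k))) :
    bcQC N (kappaQ N p k u) = kappaC N p k u :=
  bcQC_kappaBar _ _ _ u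

theorem kappaQ_torsion (k : ℕ) (u : XMod N (ZMod (p ^ k)) (ZMod (p ^ k))) :
    p ^ k • kappaQ N p k u = 0 :=
  kappaBar_torsion _ _ _ u

theorem kappaQ_injective (k : ℕ) : Function.Injective (kappaQ N p k) :=
  kappaBar_injective _ _ _ (kappaC_injective N p k)

theorem kappaQ_compat (k : ℕ) (u : XMod N (ZMod (p ^ (k + 1))) (ZMod (p ^ (k + 1)))) :
    kappaQ N p k (LimitMap.castX p k u) = p • kappaQ N p (k + 1) u :=
  kappaBar_compat (pow_pos' p k) (pow_pos' p (k + 1)) (kappaC N p k) (kappaC_tors N p k)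
    (kappaC N p (k + 1)) (kappaC_tors N p (k + 1)) (LimitMap.castX p k) p
    (fun v => kappaC_compat N p k v (LimitMap.castX p k v)
      (fun γ => LimitMap.castX_apply p k v γ)) u

/-- **Hecke equivariance** of the class maps over `ℚ̄`. -/
theorem kappaQ_hecke (k : ℕ) (ℓ : ℕ) [Fact ℓ.Prime] (hℓ : ℓ.Prime) (hℓN : ¬ ℓ ∣ N)
    (u : XMod N (ZMod (p ^ k)) (ZMod (p ^ k))) :
    kappaQ N p k (heckeX hℓN (ZMod (p ^ k)) (ZMod (p ^ k)) u) =
      heckeAdd N ⟨ℓ, hℓ⟩ (kappaQ N p k u) :=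
  kappaBar_hecke (pow_pos' p k) (kappaC N p k) (kappaC_tors N p k) ⟨ℓ, hℓ⟩
    (heckeX hℓN (ZMod (p ^ k)) (ZMod (p ^ k)))
    (fun v => kappaC_hecke N p k ⟨ℓ, hℓ⟩ hℓN v) u

/-- **the compatible system of Kummer class maps** `X(ℤ/p^k) → J₀(N)(ℚ̄)`. -/
def systemBar : System N p (JZero N) where
  κ := kappaQ N p
  inj := kappaQ_injective N p
  compat := kappaQ_compat N p

@[simp] theorem systemBar_κ (k : ℕ) : (systemBar N p).κ k = kappaQ N p k := rfl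

/-- **the Kummer embedding** `X(ℤ_p) → T_p J₀(N)`. -/
def eTate : XMod N ℤ_[p] ℤ_[p] →ₗ[ℤ_[p]] TpJ N p := LimitMap.e (systemBar N p)

theorem eTate_apply (ψ : XMod N ℤ_[p] ℤ_[p]) (k : ℕ) :
    ((eTate N p ψ : TpJ N p) : ℕ → JZero N) k = kappaQ N p k (LimitMap.redX p k ψ) := rfl

theorem eTate_injective : Function.Injective (eTate N p) := LimitMap.e_injective (systemBar N p)

/-- the Kummer embedding is Hecke equivariant. -/
theorem eTate_heckeX (ℓ : ℕ) [Fact ℓ.Prime] (hℓ : ℓ.Prime) (hℓN : ¬ ℓ ∣ N)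
    (ψ : XMod N ℤ_[p] ℤ_[p]) :
    eTate N p (heckeX hℓN ℤ_[p] ℤ_[p] ψ) = heckeT N p ⟨ℓ, hℓ⟩ (eTate N p ψ) :=
  LimitMap.e_heckeX (systemBar N p) hℓN (heckeAdd N ⟨ℓ, hℓ⟩)
    (fun k u => kappaQ_hecke N p k ℓ hℓ hℓN u) ψ

/-- **`χ` occurs in `O ⊗[ℤ_p] T_p J₀(N)`.** -/
theorem exists_eigen_TpJ (S : Set ℕ) {O : Type*} [CommRing O] [IsDomain O] [CharZero O]
    [Algebra ℤ_[p] O] [Module.IsTorsionFree ℤ_[p] O] [Module.Flat ℤ_[p] O]
    (χ : CuspForm.heckeAlgebra N 2 S →+* O) :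
    ∃ v : O ⊗[ℤ_[p]] TpJ N p, v ≠ 0 ∧
      ∀ (ℓ : ℕ) (hℓ : ℓ.Prime) (hℓN : ¬ ℓ ∣ N) (hℓS : ℓ ∉ S),
        (heckeT N p ⟨ℓ, hℓ⟩).baseChange O v = χ (CuspForm.heckeAlgebra.T hℓ hℓN hℓS) • v :=
  Fermat.Agent.S30.ChiTate.exists_eigen_tate_of_chi N (systemBar N p) S χ
    (fun ℓ hℓ _ => heckeAdd N ⟨ℓ, hℓ⟩)
    (fun ℓ _ hℓ hℓN k u => kappaQ_hecke N p k ℓ hℓ hℓN u)

end Fermat.Agent.S30.KappaSystem

end
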