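/-
S30 leaf (P1): the canonical ring homomorphism `ℤ_[p] →+* R` into an `I`-adically complete ring
`R` with `(p : R) ∈ I` (e.g. a complete discrete valuation ring `𝒪'` with `p ∈ 𝔪`), its
characterisation modulo `I ^ n`, uniqueness, injectivity in characteristic zero, continuity, and
the base change `R ⊗[ℤ_[p]] T` of a finite free `ℤ_[p]`-module.  Mathlib only.
-/
import Mathlib

set_option autoImplicit false
set_option linter.unusedSectionVars false
set_option linter.style.haveILetI false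
set_option warn.classDefReducibility false

namespace Fermat.Agent.S30.PadicAlg

open Ideal Quotient

variable {p : ℕ} [hp_prime : Fact p.Prime] {R : Type*} [CommRing R] (I : Ideal R)

/-- `p ^ n` vanishes in `R ⧸ I ^ n` as soon as `(p : R) ∈ I`. -/
theorem natCast_pow_eq_zero (hp : (p : R) ∈ I) (n : ℕ) : (((p ^ n : ℕ)) : R ⧸ I ^ n) = 0 := by
  have h : ((p ^ n : ℕ) : R) ∈ I ^ n := by
    rw [Nat.cast_pow]; exact Ideal.pow_mem_pow hp n
  have := (Ideal.Quotient.eq_zero_iff_mem (I := I ^ n)).2 h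
  simpa using this

/-- The ring homomorphism `ZMod (p ^ n) →+* R ⧸ I ^ n` for `(p : R) ∈ I`. -/
noncomputable def zmodHom (hp : (p : R) ∈ I) (n : ℕ) : ZMod (p ^ n) →+* R ⧸ I ^ n :=
  haveI : CharP (R ⧸ I ^ n) (ringChar (R ⧸ I ^ n)) := ringChar.charP _
  ZMod.castHom (ringChar.dvd (natCast_pow_eq_zero I hp n)) (R ⧸ I ^ n)

/-- The compatible family `ℤ_[p] →+* R ⧸ I ^ n`. -/
noncomputable def levelHom (hp : (p : R) ∈ I) (n : ℕ) : ℤ_[p] →+* R ⧸ I ^ n :=
  (zmodHom I hp n).comp (PadicInt.toZModPow n)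

theorem levelHom_compat (hp : (p : R) ∈ I) {m n : ℕ} (hle : m ≤ n) :
    (Ideal.Quotient.factorPow I hle).comp (levelHom I hp n) = levelHom I hp m := by
  have h1 : (Ideal.Quotient.factorPow I hle).comp (zmodHom I hp n) =
      (zmodHom I hp m).comp (ZMod.castHom (pow_dvd_pow p hle) (ZMod (p ^ m))) :=
    Subsingleton.elim _ _
  unfold levelHom
  rw [← RingHom.comp_assoc, h1, RingHom.comp_assoc, PadicInt.zmod_cast_comp_toZModPow _ _ hle]

variable [IsAdicComplete I R]

/-- **The canonical ring homomorphism `ℤ_[p] →+* R`** for an `I`-adically complete ring `R`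
with `(p : R) ∈ I`. -/
noncomputable def padicHom (hp : (p : R) ∈ I) : ℤ_[p] →+* R :=
  IsAdicComplete.liftRingHom I (levelHom I hp) (fun hle => levelHom_compat I hp hle)

theorem mk_padicHom (hp : (p : R) ∈ I) (n : ℕ) (x : ℤ_[p]) :
    Ideal.Quotient.mk (I ^ n) (padicHom I hp x) = zmodHom I hp n (PadicInt.toZModPow n x) :=
  IsAdicComplete.mk_liftRingHom I (levelHom I hp) (fun hle => levelHom_compat I hp hle) n x

/-- Two ring homomorphisms out of `ℤ_[p]` into a ring in which `p ^ n = 0` coincide. -/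
theorem ringHom_ext_of_pow_eq_zero {A : Type*} [CommRing A] (n : ℕ) (h : ((p : A)) ^ n = 0)
    (F G : ℤ_[p] →+* A) : F = G := by
  ext x
  have hx : x - (x.appr n : ℤ_[p]) ∈ Ideal.span {(p : ℤ_[p]) ^ n} := PadicInt.appr_spec n x
  obtain ⟨y, hy⟩ := Ideal.mem_span_singleton'.1 hx
  have hxe : x = (x.appr n : ℤ_[p]) + y * (p : ℤ_[p]) ^ n := by rw [hy]; ring
  have hF : ∀ H : ℤ_[p] →+* A, H x = ((x.appr n : ℕ) : A) := by
    intro H
    conv_lhs => rw [hxe]
    rw [map_add, map_mul, map_pow, map_natCast, map_natCast, h, mul_zero, add_zero]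
  rw [hF F, hF G]

/-- Uniqueness: ANY ring homomorphism `ℤ_[p] →+* R` is the canonical one. -/
theorem eq_padicHom (hp : (p : R) ∈ I) (F : ℤ_[p] →+* R) : F = padicHom I hp := by
  refine IsAdicComplete.eq_liftRingHom I (levelHom I hp) (fun hle => levelHom_compat I hp hle) F ?_
  intro n
  refine ringHom_ext_of_pow_eq_zero n ?_ _ _
  have := natCast_pow_eq_zero I hp n
  simpa using this

/-- The value of the canonical map modulo `I ^ n` is the `n`-th approximation. -/
theorem mk_padicHom_eq_appr (hp : (p : R) ∈ I) (n : ℕ) (x : ℤ_[p]) :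
    Ideal.Quotient.mk (I ^ n) (padicHom I hp x) = ((x.appr n : ℕ) : R ⧸ I ^ n) := by
  have hx : x - (x.appr n : ℤ_[p]) ∈ Ideal.span {(p : ℤ_[p]) ^ n} := PadicInt.appr_spec n x
  obtain ⟨y, hy⟩ := Ideal.mem_span_singleton'.1 hx
  have hxe : x = (x.appr n : ℤ_[p]) + y * (p : ℤ_[p]) ^ n := by rw [hy]; ring
  conv_lhs => rw [hxe]
  rw [map_add, map_mul, map_pow, map_natCast, map_natCast, map_add, map_mul, map_pow,
    map_natCast, map_natCast]
  have := natCast_pow_eq_zero I hp n
  rw [Nat.cast_pow] at this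
  rw [this, mul_zero, add_zero]

theorem padicHom_sub_appr_mem (hp : (p : R) ∈ I) (n : ℕ) (x : ℤ_[p]) :
    padicHom I hp x - ((x.appr n : ℕ) : R) ∈ I ^ n := by
  rw [← Ideal.Quotient.eq, mk_padicHom_eq_appr, map_natCast]

/-- Continuity: `p ^ n ℤ_[p]` is mapped into `I ^ n`. -/
theorem padicHom_mem_pow (hp : (p : R) ∈ I) (n : ℕ) {x : ℤ_[p]}
    (hx : x ∈ Ideal.span {(p : ℤ_[p]) ^ n}) : padicHom I hp x ∈ I ^ n := by
  obtain ⟨y, rfl⟩ := Ideal.mem_span_singleton'.1 hx
  rw [map_mul, map_pow, map_natCast]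
  exact Ideal.mul_mem_left _ _ (Ideal.pow_mem_pow hp n)

/-- In characteristic zero the canonical map is injective. -/
theorem padicHom_injective [CharZero R] (hp : (p : R) ∈ I) :
    Function.Injective (padicHom I hp) := by
  rw [injective_iff_map_eq_zero]
  intro x hx
  by_contra hne
  have hspec := PadicInt.unitCoeff_spec hne
  rw [hspec, map_mul, map_pow, map_natCast] at hx
  have hu : IsUnit (padicHom I hp (PadicInt.unitCoeff hne : ℤ_[p])) :=
    (PadicInt.unitCoeff hne).isUnit.map _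
  have h0 : ((p : R)) ^ x.valuation = 0 := (hu.mul_right_eq_zero).1 hx
  rw [← Nat.cast_pow] at h0
  exact (Nat.cast_ne_zero.2 (pow_ne_zero _ hp_prime.out.ne_zero)) h0

/-- The `ℤ_[p]`-algebra structure on `R` (a definition, NOT an instance). -/
noncomputable def padicAlgebra (hp : (p : R) ∈ I) : Algebra ℤ_[p] R :=
  (padicHom I hp).toAlgebra

theorem algebraMap_eq (hp : (p : R) ∈ I) :
    @algebraMap ℤ_[p] R _ _ (padicAlgebra I hp) = padicHom I hp := rfl

/-- The canonical map is a local homomorphism as soon as `I` is a proper ideal. -/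
theorem isUnit_of_isUnit_padicHom (hp : (p : R) ∈ I) (hI : I ≠ ⊤) {x : ℤ_[p]}
    (hx : IsUnit (padicHom I hp x)) : IsUnit x := by
  by_contra hnu
  have hmem : x ∈ Ideal.span {(p : ℤ_[p]) ^ 1} := by
    rw [pow_one, ← PadicInt.maximalIdeal_eq_span_p]
    exact (IsLocalRing.mem_maximalIdeal x).2 hnu
  have := padicHom_mem_pow I hp 1 hmem
  rw [pow_one] at this
  exact hI (Ideal.eq_top_of_isUnit_mem I this hx)

theorem isLocalHom_padicHom (hp : (p : R) ∈ I) (hI : I ≠ ⊤) : IsLocalHom (padicHom I hp) :=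
  ⟨fun _ hx => isUnit_of_isUnit_padicHom I hp hI hx⟩

section BaseChange

/-! ### Base change along ANY `ℤ_[p]`-algebra structure on `R`

By `eq_padicHom` every algebra structure has `algebraMap = padicHom`; so the statements below are
written for an arbitrary instance `[Algebra ℤ_[p] R]` (fix one with
`letI := padicAlgebra I hp`). -/

open TensorProduct

variable [Algebra ℤ_[p] R] (T : Type*) [AddCommGroup T] [Module ℤ_[p] T]

theorem algebraMap_eq_padicHom (hp : (p : R) ∈ I) : algebraMap ℤ_[p] R = padicHom I hp :=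
  eq_padicHom I hp _

theorem algebraMap_mem_pow (hp : (p : R) ∈ I) (n : ℕ) {x : ℤ_[p]} (hx : x ∈ Ideal.span {(p : ℤ_[p]) ^ n}) :
    algebraMap ℤ_[p] R x ∈ I ^ n := by
  rw [algebraMap_eq_padicHom I hp]; exact padicHom_mem_pow I hp n hx

theorem algebraMap_injective [CharZero R] (hp : (p : R) ∈ I) : Function.Injective (algebraMap ℤ_[p] R) := by
  rw [algebraMap_eq_padicHom I hp]; exact padicHom_injective I hp

/-- Base change of a free `ℤ_[p]`-module is free. -/
theorem free_baseChange [Module.Free ℤ_[p] T] : Module.Free R (R ⊗[ℤ_[p]] T) :=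
  inferInstance

/-- Base change of a finite `ℤ_[p]`-module is finite. -/
theorem finite_baseChange [Module.Finite ℤ_[p] T] : Module.Finite R (R ⊗[ℤ_[p]] T) :=
  inferInstance

/-- The rank is preserved. -/
theorem finrank_baseChange [Nontrivial R] [Module.Free ℤ_[p] T] [Module.Finite ℤ_[p] T] :
    Module.finrank R (R ⊗[ℤ_[p]] T) = Module.finrank ℤ_[p] T :=
  Module.finrank_baseChange

variable {T}

/-- Adic continuity passes to the base change: an endomorphism congruent to the identity modulo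
`p ^ n` becomes congruent to the identity modulo `I ^ n`. -/
theorem baseChange_sub_mem (hp : (p : R) ∈ I) (f : T →ₗ[ℤ_[p]] T) (n : ℕ)
    (hf : ∀ t : T, f t - t ∈ (Ideal.span {(p : ℤ_[p]) ^ n}) • (⊤ : Submodule ℤ_[p] T))
    (w : R ⊗[ℤ_[p]] T) :
    (f.baseChange R) w - w ∈ (I ^ n) • (⊤ : Submodule R (R ⊗[ℤ_[p]] T)) := by
  induction w using TensorProduct.induction_on with
  | zero => simp
  | add x y hx hy =>
    have : (f.baseChange R) (x + y) - (x + y) =
        ((f.baseChange R) x - x) + ((f.baseChange R) y - y) := by rw [map_add]; abel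
    rw [this]; exact Submodule.add_mem _ hx hy
  | tmul r t =>
    rw [LinearMap.baseChange_tmul, ← TensorProduct.tmul_sub]
    have key : ∀ s ∈ (Ideal.span {(p : ℤ_[p]) ^ n}) • (⊤ : Submodule ℤ_[p] T),
        r ⊗ₜ[ℤ_[p]] s ∈ (I ^ n) • (⊤ : Submodule R (R ⊗[ℤ_[p]] T)) := by
      intro s hs
      refine Submodule.smul_induction_on hs ?_ ?_
      · intro a ha u _
        rw [TensorProduct.tmul_smul, ← algebraMap_smul R a (r ⊗ₜ[ℤ_[p]] u)]
        exact Submodule.smul_mem_smul (algebraMap_mem_pow I hp n ha) Submodule.mem_top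
      · intro a b ha hb
        rw [TensorProduct.tmul_add]; exact Submodule.add_mem _ ha hb
    exact key _ (hf t)

/-- Base change of a representation on a `ℤ_[p]`-module to `R`. -/
noncomputable def baseChangeRep {G : Type*} [Monoid G] (ρ : G →* Module.End ℤ_[p] T) :
    G →* Module.End R (R ⊗[ℤ_[p]] T) :=
  ((Module.End.baseChangeHom ℤ_[p] R T : Module.End ℤ_[p] T →ₐ[ℤ_[p]] _) :
    Module.End ℤ_[p] T →* Module.End R (R ⊗[ℤ_[p]] T)).comp ρ

@[simp] theorem baseChangeRep_apply {G : Type*} [Monoid G] (ρ : G →* Module.End ℤ_[p] T) (g : G) :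
    baseChangeRep (R := R) ρ g = (ρ g).baseChange R := rfl

theorem baseChangeRep_tmul {G : Type*} [Monoid G] (ρ : G →* Module.End ℤ_[p] T) (g : G)
    (r : R) (t : T) : baseChangeRep (R := R) ρ g (r ⊗ₜ[ℤ_[p]] t) = r ⊗ₜ[ℤ_[p]] (ρ g t) := by
  simp

/-- A group element acting trivially on `T` acts trivially on the base change. -/
theorem baseChangeRep_eq_one {G : Type*} [Monoid G] (ρ : G →* Module.End ℤ_[p] T) {g : G}
    (h : ρ g = 1) : baseChangeRep (R := R) ρ g = 1 := by
  rw [baseChangeRep_apply, h]; exact LinearMap.baseChange_one _ _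

/-- Continuity of the base-changed representation, in the exact element-wise shape of the
Prelude's `GaloisActionIsAdicContinuous`. -/
theorem baseChangeRep_sub_mem (hp : (p : R) ∈ I) {G : Type*} [Monoid G] (ρ : G →* Module.End ℤ_[p] T) (n : ℕ) {g : G}
    (hg : ∀ t : T, ρ g t - t ∈ (Ideal.span {(p : ℤ_[p]) ^ n}) • (⊤ : Submodule ℤ_[p] T))
    (w : R ⊗[ℤ_[p]] T) :
    baseChangeRep (R := R) ρ g w - w ∈ (I ^ n) • (⊤ : Submodule R (R ⊗[ℤ_[p]] T)) :=
  baseChange_sub_mem I hp (ρ g) n hg w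

end BaseChange

end Fermat.Agent.S30.PadicAlg
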