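/-
S30 (R-independent leaf, helper19): **oddness input** - complex conjugation acts by inversion on
all roots of unity of `ℚ̄`, hence the cyclotomic character (mod `n` for every `n`, and `p`-adic)
takes the value `-1` on it.

* `complexConjugation_of_pow_eq_one : ζ ^ n = 1 → complexConjugation ζ = ζ⁻¹` (`0 < n`);
* `modularCyclotomicCharacter_complexConjugation : modularCyclotomicCharacter ℚ̄ hn c = -1`;
* `eq_neg_one_of_spec` : ANY character `χ : G_ℚ →* (ZMod n)ˣ` with the defining property of the
  mod `n` cyclotomic character takes the value `-1` at `complexConjugation`;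
* `cyclotomicCharacter_complexConjugation : cyclotomicCharacter ℚ̄ p c = -1` (in `ℤ_[p]ˣ`).

Mathlib + Prelude `Def_GaloisRep_ComplexConjugation` only.
-/
import Mathlib
import Fermat.Prelude.Def_GaloisRep_ComplexConjugation

set_option autoImplicit false

noncomputable section

namespace Fermat.Agent.S30.Oddness

local notation "Qb" => AlgebraicClosure ℚ

/-- a complex root of unity has `conj z = z⁻¹`. -/
theorem conj_eq_inv_of_pow_eq_one {z : ℂ} {n : ℕ} (hn : 0 < n) (hz : z ^ n = 1) :
    starRingEnd ℂ z = z⁻¹ := by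
  have hnorm : ‖z‖ = 1 := Complex.norm_eq_one_of_pow_eq_one hz hn.ne'
  have h1 : z * starRingEnd ℂ z = 1 := by
    rw [Complex.mul_conj, Complex.normSq_eq_norm_sq, hnorm]
    simp
  exact eq_inv_of_mul_eq_one_right h1

/-- **complex conjugation inverts every root of unity of `ℚ̄`.** -/
theorem complexConjugation_of_pow_eq_one {ζ : Qb} {n : ℕ} (hn : 0 < n) (hζ : ζ ^ n = 1) :
    complexConjugation ζ = ζ⁻¹ := by
  apply complexEmbedding.toRingHom.injective
  show complexEmbedding (complexConjugation ζ) = complexEmbedding ζ⁻¹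
  rw [complexEmbedding_complexConjugation, map_inv₀]
  refine conj_eq_inv_of_pow_eq_one hn ?_
  rw [← map_pow, hζ, map_one]

/-- the same for units. -/
theorem complexConjugation_unit {t : Qbˣ} {n : ℕ} (hn : 0 < n) (ht : t ∈ rootsOfUnity n Qb) :
    complexConjugation (t : Qb) = ((t⁻¹ : Qbˣ) : Qb) := by
  have h1 : (t : Qb) ^ n = 1 := by
    have := (mem_rootsOfUnity n t).mp ht
    rw [← Units.val_pow_eq_pow_val, this, Units.val_one]
  rw [complexConjugation_of_pow_eq_one hn h1, Units.val_inv_eq_inv_val]

/-- `ζ ^ (-1 : ZMod n).val = ζ⁻¹` for an `n`-th root of unity. -/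
theorem pow_val_neg_one {t : Qb} {n : ℕ} [NeZero n] (ht : t ^ n = 1) :
    t ^ ((-1 : ZMod n)).val = t⁻¹ := by
  obtain ⟨m, rfl⟩ : ∃ m, n = m + 1 := Nat.exists_eq_succ_of_ne_zero (NeZero.ne n)
  rw [ZMod.val_neg_one]
  have ht0 : t ≠ 0 := by
    intro h0
    rw [h0, zero_pow (Nat.succ_ne_zero m)] at ht
    exact zero_ne_one ht
  apply eq_inv_of_mul_eq_one_left
  rw [← pow_succ, ht]

/-- **ANY character with the defining property of the mod `n` cyclotomic character takes the value
`-1` on complex conjugation.** -/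
theorem eq_neg_one_of_spec {n : ℕ} [NeZero n] {G : Type*} [Monoid G]
    (χ : G →* (ZMod n)ˣ) (c : G) (act : G → Qb → Qb)
    (hc : ∀ x, act c x = complexConjugation x)
    (hspec : ∀ (σ : G) (ζ : Qb), ζ ^ n = 1 → act σ ζ = ζ ^ ((χ σ : (ZMod n)ˣ) : ZMod n).val)
    (hprim : ∃ ζ : Qb, IsPrimitiveRoot ζ n) : χ c = -1 := by
  obtain ⟨ζ, hζ⟩ := hprim
  have h1 := hspec c ζ hζ.pow_eq_one
  rw [hc, complexConjugation_of_pow_eq_one (Nat.pos_of_ne_zero (NeZero.ne n)) hζ.pow_eq_one,
    ← pow_val_neg_one hζ.pow_eq_one] at h1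
  have h2 := hζ.pow_inj (ZMod.val_lt _) (ZMod.val_lt _) h1
  apply Units.ext
  rw [Units.val_neg, Units.val_one]
  exact (ZMod.val_injective n h2).symm

/-- **the mod `n` cyclotomic character is `-1` on complex conjugation, for every `n`.** -/
theorem modularCyclotomicCharacter_complexConjugation {n : ℕ} [NeZero n]
    (hn : Nat.card { x // x ∈ rootsOfUnity n Qb } = n) :
    modularCyclotomicCharacter Qb hn (complexConjugation : Qb ≃+* Qb) = -1 := by
  have h := modularCyclotomicCharacter.unique Qb hn (complexConjugation : Qb ≃+* Qb)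
    (c := (-1 : ZMod n)) (fun t ht => by
      have h1 : (t : Qb) ^ n = 1 := by
        have := (mem_rootsOfUnity n t).mp ht
        rw [← Units.val_pow_eq_pow_val, this, Units.val_one]
      rw [pow_val_neg_one h1]
      exact complexConjugation_of_pow_eq_one (Nat.pos_of_ne_zero (NeZero.ne n)) h1)
  apply Units.ext
  rw [Units.val_neg, Units.val_one]
  exact h.symm

/-- **the `p`-adic cyclotomic character is `-1` on complex conjugation.** -/
theorem cyclotomicCharacter_complexConjugation (p : ℕ) [Fact p.Prime] :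
    cyclotomicCharacter Qb p (complexConjugation : Qb ≃+* Qb) = -1 := by
  apply Units.ext
  rw [Units.val_neg, Units.val_one]
  refine PadicInt.ext_of_toZModPow.mp fun k => ?_
  rw [cyclotomicCharacter.toZModPow, modularCyclotomicCharacter_complexConjugation, map_neg,
    map_one, Units.val_neg, Units.val_one]

end Fermat.Agent.S30.Oddness
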