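import Mathlib
import Fermat.Prelude.Def_GaloisRep_Residual
import Fermat.Agent.S29.Cyclo.ModPChar
import Fermat.Agent.S30.Oddness

/-!
# S30 (R-independent leaf): the `p`-adic cyclotomic character of `G_ℚ`

`chiAdic p : G_ℚ →* ℤ_[p]ˣ` is Mathlib's `cyclotomicCharacter (AlgebraicClosure ℚ) p`.

* `chiAdic_spec` : `σ ζ = ζ ^ (χ(σ) mod p^k)` for every `p^k`-th root of unity `ζ`;
* `valuation_sub_eq_one_pow` : reduction modulo a place `A` of `Q̄` over `ℓ ≠ p` is injective on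
  `μ_{p^k}`;
* `chiAdic_frob` : `χ(σ) = ℓ` for every Frobenius lift `σ` at every `A` over `ℓ ≠ p`;
* `chiAdic_inertia` : `χ = 1` on the inertia group of every `A` over `ℓ ≠ p`;
* `chiAdic_level` : `χ(σ) ≡ 1 mod p^k` for `σ` fixing the finite level `ℚ(ζ_{p^k})`;
* `chiAdic_complexConjugation` : `χ(c) = -1`;
* `chiR f`, the transport along a ring homomorphism `f : ℤ_[p] →+* R`, with the same four facts.
-/

set_option autoImplicit false

noncomputable section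

namespace Fermat.Agent.S30.AdicCyclo

open Fermat.Agent.S29.Cyclo.ModPChar

variable (p : ℕ) [Fact p.Prime]

/-- the `p`-adic cyclotomic character of `G_ℚ` -/
def chiAdic : GQ →* ℤ_[p]ˣ :=
  MonoidHom.mk' (fun σ => cyclotomicCharacter Qb p (σ : Qb ≃+* Qb))
    (fun a b => by rw [← map_mul]; congr 1)

theorem chiAdic_apply (σ : GQ) : chiAdic p σ = cyclotomicCharacter Qb p (σ : Qb ≃+* Qb) := rfl

/-- there is a primitive `p^k`-th root of unity in `Q̄` -/
theorem exists_zeta_pow (k : ℕ) : ∃ ζ : Qb, IsPrimitiveRoot ζ (p ^ k) := by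
  have hp : p.Prime := Fact.out
  have : NeZero (p ^ k) := ⟨pow_ne_zero k hp.ne_zero⟩
  exact HasEnoughRootsOfUnity.exists_primitiveRoot Qb (p ^ k)

variable {p}

/-- the defining property of the `p`-adic cyclotomic character -/
theorem chiAdic_spec (σ : GQ) {k : ℕ} {ζ : Qb} (hζ : ζ ^ p ^ k = 1) :
    σ ζ = ζ ^ (((chiAdic p σ : ℤ_[p]ˣ) : ℤ_[p]).toZModPow k).val :=
  cyclotomicCharacter.spec p (σ : Qb ≃+* Qb) ζ hζ

/-- if `σ ζ = ζ ^ m` for a primitive `p^k`-th root of unity, then `χ(σ) ≡ m mod p^k` -/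
theorem toZModPow_chiAdic_of_pow (σ : GQ) {k : ℕ} {ζ : Qb} (hζ : IsPrimitiveRoot ζ (p ^ k))
    (m : ℕ) (h : σ ζ = ζ ^ m) :
    ((chiAdic p σ : ℤ_[p]ˣ) : ℤ_[p]).toZModPow k = (m : ZMod (p ^ k)) := by
  have hp : p.Prime := Fact.out
  have : NeZero (p ^ k) := ⟨pow_ne_zero k hp.ne_zero⟩
  have h1 := chiAdic_spec σ hζ.pow_eq_one
  rw [h] at h1
  have hk0 : p ^ k ≠ 0 := pow_ne_zero k hp.ne_zero
  obtain ⟨t, ht⟩ := hζ.isUnit hk0
  have h2 : t ^ m = t ^ (((chiAdic p σ : ℤ_[p]ˣ) : ℤ_[p]).toZModPow k).val := by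
    apply Units.ext
    rw [Units.val_pow_eq_pow_val, Units.val_pow_eq_pow_val, ht]
    exact h1
  rw [pow_eq_pow_iff_modEq] at h2
  have hord : orderOf t = p ^ k := by
    have h3 : orderOf (t : Qb) = orderOf t := orderOf_units
    rw [← h3, ht]
    exact hζ.eq_orderOf.symm
  rw [hord] at h2
  have h4 := (ZMod.natCast_eq_natCast_iff _ _ _).mpr h2
  rw [h4, ZMod.natCast_val, ZMod.cast_id]

/-- if `χ(σ) ≡ m mod p^k` for every `k`, then `χ(σ) = m` -/
theorem chiAdic_eq_natCast (σ : GQ) (m : ℕ)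
    (h : ∀ k : ℕ, ((chiAdic p σ : ℤ_[p]ˣ) : ℤ_[p]).toZModPow k = (m : ZMod (p ^ k))) :
    ((chiAdic p σ : ℤ_[p]ˣ) : ℤ_[p]) = (m : ℤ_[p]) := by
  refine PadicInt.ext_of_toZModPow.mp fun k => ?_
  rw [h k, map_natCast]

/-! ### reduction is injective on `μ_{p^k}` away from `p` -/

/-- `1 - η` is a unit at `A` for every nontrivial `p`-power root of unity `η`, if `p` is a unit
at `A` -/
theorem valuation_one_sub_pow (A : ValuationSubring Qb) (hp1 : A.valuation (p : Qb) = 1)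
    {k : ℕ} {η : Qb} (hη : η ^ p ^ k = 1) (hη1 : η ≠ 1) : A.valuation (1 - η) = 1 := by
  have hp : p.Prime := Fact.out
  -- the order of `η` is `p ^ (j + 1)`
  have hord : orderOf η ∣ p ^ k := orderOf_dvd_of_pow_eq_one hη
  obtain ⟨j, -, hj⟩ := (Nat.dvd_prime_pow hp).mp hord
  have hj0 : j ≠ 0 := by
    rintro rfl
    rw [pow_zero, orderOf_eq_one_iff] at hj
    exact hη1 hj
  obtain ⟨i, rfl⟩ := Nat.exists_eq_succ_of_ne_zero hj0
  -- `η ^ (p ^ i)` is a primitive `p`-th root of unity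
  have hprim : IsPrimitiveRoot η (p ^ (i + 1)) := by
    rw [← hj]; exact IsPrimitiveRoot.orderOf η
  have hprim' : IsPrimitiveRoot (η ^ p ^ i) p := by
    exact hprim.pow (pow_pos hp.pos (i + 1)) (pow_succ p i)
  have h1 := valuation_one_sub A hp1 hprim'
  have hv : A.valuation η = 1 :=
    valuation_of_pow_eq_one A (pow_ne_zero k hp.ne_zero) hη
  have hle : A.valuation (1 - η) ≤ 1 := by
    calc A.valuation (1 - η) ≤ max (A.valuation 1) (A.valuation η) := A.valuation.map_sub _ _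
      _ = 1 := by rw [map_one, hv, max_self]
  -- `1 - η ^ m = (1 - η) * ∑ η ^ i`
  have hgeom : (1 : Qb) - η ^ p ^ i = (1 - η) * ∑ t ∈ Finset.range (p ^ i), η ^ t := by
    exact (mul_neg_geom_sum η (p ^ i)).symm
  have hsum : A.valuation (∑ t ∈ Finset.range (p ^ i), η ^ t) ≤ 1 := by
    apply A.valuation.map_sum_le
    intro t _
    rw [map_pow, hv, one_pow]
  by_contra hne
  have hlt : A.valuation (1 - η) < 1 := lt_of_le_of_ne hle hne
  have h3 : A.valuation ((1 : Qb) - η ^ p ^ i) < 1 := by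
    rw [hgeom, map_mul]
    calc A.valuation (1 - η) * A.valuation (∑ t ∈ Finset.range (p ^ i), η ^ t)
        ≤ A.valuation (1 - η) * 1 := mul_le_mul_right hsum _
      _ = A.valuation (1 - η) := mul_one _
      _ < 1 := hlt
  rw [h1] at h3
  exact lt_irrefl _ h3

/-- **reduction is injective on `μ_{p^k}`**: two distinct `p^k`-th roots of unity differ by a unit
of `A`, when `p` is a unit at `A` -/
theorem valuation_sub_eq_one_pow (A : ValuationSubring Qb) (hp1 : A.valuation (p : Qb) = 1)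
    {k : ℕ} {x y : Qb} (hx : x ^ p ^ k = 1) (hy : y ^ p ^ k = 1) (hxy : x ≠ y) :
    A.valuation (x - y) = 1 := by
  have hp : p.Prime := Fact.out
  have hk0 : p ^ k ≠ 0 := pow_ne_zero k hp.ne_zero
  have hx0 : x ≠ 0 := by
    rintro rfl
    rw [zero_pow hk0] at hx
    exact zero_ne_one hx
  have hη1 : (y * x⁻¹) ^ p ^ k = 1 := by rw [mul_pow, inv_pow, hx, hy, inv_one, mul_one]
  have hη2 : y * x⁻¹ ≠ 1 := by
    intro h
    apply hxy
    have := congrArg (· * x) h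
    simp only [one_mul] at this
    rw [mul_assoc, inv_mul_cancel₀ hx0, mul_one] at this
    exact this.symm
  have h1 := valuation_one_sub_pow A hp1 hη1 hη2
  have h2 : x - y = x * (1 - y * x⁻¹) := by
    field_simp
  rw [h2, map_mul, h1, mul_one]
  exact valuation_of_pow_eq_one A hk0 hx

/-! ### Frobenius and inertia -/

/-- common core of the Frobenius and inertia statements -/
theorem chiAdic_eq_of_residue (A : ValuationSubring Qb) (hp1 : A.valuation (p : Qb) = 1)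
    (σ : GQ) (hσ : σ ∈ A.decompositionSubgroup ℚ) (m : ℕ)
    (hm : ∀ x : IsLocalRing.ResidueField A,
      (⟨σ, hσ⟩ : A.decompositionSubgroup ℚ) • x = x ^ m) :
    ((chiAdic p σ : ℤ_[p]ˣ) : ℤ_[p]) = (m : ℤ_[p]) := by
  have hp : p.Prime := Fact.out
  refine chiAdic_eq_natCast σ m fun k => ?_
  obtain ⟨ζ, hζ⟩ := exists_zeta_pow p k
  have hk0 : p ^ k ≠ 0 := pow_ne_zero k hp.ne_zero
  have hzA : ζ ∈ A := by
    rw [← A.valuation_le_one_iff, valuation_of_pow_eq_one A hk0 hζ.pow_eq_one]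
  have h1 := valuation_sub_pow_lt_one A σ hσ m hm hzA
  apply toZModPow_chiAdic_of_pow σ hζ m
  by_contra hne
  have h2 : A.valuation (σ ζ - ζ ^ m) = 1 := by
    apply valuation_sub_eq_one_pow A hp1 (k := k) _ _ hne
    · rw [← map_pow, hζ.pow_eq_one, map_one]
    · rw [← pow_mul, mul_comm, pow_mul, hζ.pow_eq_one, one_pow]
  rw [h2] at h1
  exact lt_irrefl _ h1

/-- **`χ(Frob_ℓ) = ℓ`** for every Frobenius lift at every place of `Q̄` over `ℓ ≠ p` -/
theorem chiAdic_frob {ℓ : ℕ} (hℓ : ℓ.Prime) (hℓp : ℓ ≠ p) (A : ValuationSubring Qb)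
    (hA : A.LiesOverPrime ℓ) (σ : GQ) (hσ : A.IsFrobeniusAt σ ℓ) :
    ((chiAdic p σ : ℤ_[p]ˣ) : ℤ_[p]) = (ℓ : ℤ_[p]) :=
  chiAdic_eq_of_residue A (valuation_prime_eq_one A hA hℓ hℓp) σ
    hσ.mem_decompositionSubgroup ℓ hσ.smul_residue_eq

/-- **`χ` is unramified outside `p`** -/
theorem chiAdic_inertia {ℓ : ℕ} (hℓ : ℓ.Prime) (hℓp : ℓ ≠ p) (A : ValuationSubring Qb)
    (hA : A.LiesOverPrime ℓ) (σ : GQ) (hσ : σ ∈ A.inertiaSubgroupIn ℚ) :
    chiAdic p σ = 1 := by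
  obtain ⟨τ, hτ, rfl⟩ := Subgroup.mem_map.mp hσ
  have hτ' : ∀ x : IsLocalRing.ResidueField A, τ • x = x ^ 1 := by
    intro x
    have h1 : MulSemiringAction.toRingAut (A.decompositionSubgroup ℚ)
        (IsLocalRing.ResidueField A) τ = 1 := hτ
    have h2 := RingEquiv.congr_fun h1 x
    rw [pow_one]
    exact h2
  have h := chiAdic_eq_of_residue A (valuation_prime_eq_one A hA hℓ hℓp)
    ((A.decompositionSubgroup ℚ).subtype τ) τ.2 1 hτ'
  apply Units.ext
  rw [h, Nat.cast_one, Units.val_one]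

/-! ### finite levels -/

/-- `χ(σ) ≡ 1 mod p^k` if `σ` fixes a primitive `p^k`-th root of unity -/
theorem chiAdic_sub_one_mem_of_fix (σ : GQ) {k : ℕ} {ζ : Qb} (hζ : IsPrimitiveRoot ζ (p ^ k))
    (hσ : σ ζ = ζ) :
    ((chiAdic p σ : ℤ_[p]ˣ) : ℤ_[p]) - 1 ∈ Ideal.span {(p : ℤ_[p]) ^ k} := by
  have h1 : σ ζ = ζ ^ 1 := by rw [pow_one]; exact hσ
  have h := toZModPow_chiAdic_of_pow σ hζ 1 h1
  rw [← PadicInt.ker_toZModPow, RingHom.mem_ker, map_sub, h, map_one, Nat.cast_one, sub_self]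

/-- **adic continuity of `χ`**: `χ ≡ 1 mod p^k` on the absolute Galois group of the finite level
`ℚ(ζ_{p^k})` -/
theorem chiAdic_level (k : ℕ) :
    ∃ L : IntermediateField ℚ Qb, FiniteDimensional ℚ L ∧
      ∀ σ : GQ, (∀ x ∈ L, σ x = x) →
        ((chiAdic p σ : ℤ_[p]ˣ) : ℤ_[p]) - 1 ∈ Ideal.span {(p : ℤ_[p]) ^ k} := by
  have hp : p.Prime := Fact.out
  obtain ⟨ζ, hζ⟩ := exists_zeta_pow p k
  refine ⟨IntermediateField.adjoin ℚ {ζ}, ?_, fun σ hσ => ?_⟩
  · exact IntermediateField.adjoin.finiteDimensional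
      (hζ.isIntegral (pow_pos hp.pos k)).tower_top
  · exact chiAdic_sub_one_mem_of_fix σ hζ
      (hσ ζ (IntermediateField.mem_adjoin_simple_self ℚ ζ))

/-- the level can be chosen to contain any given finite level -/
theorem chiAdic_level_sup (k : ℕ) (L₀ : IntermediateField ℚ Qb) [FiniteDimensional ℚ L₀] :
    ∃ L : IntermediateField ℚ Qb, FiniteDimensional ℚ L ∧ L₀ ≤ L ∧
      ∀ σ : GQ, (∀ x ∈ L, σ x = x) →
        ((chiAdic p σ : ℤ_[p]ˣ) : ℤ_[p]) - 1 ∈ Ideal.span {(p : ℤ_[p]) ^ k} := by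
  obtain ⟨L, hL, h⟩ := chiAdic_level (p := p) k
  have hL' : FiniteDimensional ℚ L := hL
  refine ⟨L₀ ⊔ L, IntermediateField.finiteDimensional_sup L₀ L, le_sup_left, fun σ hσ => ?_⟩
  exact h σ fun x hx => hσ x ((le_sup_right : L ≤ L₀ ⊔ L) hx)

/-! ### oddness -/

/-- **`χ(c) = -1`** for the complex conjugation `c` of the Prelude -/
theorem chiAdic_complexConjugation : chiAdic p complexConjugation = -1 :=
  Fermat.Agent.S30.Oddness.cyclotomicCharacter_complexConjugation p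

/-! ### transport along a ring homomorphism `ℤ_[p] →+* R` -/

section Transport

variable {R : Type*} [CommRing R] (f : ℤ_[p] →+* R)

/-- the `p`-adic cyclotomic character with values in `Rˣ`, for a ring `R` receiving `ℤ_[p]` -/
def chiR : GQ →* Rˣ := (Units.map (f : ℤ_[p] →* R)).comp (chiAdic p)

theorem chiR_val (σ : GQ) : ((chiR f σ : Rˣ) : R) = f ((chiAdic p σ : ℤ_[p]ˣ) : ℤ_[p]) := rfl

theorem chiR_frob {ℓ : ℕ} (hℓ : ℓ.Prime) (hℓp : ℓ ≠ p) (A : ValuationSubring Qb)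
    (hA : A.LiesOverPrime ℓ) (σ : GQ) (hσ : A.IsFrobeniusAt σ ℓ) :
    ((chiR f σ : Rˣ) : R) = (ℓ : R) := by
  rw [chiR_val, chiAdic_frob hℓ hℓp A hA σ hσ, map_natCast]

theorem chiR_inertia {ℓ : ℕ} (hℓ : ℓ.Prime) (hℓp : ℓ ≠ p) (A : ValuationSubring Qb)
    (hA : A.LiesOverPrime ℓ) (σ : GQ) (hσ : σ ∈ A.inertiaSubgroupIn ℚ) :
    chiR f σ = 1 := by
  rw [chiR, MonoidHom.comp_apply, chiAdic_inertia hℓ hℓp A hA σ hσ, map_one]

theorem chiR_complexConjugation : chiR f complexConjugation = -1 := by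
  apply Units.ext
  rw [chiR_val, chiAdic_complexConjugation, Units.val_neg, Units.val_one, map_neg, map_one,
    Units.val_neg, Units.val_one]

/-- adic continuity of `chiR f` with respect to any ideal `I` containing `f p` -/
theorem chiR_level (I : Ideal R) (hI : f (p : ℤ_[p]) ∈ I) (k : ℕ) :
    ∃ L : IntermediateField ℚ Qb, FiniteDimensional ℚ L ∧
      ∀ σ : GQ, (∀ x ∈ L, σ x = x) → ((chiR f σ : Rˣ) : R) - 1 ∈ I ^ k := by
  obtain ⟨L, hL, h⟩ := chiAdic_level (p := p) k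
  refine ⟨L, hL, fun σ hσ => ?_⟩
  obtain ⟨c, hc⟩ := Ideal.mem_span_singleton'.mp (h σ hσ)
  have h1 : ((chiR f σ : Rˣ) : R) - 1 = f c * f (p : ℤ_[p]) ^ k := by
    rw [chiR_val, ← map_one f, ← map_sub, ← hc, map_mul, map_pow]
  rw [h1]
  exact Ideal.mul_mem_left _ _ (Ideal.pow_mem_pow hI k)

/-- the same, above a given finite level -/
theorem chiR_level_sup (I : Ideal R) (hI : f (p : ℤ_[p]) ∈ I) (k : ℕ)
    (L₀ : IntermediateField ℚ Qb) [FiniteDimensional ℚ L₀] :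
    ∃ L : IntermediateField ℚ Qb, FiniteDimensional ℚ L ∧ L₀ ≤ L ∧
      ∀ σ : GQ, (∀ x ∈ L, σ x = x) → ((chiR f σ : Rˣ) : R) - 1 ∈ I ^ k := by
  obtain ⟨L, hL, h⟩ := chiR_level f I hI k
  have hL' : FiniteDimensional ℚ L := hL
  refine ⟨L₀ ⊔ L, IntermediateField.finiteDimensional_sup L₀ L, le_sup_left, fun σ hσ => ?_⟩
  exact h σ fun x hx => hσ x ((le_sup_right : L ≤ L₀ ⊔ L) hx)

end Transport

end Fermat.Agent.S30.AdicCyclo
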