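/-
S30, hypothesis-style TOP (the ledger).  `𝒪'' := 𝒪'`.

* `chiO p 𝒪 hp : GQ →* 𝒪ˣ` : the `p`-adic cyclotomic character with values in `𝒪`
  (`AdicCyclo.chiR` along `PadicAlg.padicHom`), with `chiO_frob`, `chiO_inertia`, `chiO_level`,
  `chiO_complexConjugation`;
* `BlockM` : the `χ`-eigenmodule `E` (nonzero finite free `𝒪`-module, adic-continuous Galois action,
  Eichler–Shimura relation with `χ(T_ℓ)` at Frobenius lifts for `ℓ ∉ S`, trivial inertia at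
  `q ∤ N p`);
* `BlockT` : adic power transfer (the quadratic relation for all `g` from the Frobenius lifts);
* `BlockQL` : two-dimensional piece + lattice + packaging (a `GaloisRepAdic 𝒪` with the exact
  characteristic polynomial `X² - t(g) X + χ_cyc(g)` for all `g`, trivial where `ρ` and `χ_cyc` are);
* `result_of_blocks` : the three blocks imply the frozen statement S30 (`Conclusion`).
-/
import Mathlib
import Fermat.Prelude.Def_CuspForm_HeckeGaloisRepDatum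
import Fermat.Agent.S30.PadicAlg
import Fermat.Agent.S30.AdicCyclo

set_option autoImplicit false
set_option linter.unusedSectionVars false

open Polynomial CuspForm

noncomputable section

namespace Fermat.Agent.S30.Skeleton

open Fermat.Agent.S29.Cyclo.ModPChar (Qb GQ)
open Fermat.Agent.S30

section Defs

variable (p : ℕ) [Fact p.Prime] (𝒪 : Type) [CommRing 𝒪] [IsDomain 𝒪]
  [IsDiscreteValuationRing 𝒪] [IsAdicComplete (IsLocalRing.maximalIdeal 𝒪) 𝒪]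
  [Finite (IsLocalRing.ResidueField 𝒪)] [CharZero 𝒪]
  (hp : (p : 𝒪) ∈ IsLocalRing.maximalIdeal 𝒪)

/-- the `p`-adic cyclotomic character with values in `𝒪ˣ`. -/
def chiO : GQ →* 𝒪ˣ :=
  AdicCyclo.chiR (PadicAlg.padicHom (IsLocalRing.maximalIdeal 𝒪) hp)

theorem chiO_frob {ℓ : ℕ} (hℓ : ℓ.Prime) (hℓp : ℓ ≠ p) (A : ValuationSubring Qb)
    (hA : A.LiesOverPrime ℓ) (σ : GQ) (hσ : A.IsFrobeniusAt σ ℓ) :
    ((chiO p 𝒪 hp σ : 𝒪ˣ) : 𝒪) = (ℓ : 𝒪) :=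
  AdicCyclo.chiR_frob _ hℓ hℓp A hA σ hσ

theorem chiO_inertia {ℓ : ℕ} (hℓ : ℓ.Prime) (hℓp : ℓ ≠ p) (A : ValuationSubring Qb)
    (hA : A.LiesOverPrime ℓ) (σ : GQ) (hσ : σ ∈ A.inertiaSubgroupIn ℚ) :
    chiO p 𝒪 hp σ = 1 :=
  AdicCyclo.chiR_inertia _ hℓ hℓp A hA σ hσ

theorem chiO_complexConjugation : chiO p 𝒪 hp complexConjugation = -1 :=
  AdicCyclo.chiR_complexConjugation _

theorem chiO_level (k : ℕ) :
    ∃ L : IntermediateField ℚ Qb, FiniteDimensional ℚ L ∧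
      ∀ σ : GQ, (∀ x ∈ L, σ x = x) →
        ((chiO p 𝒪 hp σ : 𝒪ˣ) : 𝒪) - 1 ∈ IsLocalRing.maximalIdeal 𝒪 ^ k :=
  AdicCyclo.chiR_level _ (IsLocalRing.maximalIdeal 𝒪)
    (by rw [map_natCast]; exact hp) k

/-- `-1 ≠ 1` in `𝒪` (characteristic zero): the character `chiO` is odd. -/
theorem chiO_complexConjugation_ne_one : chiO p 𝒪 hp complexConjugation ≠ 1 := by
  rw [chiO_complexConjugation]
  intro h
  have h1 : ((-1 : 𝒪ˣ) : 𝒪) = ((1 : 𝒪ˣ) : 𝒪) := congrArg Units.val h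
  rw [Units.val_neg, Units.val_one] at h1
  have h2 : (2 : 𝒪) = 0 := by linear_combination -h1
  exact two_ne_zero h2

variable (N : ℕ) [NeZero N] (S : Finset ℕ)

/-- **Block (M)**: the `χ`-eigenmodule. -/
def BlockM (χ : CuspForm.heckeAlgebra N 2 (↑S : Set ℕ) →+* 𝒪) : Prop :=
  ∃ (E : Type) (_ : AddCommGroup E) (_ : Module 𝒪 E) (_ : Module.Free 𝒪 E)
    (_ : Module.Finite 𝒪 E) (ρ : GQ →* Module.End 𝒪 E),
    Nontrivial E ∧ GaloisActionIsAdicContinuous 𝒪 ρ ∧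
    (∀ (ℓ : ℕ) (hℓ : ℓ.Prime) (hℓN : ¬ ℓ ∣ N) (hℓS : ℓ ∉ (↑S : Set ℕ))
      (A : ValuationSubring Qb), A.LiesOverPrime ℓ → ∀ σ : GQ, A.IsFrobeniusAt σ ℓ →
        ρ σ * ρ σ - χ (CuspForm.heckeAlgebra.T hℓ hℓN hℓS) • ρ σ
          + (ℓ : 𝒪) • (1 : Module.End 𝒪 E) = 0) ∧
    (∀ q : ℕ, q.Prime → ¬ q ∣ N → q ≠ p → ∀ P : ValuationSubring Qb, P.LiesOverPrime q →
      ∀ σ ∈ P.inertiaSubgroupIn ℚ, ρ σ = 1)

/-- **Block (T)**: adic power transfer at the character `chiO`. -/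
def BlockT : Prop :=
  ∀ (E : Type) [AddCommGroup E] [Module 𝒪 E] [Module.Free 𝒪 E] [Module.Finite 𝒪 E]
    [Nontrivial E] (ρ : GQ →* Module.End 𝒪 E), GaloisActionIsAdicContinuous 𝒪 ρ →
    ∀ bad : Finset ℕ,
    (∀ ℓ : ℕ, ℓ.Prime → ℓ ∉ bad → ∀ A : ValuationSubring Qb, A.LiesOverPrime ℓ →
      ∀ σ : GQ, A.IsFrobeniusAt σ ℓ →
        ∃ a : 𝒪, ρ σ + ((chiO p 𝒪 hp σ : 𝒪ˣ) : 𝒪) • ρ σ⁻¹ = a • (1 : Module.End 𝒪 E)) →
    ∃ t : GQ → 𝒪, ∀ g : GQ,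
      ρ g + ((chiO p 𝒪 hp g : 𝒪ˣ) : 𝒪) • ρ g⁻¹ = t g • (1 : Module.End 𝒪 E)

/-- **Block (QL)**: two-dimensional piece, lattice, packaging. -/
def BlockQL : Prop :=
  ∀ (E : Type) [AddCommGroup E] [Module 𝒪 E] [Module.Free 𝒪 E] [Module.Finite 𝒪 E]
    [Nontrivial E] (ρ : GQ →* Module.End 𝒪 E), GaloisActionIsAdicContinuous 𝒪 ρ →
    ∀ t : GQ → 𝒪,
    (∀ g : GQ, ρ g + ((chiO p 𝒪 hp g : 𝒪ˣ) : 𝒪) • ρ g⁻¹ = t g • (1 : Module.End 𝒪 E)) →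
    ∃ R : GaloisRepAdic 𝒪,
      (∀ g : GQ, LinearMap.charpoly (R.ρ g) =
        X ^ 2 - C (t g) * X + C ((chiO p 𝒪 hp g : 𝒪ˣ) : 𝒪)) ∧
      ∀ g : GQ, ρ g = 1 → chiO p 𝒪 hp g = 1 → R.ρ g = 1

/-- The conclusion of the frozen statement S30 (verbatim). -/
def Conclusion (χ : CuspForm.heckeAlgebra N 2 (↑S : Set ℕ) →+* 𝒪) : Prop :=
  ∃ (𝒪'' : Type) (_ : CommRing 𝒪'') (_ : IsDomain 𝒪'') (_ : IsDiscreteValuationRing 𝒪'')
    (_ : IsAdicComplete (IsLocalRing.maximalIdeal 𝒪'') 𝒪'')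
    (_ : Finite (IsLocalRing.ResidueField 𝒪'')) (_ : CharZero 𝒪'')
    (_ : Algebra 𝒪 𝒪'') (_ : Module.Finite 𝒪 𝒪'') (_ : IsLocalHom (algebraMap 𝒪 𝒪'')),
  Function.Injective (algebraMap 𝒪 𝒪'') ∧
  ∃ ρ : GaloisRepAdic 𝒪'',
    (∀ (ℓ : ℕ) (hℓ : ℓ.Prime) (hℓN : ¬ ℓ ∣ N) (hℓS : ℓ ∉ (↑S : Set ℕ)),
      ∀ A : ValuationSubring (AlgebraicClosure ℚ), A.LiesOverPrime ℓ →
        ∀ σ : AlgebraicClosure ℚ ≃ₐ[ℚ] AlgebraicClosure ℚ, A.IsFrobeniusAt σ ℓ →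
          LinearMap.charpoly (ρ.ρ σ) =
            X ^ 2 - C (algebraMap 𝒪 𝒪'' (χ (CuspForm.heckeAlgebra.T hℓ hℓN hℓS))) * X
              + C ((ℓ : 𝒪''))) ∧
    (∀ q : ℕ, q.Prime → ¬ q ∣ N → q ≠ p → ρ.IsUnramifiedAt q)

end Defs

section Assembly

variable {p : ℕ} [Fact p.Prime] {𝒪 : Type} [CommRing 𝒪] [IsDomain 𝒪]
  [IsDiscreteValuationRing 𝒪] [IsAdicComplete (IsLocalRing.maximalIdeal 𝒪) 𝒪]
  [Finite (IsLocalRing.ResidueField 𝒪)] [CharZero 𝒪]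
  {hp : (p : 𝒪) ∈ IsLocalRing.maximalIdeal 𝒪}
  {N : ℕ} [NeZero N] {S : Finset ℕ}

/-- From the Eichler–Shimura form `Φ² - aΦ + ℓ = 0` to the symmetric form `Φ + ℓ Φ⁻¹ = a`. -/
theorem symm_of_es {E : Type} [AddCommGroup E] [Module 𝒪 E] (ρ : GQ →* Module.End 𝒪 E)
    (σ : GQ) (a c : 𝒪)
    (h : ρ σ * ρ σ - a • ρ σ + c • (1 : Module.End 𝒪 E) = 0) :
    ρ σ + c • ρ σ⁻¹ = a • (1 : Module.End 𝒪 E) := by
  have hinv : ρ σ * ρ σ⁻¹ = 1 := by rw [← map_mul, mul_inv_cancel, map_one]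
  have h1 : (ρ σ * ρ σ - a • ρ σ + c • (1 : Module.End 𝒪 E)) * ρ σ⁻¹ = 0 := by
    rw [h, zero_mul]
  rw [add_mul, sub_mul, mul_assoc, hinv, mul_one, smul_mul_assoc, hinv, smul_mul_assoc,
    one_mul] at h1
  have : ρ σ + c • ρ σ⁻¹ - a • (1 : Module.End 𝒪 E) = 0 := by
    rw [← h1]; abel
  exact sub_eq_zero.1 this

/-- Scalars act faithfully on the endomorphisms of a nontrivial free module. -/
theorem smul_one_injective (E : Type) [AddCommGroup E] [Module 𝒪 E] [Module.Free 𝒪 E]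
    [Nontrivial E] {a b : 𝒪} (h : a • (1 : Module.End 𝒪 E) = b • (1 : Module.End 𝒪 E)) :
    a = b := by
  obtain ⟨v, hv⟩ := exists_ne (0 : E)
  have h1 : (a - b) • v = 0 := by
    have := congrArg (fun f : Module.End 𝒪 E => f v) h
    simp only [LinearMap.smul_apply, Module.End.one_apply] at this
    rw [sub_smul, this, sub_self]
  rcases smul_eq_zero.1 h1 with h2 | h2
  · exact sub_eq_zero.1 h2
  · exact absurd h2 hv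

/-- **S30 from the three blocks.** -/
theorem result_of_blocks (hpS : p ∈ S) (hNS : ∀ q : ℕ, q.Prime → q ∣ N → q ∈ S)
    (χ : CuspForm.heckeAlgebra N 2 (↑S : Set ℕ) →+* 𝒪)
    (hM : BlockM p 𝒪 N S χ) (hT : BlockT p 𝒪 hp) (hQL : BlockQL p 𝒪 hp) :
    Conclusion p 𝒪 N S χ := by
  obtain ⟨E, iACG, iMod, iFree, iFin, ρ, iNT, hcont, hES, hIn⟩ := hM
  -- the symmetric relation at Frobenius lifts outside `S`
  have hkey : ∀ ℓ : ℕ, ℓ.Prime → ℓ ∉ S → ∀ A : ValuationSubring Qb, A.LiesOverPrime ℓ →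
      ∀ σ : GQ, A.IsFrobeniusAt σ ℓ →
        ∃ a : 𝒪, ρ σ + ((chiO p 𝒪 hp σ : 𝒪ˣ) : 𝒪) • ρ σ⁻¹ = a • (1 : Module.End 𝒪 E) := by
    intro ℓ hℓ hℓS A hA σ hσ
    have hℓN : ¬ ℓ ∣ N := fun h => hℓS (hNS ℓ hℓ h)
    have hℓp : ℓ ≠ p := fun h => hℓS (h ▸ hpS)
    have hℓS' : ℓ ∉ (↑S : Set ℕ) := by simpa using hℓS
    refine ⟨χ (CuspForm.heckeAlgebra.T hℓ hℓN hℓS'), ?_⟩
    rw [chiO_frob p 𝒪 hp hℓ hℓp A hA σ hσ]
    exact symm_of_es ρ σ _ _ (hES ℓ hℓ hℓN hℓS' A hA σ hσ)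
  obtain ⟨t, ht⟩ := hT E ρ hcont S hkey
  -- the value of `t` at Frobenius lifts
  have htF : ∀ (ℓ : ℕ) (hℓ : ℓ.Prime) (hℓN : ¬ ℓ ∣ N) (hℓS : ℓ ∉ (↑S : Set ℕ))
      (A : ValuationSubring Qb), A.LiesOverPrime ℓ → ∀ σ : GQ, A.IsFrobeniusAt σ ℓ →
      t σ = χ (CuspForm.heckeAlgebra.T hℓ hℓN hℓS) := by
    intro ℓ hℓ hℓN hℓS A hA σ hσ
    have hℓp : ℓ ≠ p := fun h => hℓS (by simpa [h] using hpS)
    have h1 := symm_of_es ρ σ _ _ (hES ℓ hℓ hℓN hℓS A hA σ hσ)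
    rw [← chiO_frob p 𝒪 hp hℓ hℓp A hA σ hσ, ht σ] at h1
    exact smul_one_injective E h1
  obtain ⟨R, hchar, htriv⟩ := hQL E ρ hcont t ht
  refine ⟨𝒪, inferInstance, inferInstance, inferInstance, inferInstance, inferInstance,
    inferInstance, Algebra.id 𝒪, Module.Finite.self 𝒪, ?_, ?_, R, ?_, ?_⟩
  · exact ⟨fun a ha => ha⟩
  · exact fun a b h => h
  · intro ℓ hℓ hℓN hℓS A hA σ hσ
    have hℓp : ℓ ≠ p := fun h => hℓS (by simpa [h] using hpS)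
    rw [hchar σ, htF ℓ hℓ hℓN hℓS A hA σ hσ, chiO_frob p 𝒪 hp hℓ hℓp A hA σ hσ]
    rfl
  · intro q hq hqN hqp P hP σ hσ
    exact htriv σ (hIn q hq hqN hqp P hP σ hσ) (chiO_inertia p 𝒪 hp hq hqp P hP σ hσ)

end Assembly

end Fermat.Agent.S30.Skeleton
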