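import Mathlib
import Fermat.Agent.S30.Skeleton
import Fermat.Agent.S30.KappaSystem
import Fermat.Agent.S30.EigenSub
import Fermat.Agent.S30.TateJ
import Fermat.Agent.S30.PadicAlg

/-!
# S30: block (M) of `Skeleton` (the `χ`-eigenmodule), instantiated

`E := EigenSub.eigenSub (heckeT N p) (χ ∘ T) ≤ 𝒪 ⊗[ℤ_p] T_p J₀(N)` with the restricted Galois
action: nonzero (`KappaSystem.exists_eigen_TpJ`), finite free, adic-continuous (`TateJ.level_T`),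
Eichler–Shimura with `T_ℓ` replaced by `χ (T_ℓ)` (`TateJ.es_T`), trivial inertia at `q ∤ N p`
(`TateJ.inertia_T`).
-/

set_option autoImplicit false
set_option maxSynthPendingDepth 2
set_option linter.style.haveILetI false

noncomputable section

namespace Fermat.Agent.S30.BlockMInst

open scoped TensorProduct
open Fermat.Agent.S30 Fermat.Agent.S30.TateJ Fermat.Agent.S30.EigenSub

local notation "Qb" => AlgebraicClosure ℚ
local notation "GQ" => (AlgebraicClosure ℚ ≃ₐ[ℚ] AlgebraicClosure ℚ)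

/-- **block (M)**, unconditional. -/
theorem blockM {p : ℕ} [hpp : Fact p.Prime] {𝒪 : Type} [CommRing 𝒪] [IsDomain 𝒪]
    [IsDiscreteValuationRing 𝒪] [IsAdicComplete (IsLocalRing.maximalIdeal 𝒪) 𝒪] [CharZero 𝒪]
    (hp : (p : 𝒪) ∈ IsLocalRing.maximalIdeal 𝒪) {N : ℕ} [NeZero N] {S : Finset ℕ}
    (hpS : p ∈ S) (χ : CuspForm.heckeAlgebra N 2 (↑S : Set ℕ) →+* 𝒪) :
    Skeleton.BlockM p 𝒪 N S χ := by
  letI : Algebra ℤ_[p] 𝒪 := PadicAlg.padicAlgebra (IsLocalRing.maximalIdeal 𝒪) hp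
  have hinj : Function.Injective (algebraMap ℤ_[p] 𝒪) :=
    PadicAlg.padicHom_injective (IsLocalRing.maximalIdeal 𝒪) hp
  haveI : Module.IsTorsionFree ℤ_[p] 𝒪 := Module.isTorsionFree_iff_algebraMap_injective.2 hinj
  haveI : Module.Flat ℤ_[p] 𝒪 := inferInstance
  haveI : Module.Free ℤ_[p] (TpJ N p) := free_TpJ N p
  haveI : Module.Finite ℤ_[p] (TpJ N p) := finite_TpJ N p
  let ι : Type := {ℓ : Nat.Primes // ¬ (ℓ : ℕ) ∣ N ∧ (ℓ : ℕ) ∉ (↑S : Set ℕ)}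
  let Tl : ι → Module.End ℤ_[p] (TpJ N p) := fun i => heckeT N p i.1
  let b : ι → 𝒪 := fun i => χ (CuspForm.heckeAlgebra.T i.1.2 i.2.1 i.2.2)
  have hcomm : ∀ (g : GQ) (i : ι), rhoT N p g * Tl i = Tl i * rhoT N p g :=
    fun g i => rhoT_mul_heckeT N p g i.1
  obtain ⟨v, hv0, hv⟩ := KappaSystem.exists_eigen_TpJ N p (↑S : Set ℕ) χ
  haveI : Module.IsTorsionFree 𝒪 (𝒪 ⊗[ℤ_[p]] TpJ N p) := isTorsionFree_baseChange
  have hndvd : ∀ q : ℕ, q.Prime → ¬ q ∣ N → q ≠ p → ¬ q ∣ N * p := by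
    intro q hq hqN hqp h
    rcases (Nat.Prime.dvd_mul hq).1 h with h1 | h1
    · exact hqN h1
    · exact hqp ((Nat.prime_dvd_prime_iff_eq hq hpp.out).1 h1)
  refine ⟨eigenSub Tl b, inferInstance, inferInstance, free_eigenSub Tl b, finite_eigenSub Tl b,
    rhoE (rhoT N p) Tl b hcomm, ?_, ?_, ?_, ?_⟩
  · exact nontrivial_eigenSub Tl b ⟨v, hv0, fun i => hv i.1 i.1.2 i.2.1 i.2.2⟩
  · refine isAdicContinuous_rhoE_of_mem (rhoT N p) Tl b hcomm (p : ℤ_[p]) ?_ ?_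
    · rw [map_natCast]
      exact hp
    · intro n
      obtain ⟨L, hL, -, h⟩ := level_T N p n
      exact ⟨L, hL, h⟩
  · intro ℓ hℓ hℓN hℓS A hA σ hσ
    have hℓp : ℓ ≠ p := fun h => hℓS (by rw [h]; exact Finset.mem_coe.2 hpS)
    have hes := es_T N p ℓ hℓ (hndvd ℓ hℓ hℓN hℓp) A hA σ hσ
    have hes' : rhoT N p σ * rhoT N p σ - Tl ⟨⟨ℓ, hℓ⟩, hℓN, hℓS⟩ * rhoT N p σ
        + (ℓ : ℤ_[p]) • (1 : Module.End ℤ_[p] (TpJ N p)) = 0 := by
      rw [← hes]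
      congr 1
      rw [Nat.cast_smul_eq_nsmul, nsmul_eq_mul, mul_one]
    have h := rhoE_sq_rel_of_end (O := 𝒪) (rhoT N p) Tl b hcomm σ ⟨⟨ℓ, hℓ⟩, hℓN, hℓS⟩
      (ℓ : ℤ_[p]) hes'
    rw [map_natCast] at h
    exact h
  · intro q hq hqN hqp P hP σ hσ
    exact rhoE_eq_one (rhoT N p) Tl b hcomm (inertia_T N p q hq (hndvd q hq hqN hqp) P hP σ hσ)

end Fermat.Agent.S30.BlockMInst

end
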