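import Mathlib
import Fermat.Prelude.Def_GaloisRep_Adic
import Fermat.Prelude.Def_EllipticCurve_FrobeniusTrace
import Fermat.Prelude.Def_FLTPrelim_Ramification

/-!
# S30 (E-abstract): adic power transfer of the Eichler–Shimura quadratic relation

`R` a complete Noetherian local ring (e.g. a complete discrete valuation ring), `M` a finitely
generated free nonzero `R`-module, `ρ : G_ℚ →* End_R M` adic-continuous
(`GaloisActionIsAdicContinuous`, verbatim the Prelude definition), `χ : G_ℚ →* Rˣ` continuous in the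
same sense.  If the relation `ρ σ + χ σ • ρ σ⁻¹ = a • 1` holds (exactly) at every Frobenius lift
`σ` at every prime outside a finite set `bad`, then, by weak cyclic Chebotarev (a hypothesis, in
the verbatim shape of `S29.Assemble.CycChebStatement`), there is `t : G_ℚ → R` with
`ρ g + χ g • ρ g⁻¹ = t g • 1` for **all** `g` (`exists_t_of_cycCheb`).

* `powSum`, `RelU`, `relU_pow` : the power transfer in an arbitrary algebra over a commutative ring;
* `EndCong I f f'` : congruence of endomorphisms modulo `I M`, with its calculus;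
* `mem_of_forall_smul_mem` : on a free nonzero module, `a • v ∈ I M` for all `v` forces `a ∈ I`;
* `RelInv`, `RelMod`, `relMod_of_agree` : the relation modulo `I` for an element agreeing with a power
  of a Frobenius up to an element acting trivially modulo `I`;
* `exists_t_of_cycCheb`, `relInv_unique`.
-/

set_option autoImplicit false

open Module

namespace Fermat.Agent.S30.AdicTransfer

/-! ### 1. the power transfer in an algebra over a commutative ring -/

section Units

variable {R : Type*} [CommRing R] {E : Type*} [Ring E] [Algebra R E]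

/-- the power sums `s_i = α^i + β^i` of the two roots of `X² - a X + d`. -/
def powSum (a d : R) : ℕ → R
  | 0 => 2
  | 1 => a
  | (n + 2) => a * powSum a d (n + 1) - d * powSum a d n

/-- the relation `u + d u⁻¹ = a` for a unit `u` of an `R`-algebra. -/
def RelU (u : Eˣ) (d a : R) : Prop :=
  (u : E) + d • ((u⁻¹ : Eˣ) : E) = a • (1 : E)

/-- **power transfer**: `u + d u⁻¹ = a` implies `u^i + d^i u^{-i} = s_i(a, d)`. -/
theorem relU_pow {u : Eˣ} {d a : R} (h : RelU u d a) (i : ℕ) :
    RelU (u ^ i) (d ^ i) (powSum a d i) := by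
  set f : E := (u : E) with hf
  set f' : E := d • ((u⁻¹ : Eˣ) : E) with hf'
  have hff' : f * f' = d • (1 : E) := by
    rw [hf', mul_smul_comm, hf, Units.mul_inv]
  have hf'f : f' * f = d • (1 : E) := by
    rw [hf', smul_mul_assoc, hf, Units.inv_mul]
  have hsum : f + f' = a • (1 : E) := h
  have key : ∀ n, f ^ n + f' ^ n = powSum a d n • (1 : E) ∧
      f ^ (n + 1) + f' ^ (n + 1) = powSum a d (n + 1) • (1 : E) := by
    intro n
    induction n with
    | zero =>
      refine ⟨?_, ?_⟩
      · simp only [pow_zero, powSum]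
        rw [← one_add_one_eq_two, add_smul, one_smul]
      · simp only [zero_add, pow_one, powSum]
        exact hsum
    | succ n ih =>
      refine ⟨ih.2, ?_⟩
      have e : f ^ (n + 1 + 1) + f' ^ (n + 1 + 1) =
          (f + f') * (f ^ (n + 1) + f' ^ (n + 1)) - ((f' * f) * f ^ n + (f * f') * f' ^ n) := by
        have c1 : f' * f ^ (n + 1) = (f' * f) * f ^ n := by
          rw [pow_succ', ← mul_assoc]
        have c2 : f * f' ^ (n + 1) = (f * f') * f' ^ n := by
          rw [pow_succ', ← mul_assoc]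
        rw [add_mul, mul_add, mul_add, c1, c2, ← pow_succ', ← pow_succ']
        abel
      rw [e, hff', hf'f, ← mul_add, ih.1, ih.2, hsum]
      simp only [smul_mul_smul_comm, mul_one]
      show _ = powSum a d (n + 2) • (1 : E)
      rw [powSum, sub_smul]
  have hpow : f' ^ i = d ^ i • (((u ^ i)⁻¹ : Eˣ) : E) := by
    rw [hf', smul_pow, ← Units.val_pow_eq_pow_val, inv_pow]
  unfold RelU
  rw [Units.val_pow_eq_pow_val, ← hpow]
  exact (key i).1

end Units

/-! ### 2. congruences of endomorphisms modulo `I M` -/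

section Cong

variable {R : Type*} [CommRing R] {M : Type*} [AddCommGroup M] [Module R M] (I : Ideal R)

/-- `f ≡ f'` modulo `I M`. -/
def EndCong (f f' : Module.End R M) : Prop :=
  ∀ v : M, f v - f' v ∈ (I • ⊤ : Submodule R M)

variable {I}

theorem map_mem_smul_top (f : Module.End R M) {x : M} (hx : x ∈ (I • ⊤ : Submodule R M)) :
    f x ∈ (I • ⊤ : Submodule R M) := by
  refine Submodule.smul_induction_on hx (fun r hr n _ => ?_) (fun x y hx hy => ?_)
  · rw [map_smul]
    exact Submodule.smul_mem_smul hr Submodule.mem_top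
  · rw [map_add]
    exact add_mem hx hy

theorem EndCong.refl (f : Module.End R M) : EndCong I f f := fun v => by
  rw [sub_self]; exact zero_mem _

theorem EndCong.symm {f f' : Module.End R M} (h : EndCong I f f') : EndCong I f' f := fun v => by
  rw [← neg_sub]; exact neg_mem (h v)

theorem EndCong.trans {f f' f'' : Module.End R M} (h : EndCong I f f') (h' : EndCong I f' f'') :
    EndCong I f f'' := fun v => by
  have : f v - f'' v = (f v - f' v) + (f' v - f'' v) := by abel
  rw [this]; exact add_mem (h v) (h' v)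

theorem EndCong.of_eq {f f' : Module.End R M} (h : f = f') : EndCong I f f' := h ▸ EndCong.refl f

theorem EndCong.add {f f' h h' : Module.End R M} (hf : EndCong I f f') (hh : EndCong I h h') :
    EndCong I (f + h) (f' + h') := fun v => by
  have : (f + h) v - (f' + h') v = (f v - f' v) + (h v - h' v) := by
    simp only [LinearMap.add_apply]; abel
  rw [this]; exact add_mem (hf v) (hh v)

theorem EndCong.mul {f f' h h' : Module.End R M} (hf : EndCong I f f') (hh : EndCong I h h') :
    EndCong I (f * h) (f' * h') := fun v => by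
  have : (f * h) v - (f' * h') v = f (h v - h' v) + (f (h' v) - f' (h' v)) := by
    simp only [Module.End.mul_apply, map_sub]; abel
  rw [this]; exact add_mem (map_mem_smul_top f (hh v)) (hf (h' v))

theorem EndCong.smul {a a' : R} {f f' : Module.End R M} (ha : a - a' ∈ I) (hf : EndCong I f f') :
    EndCong I (a • f) (a' • f') := fun v => by
  have : (a • f) v - (a' • f') v = a • (f v - f' v) + (a - a') • f' v := by
    simp only [LinearMap.smul_apply, smul_sub, sub_smul]; abel
  rw [this]
  exact add_mem (Submodule.smul_mem _ _ (hf v)) (Submodule.smul_mem_smul ha Submodule.mem_top)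

theorem EndCong.mono {J : Ideal R} (hIJ : I ≤ J) {f f' : Module.End R M} (h : EndCong I f f') :
    EndCong J f f' := fun v =>
  Submodule.smul_mono_left (N := (⊤ : Submodule R M)) hIJ (h v)

/-- on a free nonzero module, a scalar that maps `M` into `I M` lies in `I`. -/
theorem mem_of_forall_smul_mem [Module.Free R M] [Nontrivial M] {a : R}
    (h : ∀ v : M, a • v ∈ (I • ⊤ : Submodule R M)) : a ∈ I := by
  classical
  have b := Module.Free.chooseBasis R M
  haveI : Nonempty (Module.Free.ChooseBasisIndex R M) := by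
    by_contra hne
    rw [not_nonempty_iff] at hne
    obtain ⟨x, y, hxy⟩ := exists_pair_ne M
    exact hxy (b.ext_elem fun i => (hne.false i).elim)
  let i : Module.Free.ChooseBasisIndex R M := Classical.arbitrary _
  have key : ∀ x ∈ (I • ⊤ : Submodule R M), b.coord i x ∈ I := by
    intro x hx
    refine Submodule.smul_induction_on hx (fun r hr n _ => ?_) (fun x y hx hy => ?_)
    · rw [map_smul, smul_eq_mul]
      exact I.mul_mem_right _ hr
    · rw [map_add]
      exact add_mem hx hy
  have h1 := key _ (h (b i))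
  rw [map_smul, Module.Basis.coord_apply, Module.Basis.repr_self, Finsupp.single_eq_same,
    smul_eq_mul, mul_one] at h1
  exact h1

/-- on a free nonzero module the scalars act faithfully. -/
theorem smul_one_injective [Module.Free R M] [Nontrivial M] {a b : R}
    (h : a • (1 : Module.End R M) = b • (1 : Module.End R M)) : a = b := by
  have h1 : a - b ∈ (⊥ : Ideal R) := by
    apply mem_of_forall_smul_mem (M := M)
    intro v
    have h2 : (a - b) • v = 0 := by
      have := congrArg (fun f : Module.End R M => f v) h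
      simp only [LinearMap.smul_apply, Module.End.one_apply] at this
      rw [sub_smul, this, sub_self]
    rw [h2]
    exact zero_mem _
  exact sub_eq_zero.mp ((Submodule.mem_bot R).mp h1)

end Cong

/-! ### 3. the relation for representations -/

section Rel

variable {R : Type*} [CommRing R] {M : Type*} [AddCommGroup M] [Module R M]
  {G : Type*} [Group G] (ρ : G →* Module.End R M) (χ : G →* Rˣ)

/-- the Eichler–Shimura relation in the form `g + χ(g) g⁻¹ = a`. -/
def RelInv (g : G) (a : R) : Prop :=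
  ρ g + ((χ g : Rˣ) : R) • ρ g⁻¹ = a • (1 : Module.End R M)

/-- the relation modulo `I M`. -/
def RelMod (I : Ideal R) (g : G) (a : R) : Prop :=
  EndCong I (ρ g + ((χ g : Rˣ) : R) • ρ g⁻¹) (a • (1 : Module.End R M))

variable {ρ χ} in
theorem RelInv.relMod {g : G} {a : R} (h : RelInv ρ χ g a) (I : Ideal R) : RelMod ρ χ I g a :=
  EndCong.of_eq h

variable {ρ χ} in
theorem RelMod.mono {I J : Ideal R} (hIJ : I ≤ J) {g : G} {a : R} (h : RelMod ρ χ I g a) :
    RelMod ρ χ J g a :=
  EndCong.mono hIJ h

/-- **power transfer for representations**. -/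
theorem relInv_pow {g : G} {a : R} (h : RelInv ρ χ g a) (i : ℕ) :
    RelInv ρ χ (g ^ i) (powSum a ((χ g : Rˣ) : R) i) := by
  have h1 : RelU (ρ.toHomUnits g) ((χ g : Rˣ) : R) a := by
    unfold RelU
    rw [← map_inv]
    exact h
  have h2 := relU_pow h1 i
  unfold RelU at h2
  unfold RelInv
  rw [← map_pow, ← map_inv] at h2
  rw [map_pow χ, Units.val_pow_eq_pow_val, ← inv_pow]
  rw [← inv_pow] at h2
  exact h2

theorem relMod_unique [Module.Free R M] [Nontrivial M] {I : Ideal R} {g : G} {a b : R}
    (ha : RelMod ρ χ I g a) (hb : RelMod ρ χ I g b) : a - b ∈ I := by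
  apply mem_of_forall_smul_mem (M := M)
  intro v
  have h := (ha.symm.trans hb) v
  simp only [LinearMap.smul_apply, Module.End.one_apply] at h
  rw [sub_smul]
  exact h

theorem relInv_unique [Module.Free R M] [Nontrivial M] {g : G} {a b : R}
    (ha : RelInv ρ χ g a) (hb : RelInv ρ χ g b) : a = b :=
  smul_one_injective (M := M) (ha.symm.trans hb)

/-- if `ρ τ ≡ 1`, then `ρ τ⁻¹ ≡ 1`. -/
theorem endCong_inv {I : Ideal R} {τ : G} (h : EndCong I (ρ τ) 1) : EndCong I (ρ τ⁻¹) 1 := by
  have h1 : EndCong I (ρ τ⁻¹ * ρ τ) (ρ τ⁻¹ * 1) := (EndCong.refl _).mul h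
  rw [← map_mul, inv_mul_cancel, map_one, mul_one] at h1
  exact h1.symm

/-- **transfer modulo `I`**: if `g = s τ` with `ρ τ ≡ 1` and `χ τ ≡ 1` modulo `I`, the relation for
`s` gives the relation modulo `I` for `g`. -/
theorem relMod_of_mul {I : Ideal R} {s τ : G} {a : R} (hs : RelInv ρ χ s a)
    (hρτ : EndCong I (ρ τ) 1) (hχτ : ((χ τ : Rˣ) : R) - 1 ∈ I) :
    RelMod ρ χ I (s * τ) a := by
  unfold RelMod
  have e1 : EndCong I (ρ (s * τ)) (ρ s) := by
    have := (EndCong.refl (I := I) (ρ s)).mul hρτ
    rwa [← map_mul, mul_one] at this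
  have e2 : EndCong I (ρ (s * τ)⁻¹) (ρ s⁻¹) := by
    have := (endCong_inv ρ hρτ).mul (EndCong.refl (I := I) (ρ s⁻¹))
    rwa [← map_mul, one_mul, ← mul_inv_rev] at this
  have e3 : ((χ (s * τ) : Rˣ) : R) - ((χ s : Rˣ) : R) ∈ I := by
    have : ((χ (s * τ) : Rˣ) : R) - ((χ s : Rˣ) : R) = ((χ s : Rˣ) : R) * (((χ τ : Rˣ) : R) - 1) := by
      rw [map_mul, Units.val_mul]; ring
    rw [this]
    exact I.mul_mem_left _ hχτ
  exact (e1.add (EndCong.smul e3 e2)).trans (EndCong.of_eq hs)

end Rel

/-! ### 4. the Galois form -/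

section Galois

local notation "Kb" => AlgebraicClosure ℚ
local notation "GQ" => (AlgebraicClosure ℚ ≃ₐ[ℚ] AlgebraicClosure ℚ)

open IsLocalRing

variable {R : Type} [CommRing R] [IsLocalRing R] {M : Type} [AddCommGroup M] [Module R M]
  (ρ : GQ →* Module.End R M) (χ : GQ →* Rˣ)

/-- continuity of a character, in the style of `GaloisActionIsAdicContinuous`. -/
def CharIsAdicContinuous : Prop :=
  ∀ n : ℕ, ∃ L : IntermediateField ℚ Kb, FiniteDimensional ℚ L ∧
    ∀ σ : GQ, (∀ x ∈ L, σ x = x) → ((χ σ : Rˣ) : R) - 1 ∈ maximalIdeal R ^ n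

/-- finite normal closure inside a normal extension (general fields, so that no `ℚ`-algebra
instance diamond appears). -/
theorem exists_normal_finite_ge {F L : Type*} [Field F] [Field L] [Algebra F L] [Normal F L]
    (K : IntermediateField F L) [FiniteDimensional F K] :
    ∃ K' : IntermediateField F L, K ≤ K' ∧ FiniteDimensional F K' ∧
      ∀ σ : L →ₐ[F] L, K'.map σ = K' :=
  ⟨IntermediateField.normalClosure F K L, IntermediateField.le_normalClosure K, inferInstance,
    IntermediateField.normal_iff_forall_map_eq.mp inferInstance⟩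

/-- a common finite Galois level for `ρ` and `χ` modulo `𝔪 ^ n`. -/
theorem exists_galois_level (hρ : GaloisActionIsAdicContinuous R ρ)
    (hχ : CharIsAdicContinuous χ) (n : ℕ) :
    ∃ L : IntermediateField ℚ Kb, FiniteDimensional ℚ L ∧ IsGalois ℚ L ∧
      ∀ σ : GQ, (∀ x ∈ L, σ x = x) →
        EndCong (maximalIdeal R ^ n) (ρ σ) 1 ∧ ((χ σ : Rˣ) : R) - 1 ∈ maximalIdeal R ^ n := by
  obtain ⟨L1, hL1, h1⟩ := hρ n
  obtain ⟨L2, hL2, h2⟩ := hχ n
  haveI := hL1
  haveI := hL2
  haveI : FiniteDimensional ℚ ↥(L1 ⊔ L2) := IntermediateField.finiteDimensional_sup L1 L2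
  haveI : IsAlgClosure ℚ Kb := ⟨inferInstance, AlgebraicClosure.isAlgebraic ℚ⟩
  haveI : Normal ℚ Kb := IsAlgClosure.normal ℚ Kb
  obtain ⟨L, hle, hLfin, hLst⟩ := exists_normal_finite_ge (L1 ⊔ L2)
  haveI : Normal ℚ L := IntermediateField.normal_iff_forall_map_eq.mpr hLst
  refine ⟨L, hLfin, ⟨⟩, fun σ hσ => ?_⟩
  refine ⟨fun v => ?_, ?_⟩
  · rw [Module.End.one_apply]
    exact h1 σ (fun x hx => hσ x (hle (le_sup_left (a := L1) (b := L2) hx))) v
  · exact h2 σ (fun x hx => hσ x (hle (le_sup_right (a := L1) (b := L2) hx)))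

variable [IsNoetherianRing R] [IsAdicComplete (maximalIdeal R) R]
  [Module.Free R M] [Module.Finite R M] [Nontrivial M]

/-- **adic power transfer**: from the exact relation at the Frobenius lifts outside `bad` to the
exact relation for all elements of `G_ℚ`. -/
theorem exists_t_of_cycCheb (hρ : GaloisActionIsAdicContinuous R ρ)
    (hχ : CharIsAdicContinuous χ)
    (hcheb : ∀ (L : IntermediateField ℚ Kb) [FiniteDimensional ℚ L] [IsGalois ℚ L] (g : GQ)
      (bad : Finset ℕ),
      ∃ (ℓ : ℕ) (A : ValuationSubring Kb) (σ : GQ) (i j : ℕ),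
        ℓ.Prime ∧ ℓ ∉ bad ∧ A.LiesOverPrime ℓ ∧ A.IsFrobeniusAt σ ℓ ∧
        (∀ x ∈ L, σ x = (g ^ i) x) ∧ (∀ x ∈ L, g x = (σ ^ j) x))
    (bad : Finset ℕ)
    (hkey : ∀ (ℓ : ℕ) (A : ValuationSubring Kb) (σ : GQ), ℓ.Prime → ℓ ∉ bad →
      A.LiesOverPrime ℓ → A.IsFrobeniusAt σ ℓ → ∃ a : R, RelInv ρ χ σ a) :
    ∃ t : GQ → R, ∀ g : GQ,
      ρ g + ((χ g : Rˣ) : R) • ρ g⁻¹ = t g • (1 : Module.End R M) := by
  -- step A: the relation modulo `𝔪 ^ n` for every `g` and `n`
  have stepA : ∀ (g : GQ) (n : ℕ), ∃ a : R, RelMod ρ χ (maximalIdeal R ^ n) g a := by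
    intro g n
    obtain ⟨L, hLfin, hLgal, hL⟩ := exists_galois_level ρ χ hρ hχ n
    haveI := hLfin
    haveI := hLgal
    obtain ⟨ℓ, A, σ, i, j, hℓ, hbad, hA, hσ, -, hg⟩ := hcheb L g bad
    obtain ⟨a, ha⟩ := hkey ℓ A σ hℓ hbad hA hσ
    set τ : GQ := (σ ^ j)⁻¹ * g with hτ
    have hτfix : ∀ x ∈ L, τ x = x := by
      intro x hx
      rw [hτ, AlgEquiv.mul_apply, hg x hx]
      exact (σ ^ j).symm_apply_apply x
    obtain ⟨h1, h2⟩ := hL τ hτfix
    have hgτ : g = σ ^ j * τ := by rw [hτ, mul_inv_cancel_left]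
    refine ⟨powSum a ((χ σ : Rˣ) : R) j, ?_⟩
    rw [hgτ]
    exact relMod_of_mul ρ χ (relInv_pow ρ χ ha j) h1 h2
  choose a ha using stepA
  -- step B: the sequence is Cauchy, take the limit
  have hm : maximalIdeal R ≠ ⊤ := Ideal.IsPrime.ne_top inferInstance
  haveI : IsHausdorff (maximalIdeal R) M := IsHausdorff.of_isLocalRing _ _ hm
  have stepB : ∀ g : GQ, ∃ t : R, ∀ n, a g n - t ∈ maximalIdeal R ^ n := by
    intro g
    have hcauchy : ∀ {m n : ℕ}, m ≤ n →
        a g m ≡ a g n [SMOD (maximalIdeal R ^ m • ⊤ : Submodule R R)] := by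
      intro m n hmn
      rw [SModEq.sub_mem, smul_eq_mul, Ideal.mul_top]
      exact relMod_unique ρ χ (ha g m) ((ha g n).mono (Ideal.pow_le_pow_right hmn))
    obtain ⟨t, ht⟩ := IsPrecomplete.prec inferInstance hcauchy
    refine ⟨t, fun n => ?_⟩
    have := ht n
    rwa [SModEq.sub_mem, smul_eq_mul, Ideal.mul_top] at this
  choose t ht using stepB
  -- step C: the relation holds exactly
  refine ⟨t, fun g => ?_⟩
  apply LinearMap.ext
  intro v
  rw [← sub_eq_zero]
  apply IsHausdorff.haus (inferInstance : IsHausdorff (maximalIdeal R) M)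
  intro n
  rw [SModEq.sub_mem, sub_zero]
  have h1 : EndCong (maximalIdeal R ^ n) (a g n • (1 : Module.End R M))
      (t g • (1 : Module.End R M)) := EndCong.smul (ht g n) (EndCong.refl _)
  exact ((ha g n).trans h1) v

end Galois

end Fermat.Agent.S30.AdicTransfer
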