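import Mathlib
import Fermat.Agent.S30.Skeleton
import Fermat.Agent.S30.AdicTransfer
import Fermat.Agent.S29.CycCheb.Main

/-!
# S30: block (T) of the skeleton, unconditional

`blockT p 𝒪 hp : Skeleton.BlockT p 𝒪 hp` : the adic power transfer `AdicTransfer.exists_t_of_cycCheb`
at the character `Skeleton.chiO p 𝒪 hp` (continuity `Skeleton.chiO_level`) and weak cyclic
Chebotarev `CycCheb.Main.cycChebStatement`.
-/

set_option autoImplicit false

namespace Fermat.Agent.S30.BlockT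

open Fermat.Agent.S30

/-- **Block (T)**, verbatim the ledger entry of `S30/Skeleton.lean`. -/
theorem blockT (p : ℕ) [Fact p.Prime] (𝒪 : Type) [CommRing 𝒪] [IsDomain 𝒪]
    [IsDiscreteValuationRing 𝒪] [IsAdicComplete (IsLocalRing.maximalIdeal 𝒪) 𝒪]
    [Finite (IsLocalRing.ResidueField 𝒪)] [CharZero 𝒪]
    (hp : (p : 𝒪) ∈ IsLocalRing.maximalIdeal 𝒪) : Skeleton.BlockT p 𝒪 hp := by
  intro E _ _ _ _ _ ρ hρ bad hkey
  exact AdicTransfer.exists_t_of_cycCheb ρ (Skeleton.chiO p 𝒪 hp) hρ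
    (fun n => Skeleton.chiO_level p 𝒪 hp n)
    (fun L _ _ g bad' => Fermat.Agent.S29.CycCheb.Main.cycChebStatement L g bad') bad
    (fun ℓ A σ hℓ hbad hA hσ => hkey ℓ hℓ hbad A hA σ hσ)

end Fermat.Agent.S30.BlockT
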