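import Mathlib
import Fermat.Agent.S29.Alg.QuadRel

set_option autoImplicit false

/-!
# S30, leaf (D), odd form: the two-dimensional piece over an arbitrary field

`K` a field with `2 ≠ 0`, `G` a group, `χ : G →* Kˣ`, `ρ : G →* End_K W` such that every `g`
satisfies `ρ g + χ g • ρ g⁻¹ = t g • 1` (equivalently `ρ g ^ 2 - t g • ρ g + χ g = 0`), and an
*odd involution* `c : G` (`c * c = 1`, `χ c = -1`).

* `anticomm` : `ρ c * ρ g + ρ g * ρ c = t (c * g) • 1 + t g • ρ c`;
* `plus_mul_plus`, `minus_mul_minus` : with `E := 1 + ρ c`, `F := 1 - ρ c`: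
  `E * ρ g * E = (t g + t (c * g)) • E`, `F * ρ g * F = (t g - t (c * g)) • F`;
* `finrank_eq_one_or_two` : an irreducible `W` has dimension `1` or `2` (no hypothesis on `K`
  beyond `2 ≠ 0`: no Wedderburn, no quaternion algebras);
* `exists_stable_one_or_two` : every nonzero finite-dimensional `W` with the relations contains a
  stable subspace `U` which is either two-dimensional with
  `charpoly (ρ g | U) = X² - t g X + χ g` for all `g`, or a line on which `G` acts through a
  character `ψ` with `t g = ψ g + χ g / ψ g`.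
-/

namespace Fermat.Agent.S30.QuadOdd

open Module Polynomial Fermat.Agent.S29.Alg

section Odd

variable {K : Type*} [Field K] {G : Type*} [Group G] {W : Type*} [AddCommGroup W] [Module K W]

theorem inv_eq_self_of_mul_self {c : G} (hc : c * c = 1) : c⁻¹ = c :=
  inv_eq_of_mul_eq_one_right hc

theorem rho_mul_self (ρ : G →* Module.End K W) {c : G} (hc : c * c = 1) : ρ c * ρ c = 1 := by
  rw [← map_mul, hc, map_one]

/-- the anticommutation relation with the odd involution -/
theorem anticomm (ρ : G →* Module.End K W) (χ : G →* Kˣ) (t : G → K)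
    (hrel : ∀ g, ρ g + (χ g : K) • ρ g⁻¹ = t g • (1 : Module.End K W))
    (c : G) (hc : c * c = 1) (hχc : (χ c : K) = -1) (g : G) :
    ρ c * ρ g + ρ g * ρ c = t (c * g) • (1 : Module.End K W) + t g • ρ c := by
  have h1 := hrel (c * g)
  have h2 := hrel g
  have h3 : (c * g)⁻¹ = g⁻¹ * c := by rw [mul_inv_rev, inv_eq_self_of_mul_self hc]
  rw [h3, map_mul, map_mul, map_mul, Units.val_mul, hχc] at h1
  have h4 : (χ g : K) • ρ g⁻¹ = t g • (1 : Module.End K W) - ρ g := by rw [← h2]; abel
  have h5 : ((-1 : K) * (χ g : K)) • (ρ g⁻¹ * ρ c) = -(((χ g : K) • ρ g⁻¹) * ρ c) := by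
    rw [neg_one_mul, neg_smul, smul_mul_assoc]
  rw [h5, h4, sub_mul, smul_mul_assoc, one_mul] at h1
  rw [← h1]; abel

theorem conj_add (ρ : G →* Module.End K W) (χ : G →* Kˣ) (t : G → K)
    (hrel : ∀ g, ρ g + (χ g : K) • ρ g⁻¹ = t g • (1 : Module.End K W))
    (c : G) (hc : c * c = 1) (hχc : (χ c : K) = -1) (g : G) :
    ρ c * ρ g * ρ c + ρ g = t (c * g) • ρ c + t g • (1 : Module.End K W) := by
  have h := congrArg (fun x => x * ρ c) (anticomm ρ χ t hrel c hc hχc g)
  simp only [add_mul, smul_mul_assoc, one_mul, mul_assoc, rho_mul_self ρ hc, mul_one] at h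
  rw [← mul_assoc] at h
  exact h

theorem plus_mul_plus (ρ : G →* Module.End K W) (χ : G →* Kˣ) (t : G → K)
    (hrel : ∀ g, ρ g + (χ g : K) • ρ g⁻¹ = t g • (1 : Module.End K W))
    (c : G) (hc : c * c = 1) (hχc : (χ c : K) = -1) (g : G) :
    (1 + ρ c) * ρ g * (1 + ρ c) = (t g + t (c * g)) • (1 + ρ c) := by
  have h1 : (1 + ρ c) * ρ g * (1 + ρ c)
      = (ρ c * ρ g * ρ c + ρ g) + (ρ c * ρ g + ρ g * ρ c) := by noncomm_ring
  rw [h1, conj_add ρ χ t hrel c hc hχc g, anticomm ρ χ t hrel c hc hχc g]
  simp only [smul_add, add_smul]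
  abel

theorem minus_mul_minus (ρ : G →* Module.End K W) (χ : G →* Kˣ) (t : G → K)
    (hrel : ∀ g, ρ g + (χ g : K) • ρ g⁻¹ = t g • (1 : Module.End K W))
    (c : G) (hc : c * c = 1) (hχc : (χ c : K) = -1) (g : G) :
    (1 - ρ c) * ρ g * (1 - ρ c) = (t g - t (c * g)) • (1 - ρ c) := by
  have h1 : (1 - ρ c) * ρ g * (1 - ρ c)
      = (ρ c * ρ g * ρ c + ρ g) - (ρ c * ρ g + ρ g * ρ c) := by noncomm_ring
  rw [h1, conj_add ρ χ t hrel c hc hχc g, anticomm ρ χ t hrel c hc hχc g]
  simp only [smul_sub, sub_smul]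
  abel

/-- the span of the orbit of a vector -/
def orbitSpan (ρ : G →* Module.End K W) (u : W) : Submodule K W :=
  Submodule.span K (Set.range fun g => ρ g u)

theorem mem_orbitSpan_self (ρ : G →* Module.End K W) (u : W) : u ∈ orbitSpan ρ u :=
  Submodule.subset_span ⟨1, by simp⟩

theorem orbitSpan_stable (ρ : G →* Module.End K W) (u : W) (h : G) (x : W)
    (hx : x ∈ orbitSpan ρ u) : ρ h x ∈ orbitSpan ρ u := by
  have h1 : (orbitSpan ρ u).map (ρ h) ≤ orbitSpan ρ u := by
    rw [orbitSpan, Submodule.map_span]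
    apply Submodule.span_mono
    rintro _ ⟨_, ⟨g, rfl⟩, rfl⟩
    exact ⟨h * g, by simp⟩
  exact h1 ⟨x, hx, rfl⟩

theorem orbitSpan_eq_top (ρ : G →* Module.End K W)
    (hirr : ∀ U : Submodule K W, (∀ g, ∀ x ∈ U, ρ g x ∈ U) → U = ⊥ ∨ U = ⊤)
    {u : W} (hu : u ≠ 0) : orbitSpan ρ u = ⊤ := by
  rcases hirr _ (fun g x hx => orbitSpan_stable ρ u g x hx) with h | h
  · exfalso
    have := mem_orbitSpan_self ρ u
    rw [h, Submodule.mem_bot] at this
    exact hu this
  · exact h

/-- if `P * ρ g * P = s g • P` for all `g` and `P u = a • u` with `a ≠ 0`, then `P` maps the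
orbit span of `u` into the line `K u`. -/
theorem apply_mem_span_of_corner (ρ : G →* Module.End K W) (P : Module.End K W) (s : G → K)
    (hP : ∀ g, P * ρ g * P = s g • P) {u : W} {a : K} (ha : a ≠ 0) (hu : P u = a • u)
    (w : W) (hw : w ∈ orbitSpan ρ u) : P w ∈ Submodule.span K {u} := by
  induction hw using Submodule.span_induction with
  | mem x hx =>
    obtain ⟨g, rfl⟩ := hx
    have h1 : u = a⁻¹ • P u := by rw [hu, smul_smul, inv_mul_cancel₀ ha, one_smul]
    have h2 : P (ρ g u) = a⁻¹ • (P * ρ g * P) u := by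
      conv_lhs => rw [h1]
      simp only [map_smul, Module.End.mul_apply]
    rw [h2, hP g, LinearMap.smul_apply, hu, smul_smul, smul_smul]
    exact Submodule.smul_mem _ _ (Submodule.mem_span_singleton_self u)
  | zero => rw [map_zero]; exact Submodule.zero_mem _
  | add x y _ _ hx hy => rw [map_add]; exact Submodule.add_mem _ hx hy
  | smul r x _ hx => rw [map_smul]; exact Submodule.smul_mem _ r hx

/-- **Dimension one or two.** An irreducible representation over a field with `2 ≠ 0` in which
every group element satisfies `ρ g + χ g • ρ g⁻¹ ∈ K`, with an odd involution, has dimension one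
(if `ρ c` is a scalar) or two (otherwise). -/
theorem finrank_eq_one_or_two [FiniteDimensional K W] [Nontrivial W] (h2 : (2 : K) ≠ 0)
    (ρ : G →* Module.End K W) (χ : G →* Kˣ) (t : G → K)
    (hrel : ∀ g, ρ g + (χ g : K) • ρ g⁻¹ = t g • (1 : Module.End K W))
    (c : G) (hc : c * c = 1) (hχc : (χ c : K) = -1)
    (hirr : ∀ U : Submodule K W, (∀ g, ∀ x ∈ U, ρ g x ∈ U) → U = ⊥ ∨ U = ⊤) :
    Module.finrank K W = 1 ∨ Module.finrank K W = 2 := by
  have hCC := rho_mul_self ρ hc
  by_cases hsc : ∃ s : K, ρ c = s • (1 : Module.End K W)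
  · -- all `ρ g` are scalars
    left
    obtain ⟨s, hs⟩ := hsc
    have hs0 : s ≠ 0 := by
      rintro rfl
      rw [hs, zero_smul, zero_mul] at hCC
      exact zero_ne_one hCC
    have hscal : ∀ g, ∃ r : K, ρ g = r • (1 : Module.End K W) := by
      intro g
      have h := anticomm ρ χ t hrel c hc hχc g
      rw [hs, smul_mul_assoc, one_mul, mul_smul_comm, mul_one, ← add_smul, smul_smul,
        ← add_smul] at h
      refine ⟨(s + s)⁻¹ * (t (c * g) + t g * s), ?_⟩
      have hss : s + s ≠ 0 := by
        rw [← two_mul]; exact mul_ne_zero h2 hs0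
      rw [mul_smul, ← h, smul_smul, inv_mul_cancel₀ hss, one_smul]
    obtain ⟨v, hv⟩ := exists_ne (0 : W)
    have hstab : ∀ g, ∀ x ∈ Submodule.span K {v}, ρ g x ∈ Submodule.span K {v} := by
      intro g x hx
      obtain ⟨r, hr⟩ := hscal g
      rw [hr]
      simpa using Submodule.smul_mem _ r hx
    rcases hirr _ hstab with h | h
    · rw [Submodule.span_singleton_eq_bot] at h; exact absurd h hv
    · have h1 := finrank_span_singleton (K := K) hv
      rw [h, finrank_top] at h1
      exact h1
  · right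
    push Not at hsc
    set E : Module.End K W := 1 + ρ c with hE
    set F : Module.End K W := 1 - ρ c with hF
    have hE0 : E ≠ 0 := by
      intro h
      apply hsc (-1)
      rw [neg_smul, one_smul]
      exact (eq_neg_of_add_eq_zero_right h)
    have hF0 : F ≠ 0 := by
      intro h
      apply hsc 1
      rw [one_smul]
      exact (sub_eq_zero.mp h).symm
    have hEE : E * E = (2 : K) • E := by
      have : E * E = (1 + ρ c * ρ c) + (ρ c + ρ c) := by rw [hE]; noncomm_ring
      rw [this, hCC, hE, two_smul]; abel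
    have hFF : F * F = (2 : K) • F := by
      have : F * F = (1 + ρ c * ρ c) - (ρ c + ρ c) := by rw [hF]; noncomm_ring
      rw [this, hCC, hF, two_smul]; abel
    have hFE : F * E = 0 := by
      have : F * E = 1 - ρ c * ρ c := by rw [hE, hF]; noncomm_ring
      rw [this, hCC, sub_self]
    have hEF2 : E + F = (2 : K) • (1 : Module.End K W) := by
      rw [hE, hF, two_smul]; abel
    -- vectors `u ∈ E W`, `v ∈ F W`
    obtain ⟨u₀, hu₀⟩ : ∃ u₀, E u₀ ≠ 0 := by
      by_contra hcon
      push Not at hcon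
      exact hE0 (LinearMap.ext fun x => by simpa using hcon x)
    obtain ⟨v₀, hv₀⟩ : ∃ v₀, F v₀ ≠ 0 := by
      by_contra hcon
      push Not at hcon
      exact hF0 (LinearMap.ext fun x => by simpa using hcon x)
    set u := E u₀ with hu
    set v := F v₀ with hv
    have hEu : E u = (2 : K) • u := by
      rw [hu, ← Module.End.mul_apply, hEE, LinearMap.smul_apply]
    have hFv : F v = (2 : K) • v := by
      rw [hv, ← Module.End.mul_apply, hFF, LinearMap.smul_apply]
    have hEw : ∀ w, E w ∈ Submodule.span K {u} := fun w =>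
      apply_mem_span_of_corner ρ E (fun g => t g + t (c * g))
        (fun g => plus_mul_plus ρ χ t hrel c hc hχc g) h2 hEu w
        (by rw [orbitSpan_eq_top ρ hirr hu₀]; exact Submodule.mem_top)
    have hFw : ∀ w, F w ∈ Submodule.span K {v} := fun w =>
      apply_mem_span_of_corner ρ F (fun g => t g - t (c * g))
        (fun g => minus_mul_minus ρ χ t hrel c hc hχc g) h2 hFv w
        (by rw [orbitSpan_eq_top ρ hirr hv₀]; exact Submodule.mem_top)
    -- `W = K u + K v`
    have hspan : (⊤ : Submodule K W) ≤ Submodule.span K ({u, v} : Set W) := by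
      intro w _
      have h1 : w = (2 : K)⁻¹ • (E w + F w) := by
        rw [← LinearMap.add_apply, hEF2, LinearMap.smul_apply, Module.End.one_apply, smul_smul,
          inv_mul_cancel₀ h2, one_smul]
      rw [h1]
      refine Submodule.smul_mem _ _ (Submodule.add_mem _ ?_ ?_)
      · exact Submodule.span_mono (by simp) (hEw w)
      · exact Submodule.span_mono (by simp) (hFw w)
    have hle : Module.finrank K W ≤ 2 := by
      classical
      have h3 : Module.finrank K (Submodule.span K (({u, v} : Finset W) : Set W)) ≤ 2 :=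
        (finrank_span_finset_le_card ({u, v} : Finset W)).trans Finset.card_le_two
      have h4 : Submodule.span K (({u, v} : Finset W) : Set W) = ⊤ := by
        rw [eq_top_iff]
        simpa using hspan
      rw [h4, finrank_top] at h3
      exact h3
    have hpos : 0 < Module.finrank K W := Module.finrank_pos
    have hne1 : Module.finrank K W ≠ 1 := by
      intro h1
      obtain ⟨s, hs⟩ := exists_eq_smul_one_of_finrank_one h1 (ρ c)
      exact hsc s hs
    omega

end Odd

section Main

variable {K : Type*} [Field K] {G : Type*} [Group G] {W : Type*} [AddCommGroup W] [Module K W]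

/-- on a line, a representation is given by a character -/
theorem exists_char_of_finrank_one (hW : Module.finrank K W = 1) (ρ : G →* Module.End K W) :
    ∃ ψ : G →* Kˣ, ∀ g, ρ g = (ψ g : K) • (1 : Module.End K W) := by
  have : Nontrivial W := Module.nontrivial_of_finrank_eq_succ hW
  have hone : (1 : Module.End K W) ≠ 0 := one_ne_zero
  have hinj : ∀ a b : K, a • (1 : Module.End K W) = b • 1 → a = b := fun a b h =>
    smul_left_injective K hone h
  choose ψ hψ using fun g => exists_eq_smul_one_of_finrank_one hW (ρ g)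
  let ψ₀ : G →* K :=
    { toFun := ψ
      map_one' := hinj _ _ (by rw [← hψ, map_one, one_smul])
      map_mul' := fun g h => hinj _ _ (by
        rw [← hψ, map_mul, hψ g, hψ h, smul_mul_assoc, one_mul, smul_smul]) }
  refine ⟨ψ₀.toHomUnits, fun g => ?_⟩
  rw [MonoidHom.coe_toHomUnits]
  exact hψ g

variable [FiniteDimensional K W] [Nontrivial W]

/-- **The two-dimensional piece.** A nonzero finite-dimensional representation with the quadratic
relations and an odd involution, over a field with `2 ≠ 0`, contains a stable subspace `U` which is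
either a plane on which `charpoly (ρ g) = X² - t g X + χ g` for all `g`, or a line on which `G`
acts through a character `ψ` with `t g = ψ g + χ g / ψ g`. -/
theorem exists_stable_one_or_two (h2 : (2 : K) ≠ 0)
    (ρ : G →* Module.End K W) (χ : G →* Kˣ) (t : G → K)
    (hrel : ∀ g, ρ g + (χ g : K) • ρ g⁻¹ = t g • (1 : Module.End K W))
    (c : G) (hc : c * c = 1) (hχc : (χ c : K) = -1) :
    ∃ (U : Submodule K W) (hU : ∀ g, ∀ x ∈ U, ρ g x ∈ U),
      (Module.finrank K U = 2 ∧
        ∀ g, LinearMap.charpoly (restrictRep ρ U hU g) = X ^ 2 - C (t g) * X + C (χ g : K)) ∨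
      (Module.finrank K U = 1 ∧ ∃ ψ : G →* Kˣ,
        (∀ g, ∀ x ∈ U, ρ g x = (ψ g : K) • x) ∧
          ∀ g, t g = (ψ g : K) + (χ g : K) * ((ψ g : K))⁻¹) := by
  obtain ⟨U, hU0, hUinv, hUmin⟩ := exists_minimal_stable ρ
  have hrelU := restrictRep_rel ρ χ t hrel U hUinv
  have hirrU := restrictRep_irreducible ρ U hUinv hUmin
  have hnt : Nontrivial U := Submodule.nontrivial_iff_ne_bot.mpr hU0
  refine ⟨U, hUinv, ?_⟩
  rcases finrank_eq_one_or_two h2 (restrictRep ρ U hUinv) χ t hrelU c hc hχc hirrU with h1 | h2'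
  · right
    refine ⟨h1, ?_⟩
    obtain ⟨ψ, hψ⟩ := exists_char_of_finrank_one h1 (restrictRep ρ U hUinv)
    refine ⟨ψ, fun g x hx => ?_, fun g => ?_⟩
    · have := congrArg (fun f : Module.End K U => ((f ⟨x, hx⟩ : U) : W)) (hψ g)
      simpa using this
    · have hone : (1 : Module.End K U) ≠ 0 := one_ne_zero
      have h3 := hrelU g
      rw [hψ g, hψ g⁻¹, map_inv, Units.val_inv_eq_inv_val, smul_smul, ← add_smul] at h3
      exact (smul_left_injective K hone h3).symm
  · left
    exact ⟨h2', fun g => charpoly_of_finrank_two_of_rel h2' _ χ t hrelU hirrU g⟩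

/-- the same in matrix form: a two-dimensional representation over `K` itself with
`charpoly (ρ' g) = X² - t g X + χ g` for ALL `g`, trivial wherever `ρ` and `χ` are. -/
theorem exists_rep_two_of_odd (h2 : (2 : K) ≠ 0)
    (ρ : G →* Module.End K W) (χ : G →* Kˣ) (t : G → K)
    (hrel : ∀ g, ρ g + (χ g : K) • ρ g⁻¹ = t g • (1 : Module.End K W))
    (c : G) (hc : c * c = 1) (hχc : (χ c : K) = -1) :
    ∃ ρ' : G →* Module.End K (Fin 2 → K),
      (∀ g, LinearMap.charpoly (ρ' g) = X ^ 2 - C (t g) * X + C (χ g : K)) ∧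
      (∀ g, ρ g = 1 → χ g = 1 → ρ' g = 1) := by
  obtain ⟨U, hU0, hUinv, hUmin⟩ := exists_minimal_stable ρ
  have hrelU := restrictRep_rel ρ χ t hrel U hUinv
  have hirrU := restrictRep_irreducible ρ U hUinv hUmin
  have hnt : Nontrivial U := Submodule.nontrivial_iff_ne_bot.mpr hU0
  rcases finrank_eq_one_or_two h2 (restrictRep ρ U hUinv) χ t hrelU c hc hχc hirrU with h1 | h2'
  · obtain ⟨ρ', h1', h2''⟩ := exists_rep_of_finrank_one h1 (restrictRep ρ U hUinv) χ t hrelU
    exact ⟨ρ', h1', fun g hg hχ => h2'' g (restrictRep_eq_one ρ U hUinv g hg) hχ⟩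
  · let e : U ≃ₗ[K] (Fin 2 → K) := (Module.finBasisOfFinrankEq K U h2').equivFun
    refine ⟨(e.conjRingEquiv : Module.End K U →* Module.End K (Fin 2 → K)).comp
      (restrictRep ρ U hUinv), fun g => ?_, fun g hg _ => ?_⟩
    · have : ((e.conjRingEquiv : Module.End K U →* Module.End K (Fin 2 → K)).comp
          (restrictRep ρ U hUinv)) g = e.conj (restrictRep ρ U hUinv g) := rfl
      rw [this, LinearEquiv.charpoly_conj]
      exact charpoly_of_finrank_two_of_rel h2' _ χ t hrelU hirrU g
    · rw [MonoidHom.comp_apply, restrictRep_eq_one ρ U hUinv g hg, map_one]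

end Main

end Fermat.Agent.S30.QuadOdd
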