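import Mathlib
import Fermat.Agent.S30.QuadOdd

/-!
# S30 (Top, glue 1): base change of an integral representation to the fraction field

`𝒪` a domain, `K := FractionRing 𝒪`, `E` a finite free nonzero `𝒪`-module with a representation
`ρ : G →* End_𝒪 E` satisfying the quadratic relations `ρ g + χ g • ρ g⁻¹ = t g • 1` with
`χ : G →* 𝒪ˣ`, `t : G → 𝒪`.  Then `V := K ⊗[𝒪] E` is a nonzero finite-dimensional `K`-vector space,
`repK ρ g := (ρ g).baseChange K` satisfies the same relations with `χK := Units.map (algebraMap 𝒪 K) ∘ χ`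
and `tK := algebraMap 𝒪 K ∘ t`, and `QuadOdd.exists_stable_one_or_two` applies.
-/

set_option autoImplicit false

noncomputable section

namespace Fermat.Agent.S30.FracGlue

open scoped TensorProduct
open Polynomial

variable {𝒪 : Type*} [CommRing 𝒪] [IsDomain 𝒪]
variable {G : Type*} [Group G]
variable {E : Type*} [AddCommGroup E] [Module 𝒪 E]

/-- the fraction field -/
abbrev K (𝒪 : Type*) [CommRing 𝒪] [IsDomain 𝒪] : Type _ := FractionRing 𝒪

/-- the generic fibre of `E` -/
abbrev V (𝒪 : Type*) [CommRing 𝒪] [IsDomain 𝒪] (E : Type*) [AddCommGroup E] [Module 𝒪 E] :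
    Type _ := K 𝒪 ⊗[𝒪] E

/-- base change of a representation to the fraction field -/
def repK (ρ : G →* Module.End 𝒪 E) : G →* Module.End (K 𝒪) (V 𝒪 E) where
  toFun g := (ρ g).baseChange (K 𝒪)
  map_one' := by rw [map_one, LinearMap.baseChange_one]
  map_mul' g h := by rw [map_mul, LinearMap.baseChange_mul]

@[simp] theorem repK_apply (ρ : G →* Module.End 𝒪 E) (g : G) :
    repK ρ g = (ρ g).baseChange (K 𝒪) := rfl

theorem repK_tmul (ρ : G →* Module.End 𝒪 E) (g : G) (a : K 𝒪) (x : E) :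
    repK ρ g (a ⊗ₜ[𝒪] x) = a ⊗ₜ[𝒪] ρ g x := rfl

/-- the character with values in the fraction field -/
def chiK (χ : G →* 𝒪ˣ) : G →* (K 𝒪)ˣ := (Units.map (algebraMap 𝒪 (K 𝒪) : 𝒪 →* K 𝒪)).comp χ

@[simp] theorem chiK_val (χ : G →* 𝒪ˣ) (g : G) :
    ((chiK χ g : (K 𝒪)ˣ) : K 𝒪) = algebraMap 𝒪 (K 𝒪) (χ g : 𝒪) := rfl

/-- the relations survive base change. -/
theorem repK_rel (ρ : G →* Module.End 𝒪 E) (χ : G →* 𝒪ˣ) (t : G → 𝒪)
    (hrel : ∀ g, ρ g + ((χ g : 𝒪ˣ) : 𝒪) • ρ g⁻¹ = t g • (1 : Module.End 𝒪 E)) (g : G) :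
    repK ρ g + ((chiK χ g : (K 𝒪)ˣ) : K 𝒪) • repK ρ g⁻¹
      = algebraMap 𝒪 (K 𝒪) (t g) • (1 : Module.End (K 𝒪) (V 𝒪 E)) := by
  apply TensorProduct.AlgebraTensorModule.curry_injective
  ext x
  have h := congrArg (fun f : Module.End 𝒪 E => f x) (hrel g)
  simp only [LinearMap.add_apply, LinearMap.smul_apply, Module.End.one_apply] at h
  simp only [TensorProduct.AlgebraTensorModule.curry_apply, LinearMap.restrictScalars_apply,
    TensorProduct.curry_apply, LinearMap.add_apply, LinearMap.smul_apply, repK_apply,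
    LinearMap.baseChange_tmul, chiK_val, Module.End.one_apply]
  rw [Algebra.algebraMap_eq_smul_one, Algebra.algebraMap_eq_smul_one, smul_assoc, smul_assoc,
    one_smul, one_smul, ← TensorProduct.tmul_smul, ← TensorProduct.tmul_smul,
    ← TensorProduct.tmul_add, h]

theorem repK_eq_one (ρ : G →* Module.End 𝒪 E) {g : G} (h : ρ g = 1) : repK ρ g = 1 := by
  rw [repK_apply, h, LinearMap.baseChange_one]

instance instFiniteV [Module.Finite 𝒪 E] : Module.Finite (K 𝒪) (V 𝒪 E) := inferInstance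

theorem nontrivialV [Module.Free 𝒪 E] [Module.Finite 𝒪 E] [Nontrivial E] :
    Nontrivial (V 𝒪 E) := by
  have h1 : Module.finrank (K 𝒪) (V 𝒪 E) = Module.finrank 𝒪 E := Module.finrank_baseChange
  have h2 : 0 < Module.finrank 𝒪 E := Module.finrank_pos
  exact Module.nontrivial_of_finrank_pos (R := K 𝒪) (by rw [h1]; exact h2)

end Fermat.Agent.S30.FracGlue

end
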