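import Mathlib
import Fermat.Prelude.Def_GaloisRep_Adic
import Fermat.Agent.S29.Alg.QuadRel

/-!
# S30, abstract leaf: the lattice cut out by a stable subspace

`𝒪` a principal ideal domain with fraction field `K`, `T` a finite free `𝒪`-module with an
`𝒪`-linear action `ρ` of a group `G`, `V` a `K`-vector space with an `𝒪`-linear map `ι : T → V`
which is a base change (`IsBaseChange K ι`, e.g. `V = K ⊗ T`, `ι t = 1 ⊗ t`), `ρV` a `K`-linear
action of `G` on `V` extending `ρ`, and `U ≤ V` a `K`-subspace stable under `ρV`.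

* `lat ι U : Submodule 𝒪 T` is the lattice `{t | ι t ∈ U}`; it is `G`-stable (`lat_stable`),
  finite free (instances), and `K ⊗ lat ι U ≃ U` (`latEquiv`), hence
  `finrank 𝒪 (lat ι U) = finrank K U` (`finrank_lat`);
* `charpoly_rhoLat`: the characteristic polynomial of `ρ g` on the lattice, mapped to `K`, is
  the characteristic polynomial of `ρV g` on `U` (in the spelling `restrictRep` of `QuadRel`);
* `mem_smul_top_lat`: the lattice is saturated, `I T ∩ lat = I · lat` for every ideal `I`;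
* `isAdicContinuous_rhoLat`: adic continuity (Prelude `GaloisActionIsAdicContinuous`) descends
  from `T` to the lattice;
* `galoisRepAdicOfStable`: the `GaloisRepAdic 𝒪` attached to a stable plane `U`, with its
  characteristic polynomials and its unramifiedness;
* `mapSubtype_*`: the glue for a plane `U` inside a stable subspace `W ≤ V`.
-/

set_option autoImplicit false
set_option linter.unusedSectionVars false

namespace Fermat.Agent.S30.Lattice

open scoped TensorProduct
open Polynomial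
open Fermat.Agent.S29.Alg (restrictRep)

section general

variable {𝒪 : Type*} [CommRing 𝒪] [IsDomain 𝒪] [IsPrincipalIdealRing 𝒪]
variable {K : Type*} [Field K] [Algebra 𝒪 K] [IsFractionRing 𝒪 K]
variable {T : Type*} [AddCommGroup T] [Module 𝒪 T]
variable {V : Type*} [AddCommGroup V] [Module K V] [Module 𝒪 V] [IsScalarTower 𝒪 K V]
variable (ι : T →ₗ[𝒪] V)

/-- the lattice `U ∩ T` cut out by a `K`-subspace `U` of `V`. -/
def lat (U : Submodule K V) : Submodule 𝒪 T :=
  (U.restrictScalars 𝒪).comap ι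

theorem mem_lat {U : Submodule K V} {t : T} : t ∈ lat ι U ↔ ι t ∈ U := Iff.rfl

theorem algebraMap_smul_iota (a : 𝒪) (t : T) : algebraMap 𝒪 K a • ι t = ι (a • t) := by
  rw [algebraMap_smul, map_smul]

theorem algebraMap_ne_zero {s : 𝒪} (hs : s ≠ 0) : algebraMap 𝒪 K s ≠ 0 := by
  rwa [Ne, map_eq_zero_iff _ (IsFractionRing.injective 𝒪 K)]

variable {ι}

/-- every element of `V` becomes integral after multiplication by a nonzero scalar. -/
theorem exists_smul_eq_iota (hι : IsBaseChange K ι) (x : V) :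
    ∃ (s : 𝒪) (t : T), s ≠ 0 ∧ algebraMap 𝒪 K s • x = ι t := by
  refine hι.inductionOn x (fun x => ∃ (s : 𝒪) (t : T), s ≠ 0 ∧ algebraMap 𝒪 K s • x = ι t)
    ⟨1, 0, one_ne_zero, by simp⟩ (fun t => ⟨1, t, one_ne_zero, by simp⟩) ?_ ?_
  · rintro c x ⟨s, t, hs, hst⟩
    obtain ⟨a, b, hb, rfl⟩ := IsFractionRing.div_surjective (A := 𝒪) c
    have hb0 : b ≠ 0 := nonZeroDivisors.ne_zero hb
    have hbK : algebraMap 𝒪 K b ≠ 0 := algebraMap_ne_zero hb0
    refine ⟨b * s, a • t, mul_ne_zero hb0 hs, ?_⟩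
    rw [← algebraMap_smul_iota (K := K), ← hst, smul_smul, smul_smul, map_mul]
    congr 1
    field_simp
  · rintro x y ⟨s, t, hs, h1⟩ ⟨s', t', hs', h2⟩
    refine ⟨s * s', s' • t + s • t', mul_ne_zero hs hs', ?_⟩
    have e1 : algebraMap 𝒪 K (s * s') • x = ι (s' • t) := by
      rw [mul_comm, map_mul, mul_smul, h1, algebraMap_smul_iota]
    have e2 : algebraMap 𝒪 K (s * s') • y = ι (s • t') := by
      rw [map_mul, mul_smul, h2, algebraMap_smul_iota]
    rw [smul_add, e1, e2, map_add]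

/-- the comparison map `K ⊗ lat → V`. -/
noncomputable def latMap (hι : IsBaseChange K ι) (U : Submodule K V) :
    K ⊗[𝒪] (lat ι U) →ₗ[K] V :=
  hι.equiv.toLinearMap ∘ₗ (lat ι U).subtype.baseChange K

theorem latMap_tmul (hι : IsBaseChange K ι) (U : Submodule K V) (c : K) (v : lat ι U) :
    latMap hι U (c ⊗ₜ[𝒪] v) = c • ι (v : T) := by
  unfold latMap
  rw [LinearMap.comp_apply, LinearMap.baseChange_tmul, LinearEquiv.coe_coe, hι.equiv_tmul]
  rfl

theorem latMap_injective (hι : IsBaseChange K ι) (U : Submodule K V) :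
    Function.Injective (latMap hι U) := by
  unfold latMap
  rw [LinearMap.coe_comp]
  refine Function.Injective.comp hι.equiv.injective ?_
  rw [LinearMap.baseChange_eq_ltensor]
  exact Module.Flat.lTensor_preserves_injective_linearMap _ (Submodule.subtype_injective _)

theorem range_latMap (hι : IsBaseChange K ι) (U : Submodule K V) :
    LinearMap.range (latMap hι U) = U := by
  apply le_antisymm
  · rintro _ ⟨x, rfl⟩
    induction x using TensorProduct.induction_on with
    | zero => rw [map_zero]; exact U.zero_mem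
    | tmul c v =>
      rw [latMap_tmul]
      exact U.smul_mem c v.2
    | add x y hx hy => rw [map_add]; exact U.add_mem hx hy
  · intro u hu
    obtain ⟨s, t, hs, hst⟩ := exists_smul_eq_iota hι u
    have htU : t ∈ lat ι U := by
      rw [mem_lat, ← hst]
      exact U.smul_mem _ hu
    have hsK : algebraMap 𝒪 K s ≠ 0 := algebraMap_ne_zero hs
    refine ⟨(algebraMap 𝒪 K s)⁻¹ ⊗ₜ[𝒪] (⟨t, htU⟩ : lat ι U), ?_⟩
    rw [latMap_tmul]
    show (algebraMap 𝒪 K s)⁻¹ • ι t = u
    rw [← hst, smul_smul, inv_mul_cancel₀ hsK, one_smul]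

/-- `K ⊗ lat ι U ≃ U`. -/
noncomputable def latEquiv (hι : IsBaseChange K ι) (U : Submodule K V) :
    K ⊗[𝒪] (lat ι U) ≃ₗ[K] U :=
  (LinearEquiv.ofInjective (latMap hι U) (latMap_injective hι U)).trans
    (LinearEquiv.ofEq _ _ (range_latMap hι U))

theorem coe_latEquiv (hι : IsBaseChange K ι) (U : Submodule K V) (x : K ⊗[𝒪] (lat ι U)) :
    ((latEquiv hι U x : U) : V) = latMap hι U x := rfl

variable [Module.Finite 𝒪 T] [Module.Free 𝒪 T]

/-- the rank of the lattice is the dimension of the subspace. -/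
theorem finrank_lat (hι : IsBaseChange K ι) (U : Submodule K V) :
    Module.finrank 𝒪 (lat ι U) = Module.finrank K U := by
  rw [← (latEquiv hι U).finrank_eq, Module.finrank_baseChange]

variable (ι) in
/-- the lattice is saturated in `T`. -/
theorem mem_smul_top_lat (U : Submodule K V) (I : Ideal 𝒪) (v : lat ι U)
    (h : (v : T) ∈ I • (⊤ : Submodule 𝒪 T)) : v ∈ I • (⊤ : Submodule 𝒪 (lat ι U)) := by
  obtain ⟨a, rfl⟩ : ∃ a : 𝒪, I = Ideal.span {a} :=
    ⟨_, (IsPrincipalIdealRing.principal I).span_singleton_generator.symm⟩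
  rw [Submodule.ideal_span_singleton_smul] at h ⊢
  rw [Submodule.mem_smul_pointwise_iff_exists] at h ⊢
  obtain ⟨t, -, hat⟩ := h
  by_cases ha : a = 0
  · subst ha
    refine ⟨0, Submodule.mem_top, ?_⟩
    apply Subtype.ext
    rw [zero_smul] at hat
    simp [← hat]
  · have haK : algebraMap 𝒪 K a ≠ 0 := algebraMap_ne_zero ha
    have htU : t ∈ lat ι U := by
      rw [mem_lat]
      have h1 : ι (v : T) ∈ U := v.2
      rw [← hat, ← algebraMap_smul_iota (K := K)] at h1
      have h2 := U.smul_mem (algebraMap 𝒪 K a)⁻¹ h1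
      rwa [smul_smul, inv_mul_cancel₀ haK, one_smul] at h2
    exact ⟨⟨t, htU⟩, Submodule.mem_top, Subtype.ext hat⟩

section action

variable {G : Type*} [Group G] {ρ : G →* Module.End 𝒪 T} {ρV : G →* Module.End K V}

theorem lat_stable (hρ : ∀ g t, ρV g (ι t) = ι (ρ g t)) {U : Submodule K V}
    (hU : ∀ g, ∀ x ∈ U, ρV g x ∈ U) (g : G) :
    ∀ t ∈ lat ι U, ρ g t ∈ lat ι U := by
  intro t ht
  rw [mem_lat] at ht ⊢
  rw [← hρ]
  exact hU g _ ht

/-- the action on the lattice. -/
def rhoLat (hρ : ∀ g t, ρV g (ι t) = ι (ρ g t)) {U : Submodule K V}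
    (hU : ∀ g, ∀ x ∈ U, ρV g x ∈ U) :
    G →* Module.End 𝒪 (lat ι U) where
  toFun g := (ρ g).restrict (lat_stable hρ hU g)
  map_one' := by
    ext v
    simp
  map_mul' g h := by
    ext v
    simp [LinearMap.restrict_apply]

@[simp] theorem coe_rhoLat_apply (hρ : ∀ g t, ρV g (ι t) = ι (ρ g t)) {U : Submodule K V}
    (hU : ∀ g, ∀ x ∈ U, ρV g x ∈ U) (g : G)
    (v : lat ι U) : ((rhoLat hρ hU g v : lat ι U) : T) = ρ g (v : T) := rfl

theorem rhoLat_eq_one (hρ : ∀ g t, ρV g (ι t) = ι (ρ g t)) {U : Submodule K V}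
    (hU : ∀ g, ∀ x ∈ U, ρV g x ∈ U) {g : G}
    (h : ρ g = 1) : rhoLat hρ hU g = 1 := by
  ext v
  rw [coe_rhoLat_apply, h]
  rfl

/-- `latEquiv` intertwines the two actions. -/
theorem latEquiv_baseChange (hι : IsBaseChange K ι) (hρ : ∀ g t, ρV g (ι t) = ι (ρ g t))
    {U : Submodule K V} (hU : ∀ g, ∀ x ∈ U, ρV g x ∈ U) (g : G)
    (x : K ⊗[𝒪] (lat ι U)) :
    latEquiv hι U ((rhoLat hρ hU g).baseChange K x) = restrictRep ρV U hU g (latEquiv hι U x) := by
  apply Subtype.ext
  rw [coe_latEquiv, Fermat.Agent.S29.Alg.restrictRep_apply, coe_latEquiv]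
  induction x using TensorProduct.induction_on with
  | zero => simp
  | tmul c v =>
    rw [LinearMap.baseChange_tmul, latMap_tmul, latMap_tmul, map_smul, hρ]
    rfl
  | add x y hx hy => simp only [map_add, hx, hy]

variable [FiniteDimensional K V]

/-- the characteristic polynomial on the lattice is the one on `U`. -/
theorem charpoly_rhoLat (hι : IsBaseChange K ι) (hρ : ∀ g t, ρV g (ι t) = ι (ρ g t))
    {U : Submodule K V} (hU : ∀ g, ∀ x ∈ U, ρV g x ∈ U) (g : G) :
    (LinearMap.charpoly (rhoLat hρ hU g)).map (algebraMap 𝒪 K) =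
      LinearMap.charpoly (restrictRep ρV U hU g) := by
  rw [← LinearMap.charpoly_baseChange, ← LinearEquiv.charpoly_conj (latEquiv hι U)]
  congr 1
  ext u
  obtain ⟨x, rfl⟩ := (latEquiv hι U).surjective u
  rw [LinearEquiv.conj_apply_apply, LinearEquiv.symm_apply_apply, latEquiv_baseChange]

/-- descent of an integral characteristic polynomial from `U` to the lattice. -/
theorem charpoly_rhoLat_eq (hι : IsBaseChange K ι) (hρ : ∀ g t, ρV g (ι t) = ι (ρ g t))
    {U : Submodule K V} (hU : ∀ g, ∀ x ∈ U, ρV g x ∈ U) (g : G) (P : 𝒪[X])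
    (h : LinearMap.charpoly (restrictRep ρV U hU g) = P.map (algebraMap 𝒪 K)) :
    LinearMap.charpoly (rhoLat hρ hU g) = P :=
  Polynomial.map_injective _ (IsFractionRing.injective 𝒪 K) (by rw [charpoly_rhoLat hι, h])

end action

end general

/-! ### The glue for a plane inside a stable subspace `W ≤ V` -/

section nested

variable {K : Type*} [Field K] {G : Type*} [Group G]
variable {V : Type*} [AddCommGroup V] [Module K V]
variable {ρV : G →* Module.End K V}

/-- a subspace of a stable subspace `W`, stable for the restricted action, is stable in `V`. -/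
theorem mapSubtype_stable {W : Submodule K V} (hW : ∀ g, ∀ x ∈ W, ρV g x ∈ W)
    {U : Submodule K W} (hU : ∀ g, ∀ x ∈ U, restrictRep ρV W hW g x ∈ U) :
    ∀ g, ∀ x ∈ U.map W.subtype, ρV g x ∈ U.map W.subtype := by
  rintro g _ ⟨x, hx, rfl⟩
  exact ⟨restrictRep ρV W hW g x, hU g x hx, rfl⟩

theorem finrank_mapSubtype (W : Submodule K V) (U : Submodule K W) :
    Module.finrank K (U.map W.subtype) = Module.finrank K U :=
  (Submodule.equivSubtypeMap W U).finrank_eq.symm

/-- the characteristic polynomials of the two restrictions agree. -/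
theorem charpoly_mapSubtype [FiniteDimensional K V] {W : Submodule K V}
    (hW : ∀ g, ∀ x ∈ W, ρV g x ∈ W)
    {U : Submodule K W} (hU : ∀ g, ∀ x ∈ U, restrictRep ρV W hW g x ∈ U) (g : G) :
    LinearMap.charpoly (restrictRep ρV (U.map W.subtype) (mapSubtype_stable hW hU) g) =
      LinearMap.charpoly (restrictRep (restrictRep ρV W hW) U hU g) := by
  rw [← LinearEquiv.charpoly_conj (Submodule.equivSubtypeMap W U)]
  congr 1

end nested

/-! ### The model `V = K ⊗ T` -/

section tensor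

variable {𝒪 : Type*} [CommRing 𝒪]
variable (K : Type*) [Field K] [Algebra 𝒪 K]
variable {T : Type*} [AddCommGroup T] [Module 𝒪 T]
variable {G : Type*} [Group G]

/-- the canonical map `T → K ⊗ T`. -/
def toK : T →ₗ[𝒪] K ⊗[𝒪] T := TensorProduct.mk 𝒪 K T 1

@[simp] theorem toK_apply (t : T) : toK K t = (1 : K) ⊗ₜ[𝒪] t := rfl

theorem isBaseChange_toK : IsBaseChange K (toK K : T →ₗ[𝒪] K ⊗[𝒪] T) :=
  TensorProduct.isBaseChange 𝒪 T K

/-- the action on `K ⊗ T`. -/
def rhoK (ρ : G →* Module.End 𝒪 T) : G →* Module.End K (K ⊗[𝒪] T) where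
  toFun g := (ρ g).baseChange K
  map_one' := by rw [map_one, LinearMap.baseChange_one]
  map_mul' g h := by rw [map_mul, LinearMap.baseChange_mul]

theorem rhoK_tmul (ρ : G →* Module.End 𝒪 T) (g : G) (c : K) (t : T) :
    rhoK K ρ g (c ⊗ₜ[𝒪] t) = c ⊗ₜ[𝒪] (ρ g t) := rfl

theorem rhoK_toK (ρ : G →* Module.End 𝒪 T) (g : G) (t : T) :
    rhoK K ρ g (toK K t) = toK K (ρ g t) := rfl

end tensor

/-! ### The adic Galois representation attached to a stable plane -/

section galois

local notation "GQ" => (AlgebraicClosure ℚ ≃ₐ[ℚ] AlgebraicClosure ℚ)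

variable {𝒪 : Type} [CommRing 𝒪] [IsDomain 𝒪] [IsPrincipalIdealRing 𝒪] [IsLocalRing 𝒪]
variable {K : Type*} [Field K] [Algebra 𝒪 K] [IsFractionRing 𝒪 K]
variable {T : Type} [AddCommGroup T] [Module 𝒪 T] [Module.Finite 𝒪 T] [Module.Free 𝒪 T]
variable {V : Type*} [AddCommGroup V] [Module K V] [Module 𝒪 V] [IsScalarTower 𝒪 K V]
variable {ι : T →ₗ[𝒪] V}
variable {ρ : GQ →* Module.End 𝒪 T} {ρV : GQ →* Module.End K V}

/-- adic continuity descends to the lattice. -/
theorem isAdicContinuous_rhoLat (hρ : ∀ g t, ρV g (ι t) = ι (ρ g t)) {U : Submodule K V}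
    (hU : ∀ g, ∀ x ∈ U, ρV g x ∈ U)
    (hc : GaloisActionIsAdicContinuous 𝒪 ρ) :
    GaloisActionIsAdicContinuous 𝒪 (rhoLat hρ hU) := by
  intro n
  obtain ⟨L, hL, h⟩ := hc n
  refine ⟨L, hL, fun σ hσ v => ?_⟩
  apply mem_smul_top_lat ι U
  have := h σ hσ (v : T)
  simpa using this

/-- **The adic Galois representation on the lattice of a stable plane.** -/
noncomputable def galoisRepAdicOfStable (hι : IsBaseChange K ι)
    (hρ : ∀ g t, ρV g (ι t) = ι (ρ g t)) {U : Submodule K V}
    (hU : ∀ g, ∀ x ∈ U, ρV g x ∈ U)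
    (hdim : Module.finrank K U = 2) (hc : GaloisActionIsAdicContinuous 𝒪 ρ) :
    GaloisRepAdic 𝒪 where
  V := lat ι U
  finrank_eq := by rw [finrank_lat hι, hdim]
  ρ := rhoLat hρ hU
  isAdicContinuous := isAdicContinuous_rhoLat hρ hU hc

theorem galoisRepAdicOfStable_charpoly [FiniteDimensional K V] (hι : IsBaseChange K ι)
    (hρ : ∀ g t, ρV g (ι t) = ι (ρ g t)) {U : Submodule K V}
    (hU : ∀ g, ∀ x ∈ U, ρV g x ∈ U)
    (hdim : Module.finrank K U = 2) (hc : GaloisActionIsAdicContinuous 𝒪 ρ) (σ : GQ) (P : 𝒪[X])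
    (h : LinearMap.charpoly (restrictRep ρV U hU σ) = P.map (algebraMap 𝒪 K)) :
    LinearMap.charpoly ((galoisRepAdicOfStable hι hρ hU hdim hc).ρ σ) = P :=
  charpoly_rhoLat_eq hι hρ hU σ P h

theorem galoisRepAdicOfStable_isUnramifiedAt (hι : IsBaseChange K ι)
    (hρ : ∀ g t, ρV g (ι t) = ι (ρ g t)) {U : Submodule K V}
    (hU : ∀ g, ∀ x ∈ U, ρV g x ∈ U)
    (hdim : Module.finrank K U = 2) (hc : GaloisActionIsAdicContinuous 𝒪 ρ) (q : ℕ)
    (h : ∀ P : ValuationSubring (AlgebraicClosure ℚ), P.LiesOverPrime q →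
      ∀ σ ∈ P.inertiaSubgroupIn ℚ, ρ σ = 1) :
    (galoisRepAdicOfStable hι hρ hU hdim hc).IsUnramifiedAt q := by
  intro P hP σ hσ
  exact rhoLat_eq_one hρ hU (h P hP σ hσ)

end galois

end Fermat.Agent.S30.Lattice
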