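import Mathlib
import Fermat.Prelude.Def_GaloisRep_Adic

/-!
# S30 (end of the chain): packaging a stable lattice as a `GaloisRepAdic`

`𝒪` any local ring.  From a free `𝒪`-module `Λ` of rank `1` or `2` with an adic-continuous
`𝒪`-linear action `ρ` of `G_ℚ` satisfying the quadratic relations
`ρ g + χ g • ρ g⁻¹ = t g • 1` (`χ` an adic-continuous character) we produce a
`GaloisRepAdic 𝒪` with `charpoly (R.ρ g) = X² - t g X + χ g` and `R.ρ g = 1` whenever `ρ g = 1` and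
`χ g = 1`.

* rank `2`: `Λ` itself (the characteristic polynomial is an input, computed over the fraction field);
* rank `1`: `ρ g = ψ g • 1` and the representation is `ψ ⊕ χ ψ⁻¹` on `𝒪²` (`diagRep`).
-/

set_option autoImplicit false

open Polynomial

namespace Fermat.Agent.S30.Package

/-- `Q̄` -/
abbrev Qb : Type := AlgebraicClosure ℚ

/-- `G_ℚ` -/
abbrev GQ : Type := Qb ≃ₐ[ℚ] Qb

variable {𝒪 : Type} [CommRing 𝒪] [IsLocalRing 𝒪]

/-! ### adic-continuous characters -/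

/-- a character `ψ : G_ℚ → 𝒪ˣ` is adic-continuous: for every `n` it is `≡ 1` modulo `𝔪 ^ n` on the
absolute Galois group of a number field. -/
def AdicContChar (ψ : GQ →* 𝒪ˣ) : Prop :=
  ∀ n : ℕ, ∃ L : IntermediateField ℚ Qb, FiniteDimensional ℚ L ∧
    ∀ σ : GQ, (∀ x ∈ L, σ x = x) →
      ((ψ σ : 𝒪ˣ) : 𝒪) - 1 ∈ IsLocalRing.maximalIdeal 𝒪 ^ n

theorem adicContChar_one : AdicContChar (1 : GQ →* 𝒪ˣ) := fun n =>
  ⟨⊥, inferInstance, fun σ _ => by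
    rw [MonoidHom.one_apply, Units.val_one, sub_self]; exact Ideal.zero_mem _⟩

theorem AdicContChar.mul {ψ ψ' : GQ →* 𝒪ˣ} (h : AdicContChar ψ) (h' : AdicContChar ψ') :
    AdicContChar (ψ * ψ') := by
  intro n
  obtain ⟨L, hL, h1⟩ := h n
  obtain ⟨L', hL', h2⟩ := h' n
  refine ⟨L ⊔ L', IntermediateField.finiteDimensional_sup L L', fun σ hσ => ?_⟩
  have e1 := h1 σ fun x hx => hσ x ((le_sup_left : L ≤ L ⊔ L') hx)
  have e2 := h2 σ fun x hx => hσ x ((le_sup_right : L' ≤ L ⊔ L') hx)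
  have : (((ψ * ψ') σ : 𝒪ˣ) : 𝒪) - 1
      = (((ψ σ : 𝒪ˣ) : 𝒪) - 1) * ((ψ' σ : 𝒪ˣ) : 𝒪) + (((ψ' σ : 𝒪ˣ) : 𝒪) - 1) := by
    rw [MonoidHom.mul_apply, Units.val_mul]; ring
  rw [this]
  exact Ideal.add_mem _ (Ideal.mul_mem_right _ _ e1) e2

theorem AdicContChar.inv {ψ : GQ →* 𝒪ˣ} (h : AdicContChar ψ) : AdicContChar ψ⁻¹ := by
  intro n
  obtain ⟨L, hL, h1⟩ := h n
  refine ⟨L, hL, fun σ hσ => ?_⟩
  have e1 := h1 σ hσ
  have : ((ψ⁻¹ σ : 𝒪ˣ) : 𝒪) - 1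
      = -(((ψ σ)⁻¹ : 𝒪ˣ) : 𝒪) * (((ψ σ : 𝒪ˣ) : 𝒪) - 1) := by
    rw [MonoidHom.inv_apply]
    have h2 : (((ψ σ)⁻¹ : 𝒪ˣ) : 𝒪) * ((ψ σ : 𝒪ˣ) : 𝒪) = 1 := by
      rw [← Units.val_mul, inv_mul_cancel, Units.val_one]
    linear_combination h2
  rw [this]
  exact Ideal.mul_mem_left _ _ e1

/-- value `1` where the character is trivial -/
theorem AdicContChar.div {ψ ψ' : GQ →* 𝒪ˣ} (h : AdicContChar ψ) (h' : AdicContChar ψ') :
    AdicContChar (ψ * ψ'⁻¹) := h.mul h'.inv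

/-! ### the diagonal representation `ψ₁ ⊕ ψ₂` on `𝒪²` -/

/-- the two diagonal entries as a monoid hom to `Fin 2 → 𝒪` -/
noncomputable def diagEntries (ψ₁ ψ₂ : GQ →* 𝒪ˣ) : GQ →* (Fin 2 → 𝒪) :=
  MonoidHom.pi ![(Units.coeHom 𝒪).comp ψ₁, (Units.coeHom 𝒪).comp ψ₂]

theorem diagEntries_zero (ψ₁ ψ₂ : GQ →* 𝒪ˣ) (g : GQ) :
    diagEntries ψ₁ ψ₂ g 0 = ((ψ₁ g : 𝒪ˣ) : 𝒪) := rfl

theorem diagEntries_one (ψ₁ ψ₂ : GQ →* 𝒪ˣ) (g : GQ) :
    diagEntries ψ₁ ψ₂ g 1 = ((ψ₂ g : 𝒪ˣ) : 𝒪) := rfl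

/-- the representation `ψ₁ ⊕ ψ₂` on `Fin 2 → 𝒪` -/
noncomputable def diagRep (ψ₁ ψ₂ : GQ →* 𝒪ˣ) : GQ →* Module.End 𝒪 (Fin 2 → 𝒪) :=
  ((Matrix.toLinAlgEquiv' : Matrix (Fin 2) (Fin 2) 𝒪 ≃ₐ[𝒪] Module.End 𝒪 (Fin 2 → 𝒪)) :
      Matrix (Fin 2) (Fin 2) 𝒪 →* Module.End 𝒪 (Fin 2 → 𝒪)).comp
    (((Matrix.diagonalRingHom (Fin 2) 𝒪 : (Fin 2 → 𝒪) →+* Matrix (Fin 2) (Fin 2) 𝒪) :
      (Fin 2 → 𝒪) →* Matrix (Fin 2) (Fin 2) 𝒪).comp (diagEntries ψ₁ ψ₂))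

theorem diagRep_eq (ψ₁ ψ₂ : GQ →* 𝒪ˣ) (g : GQ) :
    diagRep ψ₁ ψ₂ g = Matrix.toLin' (Matrix.diagonal (diagEntries ψ₁ ψ₂ g)) := rfl

theorem diagRep_apply (ψ₁ ψ₂ : GQ →* 𝒪ˣ) (g : GQ) (v : Fin 2 → 𝒪) (i : Fin 2) :
    diagRep ψ₁ ψ₂ g v i = diagEntries ψ₁ ψ₂ g i * v i := by
  rw [diagRep_eq, Matrix.toLin'_apply, Matrix.mulVec_diagonal]

theorem charpoly_diagRep (ψ₁ ψ₂ : GQ →* 𝒪ˣ) (g : GQ) :
    LinearMap.charpoly (diagRep ψ₁ ψ₂ g)
      = X ^ 2 - C (((ψ₁ g : 𝒪ˣ) : 𝒪) + ((ψ₂ g : 𝒪ˣ) : 𝒪)) * X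
        + C (((ψ₁ g : 𝒪ˣ) : 𝒪) * ((ψ₂ g : 𝒪ˣ) : 𝒪)) := by
  rw [diagRep_eq, Matrix.charpoly_toLin', Matrix.charpoly_fin_two, Matrix.trace_fin_two,
    Matrix.det_fin_two]
  simp only [Matrix.diagonal_apply_eq, Matrix.diagonal_apply_ne _ (by decide : (0 : Fin 2) ≠ 1),
    Matrix.diagonal_apply_ne _ (by decide : (1 : Fin 2) ≠ 0), mul_zero, sub_zero,
    diagEntries_zero, diagEntries_one]

theorem diagRep_eq_one (ψ₁ ψ₂ : GQ →* 𝒪ˣ) (g : GQ) (h1 : ψ₁ g = 1) (h2 : ψ₂ g = 1) :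
    diagRep ψ₁ ψ₂ g = 1 := by
  refine LinearMap.ext fun v => funext fun i => ?_
  rw [diagRep_apply, Module.End.one_apply]
  fin_cases i
  · show diagEntries ψ₁ ψ₂ g 0 * v 0 = v 0
    rw [diagEntries_zero, h1, Units.val_one, one_mul]
  · show diagEntries ψ₁ ψ₂ g 1 * v 1 = v 1
    rw [diagEntries_one, h2, Units.val_one, one_mul]

/-- a vector all of whose coordinates lie in `I` lies in `I • ⊤` -/
theorem mem_smul_top_of_forall_mem (I : Ideal 𝒪) (w : Fin 2 → 𝒪) (h : ∀ i, w i ∈ I) :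
    w ∈ I • (⊤ : Submodule 𝒪 (Fin 2 → 𝒪)) := by
  have hw : w = ∑ i : Fin 2, w i • (Pi.single i (1 : 𝒪) : Fin 2 → 𝒪) := by
    funext j
    rw [Finset.sum_apply]
    simp only [Pi.smul_apply, smul_eq_mul, Pi.single_apply, mul_ite, mul_one, mul_zero]
    rw [Finset.sum_ite_eq]
    simp
  rw [hw]
  exact Submodule.sum_mem _ fun i _ => Submodule.smul_mem_smul (h i) Submodule.mem_top

theorem isAdicContinuous_diagRep {ψ₁ ψ₂ : GQ →* 𝒪ˣ} (h1 : AdicContChar ψ₁)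
    (h2 : AdicContChar ψ₂) : GaloisActionIsAdicContinuous 𝒪 (diagRep ψ₁ ψ₂) := by
  intro n
  obtain ⟨L, hL, e1⟩ := h1 n
  obtain ⟨L', hL', e2⟩ := h2 n
  refine ⟨L ⊔ L', IntermediateField.finiteDimensional_sup L L', fun σ hσ v => ?_⟩
  have a1 := e1 σ fun x hx => hσ x ((le_sup_left : L ≤ L ⊔ L') hx)
  have a2 := e2 σ fun x hx => hσ x ((le_sup_right : L' ≤ L ⊔ L') hx)
  apply mem_smul_top_of_forall_mem
  intro i
  rw [Pi.sub_apply, diagRep_apply]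
  have : diagEntries ψ₁ ψ₂ σ i * v i - v i = (diagEntries ψ₁ ψ₂ σ i - 1) * v i := by ring
  rw [this]
  apply Ideal.mul_mem_right
  fin_cases i
  · exact a1
  · exact a2

/-! ### rank one -/

section rankOne

variable {Λ : Type} [AddCommGroup Λ] [Module 𝒪 Λ] [Module.Free 𝒪 Λ] [Module.Finite 𝒪 Λ]

/-- an endomorphism of a free module of rank one is the multiplication by its determinant -/
theorem eq_det_smul_of_finrank_one (h1 : Module.finrank 𝒪 Λ = 1) (f : Module.End 𝒪 Λ) :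
    f = LinearMap.det f • (1 : Module.End 𝒪 Λ) := by
  let b : Module.Basis (Fin 1) 𝒪 Λ := Module.finBasisOfFinrankEq 𝒪 Λ h1
  have hf : f = (b.repr (f (b 0)) 0) • (1 : Module.End 𝒪 Λ) := by
    apply b.ext
    intro i
    have hi : i = 0 := Subsingleton.elim _ _
    subst hi
    rw [LinearMap.smul_apply, Module.End.one_apply]
    conv_lhs => rw [← b.sum_repr (f (b 0))]
    rw [Fin.sum_univ_one]
  have hdet : LinearMap.det f = b.repr (f (b 0)) 0 := by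
    conv_lhs => rw [hf]
    rw [LinearMap.det_smul, h1, pow_one, map_one, mul_one]
  rw [hdet]
  exact hf

variable (ρ : GQ →* Module.End 𝒪 Λ)

/-- the character by which `G_ℚ` acts on a rank-one lattice -/
noncomputable def charOfRankOne : GQ →* 𝒪ˣ := (LinearMap.det.comp ρ).toHomUnits

theorem charOfRankOne_val (g : GQ) :
    ((charOfRankOne ρ g : 𝒪ˣ) : 𝒪) = LinearMap.det (ρ g) := rfl

theorem apply_eq_charOfRankOne_smul (h1 : Module.finrank 𝒪 Λ = 1) (g : GQ) :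
    ρ g = ((charOfRankOne ρ g : 𝒪ˣ) : 𝒪) • (1 : Module.End 𝒪 Λ) := by
  rw [charOfRankOne_val]
  exact eq_det_smul_of_finrank_one h1 (ρ g)

theorem charOfRankOne_eq_one (g : GQ) (hg : ρ g = 1) : charOfRankOne ρ g = 1 := by
  apply Units.ext
  rw [charOfRankOne_val, hg, map_one, Units.val_one]

theorem adicContChar_charOfRankOne (h1 : Module.finrank 𝒪 Λ = 1)
    (hcont : GaloisActionIsAdicContinuous 𝒪 ρ) : AdicContChar (charOfRankOne ρ) := by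
  intro n
  obtain ⟨L, hL, h⟩ := hcont n
  refine ⟨L, hL, fun σ hσ => ?_⟩
  let b : Module.Basis (Fin 1) 𝒪 Λ := Module.finBasisOfFinrankEq 𝒪 Λ h1
  have h2 := h σ hσ (b 0)
  -- apply the coordinate functional
  have hcoord : ∀ x ∈ (IsLocalRing.maximalIdeal 𝒪 ^ n) • (⊤ : Submodule 𝒪 Λ),
      b.coord 0 x ∈ IsLocalRing.maximalIdeal 𝒪 ^ n := by
    intro x hx
    refine Submodule.smul_induction_on hx ?_ ?_
    · intro a ha w _
      rw [map_smul, smul_eq_mul]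
      exact Ideal.mul_mem_right _ _ ha
    · intro x y hx hy
      rw [map_add]
      exact Ideal.add_mem _ hx hy
  have h3 := hcoord _ h2
  rw [apply_eq_charOfRankOne_smul ρ h1 σ, LinearMap.smul_apply, Module.End.one_apply, map_sub,
    map_smul, Module.Basis.coord_apply, Module.Basis.repr_self, Finsupp.single_eq_same, smul_eq_mul,
    mul_one] at h3
  exact h3

end rankOne

/-! ### the two packaging theorems -/

/-- **rank two**: the lattice itself. -/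
theorem exists_galoisRepAdic_of_finrank_two {Λ : Type} [AddCommGroup Λ] [Module 𝒪 Λ]
    [Module.Free 𝒪 Λ] [Module.Finite 𝒪 Λ] (h2 : Module.finrank 𝒪 Λ = 2)
    (ρ : GQ →* Module.End 𝒪 Λ) (hcont : GaloisActionIsAdicContinuous 𝒪 ρ)
    (P : GQ → 𝒪[X]) (hcp : ∀ g, LinearMap.charpoly (ρ g) = P g) :
    ∃ R : GaloisRepAdic 𝒪, (∀ g, LinearMap.charpoly (R.ρ g) = P g) ∧
      ∀ g, ρ g = 1 → R.ρ g = 1 :=
  ⟨{ V := Λ, finrank_eq := h2, ρ := ρ, isAdicContinuous := hcont }, hcp, fun _ h => h⟩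

/-- **rank one**: `ψ ⊕ χ ψ⁻¹`. -/
theorem exists_galoisRepAdic_of_finrank_one {Λ : Type} [AddCommGroup Λ] [Module 𝒪 Λ]
    [Module.Free 𝒪 Λ] [Module.Finite 𝒪 Λ] (h1 : Module.finrank 𝒪 Λ = 1)
    (ρ : GQ →* Module.End 𝒪 Λ) (hcont : GaloisActionIsAdicContinuous 𝒪 ρ)
    (χ : GQ →* 𝒪ˣ) (hχ : AdicContChar χ) (t : GQ → 𝒪)
    (hrel : ∀ g, ρ g + ((χ g : 𝒪ˣ) : 𝒪) • ρ g⁻¹ = t g • (1 : Module.End 𝒪 Λ)) :
    ∃ R : GaloisRepAdic 𝒪,
      (∀ g, LinearMap.charpoly (R.ρ g) = X ^ 2 - C (t g) * X + C ((χ g : 𝒪ˣ) : 𝒪)) ∧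
      ∀ g, ρ g = 1 → χ g = 1 → R.ρ g = 1 := by
  have : Nontrivial Λ := Module.nontrivial_of_finrank_eq_succ h1
  set ψ := charOfRankOne ρ with hψ
  have hψc : AdicContChar ψ := adicContChar_charOfRankOne ρ h1 hcont
  -- the relation in terms of `ψ`
  have hsum : ∀ g, ((ψ g : 𝒪ˣ) : 𝒪) + ((χ g : 𝒪ˣ) : 𝒪) * (((ψ g)⁻¹ : 𝒪ˣ) : 𝒪) = t g := by
    intro g
    have h := hrel g
    rw [apply_eq_charOfRankOne_smul ρ h1 g, apply_eq_charOfRankOne_smul ρ h1 g⁻¹, smul_smul,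
      ← add_smul, ← hψ, map_inv] at h
    -- `(a) • 1 = (t g) • 1` on a free module of rank one
    let b : Module.Basis (Fin 1) 𝒪 Λ := Module.finBasisOfFinrankEq 𝒪 Λ h1
    have h' := congrArg (fun f : Module.End 𝒪 Λ => b.coord 0 (f (b 0))) h
    simp only [LinearMap.smul_apply, Module.End.one_apply, map_smul, Module.Basis.coord_apply,
      Module.Basis.repr_self, Finsupp.single_eq_same, smul_eq_mul, mul_one] at h'
    exact h'
  refine ⟨{ V := Fin 2 → 𝒪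
            finrank_eq := by rw [Module.finrank_pi, Fintype.card_fin]
            ρ := diagRep ψ (χ * ψ⁻¹)
            isAdicContinuous := isAdicContinuous_diagRep hψc (hχ.mul hψc.inv) }, ?_, ?_⟩
  · intro g
    show LinearMap.charpoly (diagRep ψ (χ * ψ⁻¹) g) = _
    rw [charpoly_diagRep, MonoidHom.mul_apply, MonoidHom.inv_apply, Units.val_mul, hsum g]
    have : ((ψ g : 𝒪ˣ) : 𝒪) * (((χ g : 𝒪ˣ) : 𝒪) * (((ψ g)⁻¹ : 𝒪ˣ) : 𝒪)) = ((χ g : 𝒪ˣ) : 𝒪) := by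
      have h2 : ((ψ g : 𝒪ˣ) : 𝒪) * (((ψ g)⁻¹ : 𝒪ˣ) : 𝒪) = 1 := by
        rw [← Units.val_mul, mul_inv_cancel, Units.val_one]
      linear_combination ((χ g : 𝒪ˣ) : 𝒪) * h2
    rw [this]
  · intro g hg hχg
    show diagRep ψ (χ * ψ⁻¹) g = 1
    have hψg : ψ g = 1 := charOfRankOne_eq_one ρ g hg
    apply diagRep_eq_one _ _ g hψg
    rw [MonoidHom.mul_apply, MonoidHom.inv_apply, hχg, hψg, inv_one, mul_one]

/-- uniqueness of `t` at an element: if `u` is invertible on a nonzero module and satisfies two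
quadratic relations with the same constant term, the linear coefficients agree. -/
theorem t_unique {Λ : Type} [AddCommGroup Λ] [Module 𝒪 Λ] [Module.Free 𝒪 Λ]
    [Module.Finite 𝒪 Λ] [Nontrivial Λ] (u : Module.End 𝒪 Λ) (hu : IsUnit u) (a a' c : 𝒪)
    (h : u * u - a • u + c • (1 : Module.End 𝒪 Λ) = 0)
    (h' : u * u - a' • u + c • (1 : Module.End 𝒪 Λ) = 0) : a = a' := by
  have h1 : (a - a') • u = 0 := by
    rw [sub_smul]
    have := sub_eq_zero.mpr (h'.trans h.symm)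
    -- (u*u - a' u + c) - (u*u - a u + c) = (a - a') u
    have e : (u * u - a' • u + c • (1 : Module.End 𝒪 Λ)) - (u * u - a • u + c • 1)
        = a • u - a' • u := by abel
    rw [← e]
    exact this
  obtain ⟨v, hv⟩ := hu
  have h2 : (a - a') • (1 : Module.End 𝒪 Λ) = 0 := by
    have := congrArg (fun f : Module.End 𝒪 Λ => f * (v⁻¹ : (Module.End 𝒪 Λ)ˣ)) h1
    simp only [zero_mul, smul_mul_assoc] at this
    rw [← hv, Units.mul_inv] at this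
    exact this
  -- evaluate on a basis vector
  let b := Module.Free.chooseBasis 𝒪 Λ
  obtain ⟨i⟩ : Nonempty (Module.Free.ChooseBasisIndex 𝒪 Λ) := by
    by_contra hne
    rw [not_nonempty_iff] at hne
    have : Subsingleton Λ := b.repr.toEquiv.subsingleton
    exact not_subsingleton Λ this
  have h3 := congrArg (fun f : Module.End 𝒪 Λ => b.coord i (f (b i))) h2
  simp only [LinearMap.smul_apply, Module.End.one_apply, map_smul, Module.Basis.coord_apply,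
    Module.Basis.repr_self, Finsupp.single_eq_same, smul_eq_mul, mul_one, LinearMap.zero_apply,
    map_zero] at h3
  exact sub_eq_zero.mp h3

end Fermat.Agent.S30.Package
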