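import Mathlib
import Fermat.Prelude.Def_GaloisRep_Adic
import Fermat.Prelude.Def_GaloisRep_ComplexConjugation
import Fermat.Agent.S30.QuadOdd
import Fermat.Agent.S30.FracGlue
import Fermat.Agent.S30.Lattice
import Fermat.Agent.S30.Package
import Fermat.Agent.S30.Skeleton

set_option autoImplicit false
set_option linter.unusedSectionVars false
set_option linter.style.haveILetI false

/-!
# S30, tail junction: block (QL) of `S30/Skeleton.lean`

`𝒪` a discrete valuation ring of characteristic zero, `E` a finite free nonzero `𝒪`-module of ANY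
rank with an adic-continuous action `ρ` of `G_ℚ`, `χ : G_ℚ →* 𝒪ˣ` an adic-continuous character,
`t : G_ℚ → 𝒪` with `ρ g + χ g • ρ g⁻¹ = t g • 1` for ALL `g`, and an odd involution `c`
(`c * c = 1`, `χ c = -1`).  Then there is a `GaloisRepAdic 𝒪` (free of rank two over `𝒪` itself)
with `charpoly (R.ρ g) = X² - t g X + χ g` for all `g`, trivial wherever `ρ` and `χ` are.

Proof: base change to `K = Frac 𝒪` (`FracGlue`), the two-dimensional piece `U` of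
`QuadOdd.exists_stable_one_or_two` (no Wedderburn, no quaternion case thanks to the odd involution),
the lattice `lat U = E ∩ U` of `Lattice` and, in the rank-one case, `ψ ⊕ χ ψ⁻¹` of `Package`.
-/

noncomputable section

namespace Fermat.Agent.S30.FinalOf

open Polynomial
open Fermat.Agent.S29.Alg Fermat.Agent.S30.FracGlue Fermat.Agent.S30.Lattice
open Fermat.Agent.S30.Package

local notation "Qb" => AlgebraicClosure ℚ
local notation "GQ" => (AlgebraicClosure ℚ ≃ₐ[ℚ] AlgebraicClosure ℚ)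

/-- **Tail junction.** -/
theorem exists_galoisRepAdic_of_odd {𝒪 : Type} [CommRing 𝒪] [IsDomain 𝒪]
    [IsDiscreteValuationRing 𝒪] [CharZero 𝒪]
    (E : Type) [AddCommGroup E] [Module 𝒪 E] [Module.Free 𝒪 E] [Module.Finite 𝒪 E] [Nontrivial E]
    (ρ : GQ →* Module.End 𝒪 E) (hcont : GaloisActionIsAdicContinuous 𝒪 ρ)
    (χ : GQ →* 𝒪ˣ)
    (hχ : ∀ n : ℕ, ∃ L : IntermediateField ℚ Qb, FiniteDimensional ℚ L ∧
      ∀ σ : GQ, (∀ x ∈ L, σ x = x) →
        ((χ σ : 𝒪ˣ) : 𝒪) - 1 ∈ IsLocalRing.maximalIdeal 𝒪 ^ n)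
    (t : GQ → 𝒪)
    (hrel : ∀ g : GQ, ρ g + ((χ g : 𝒪ˣ) : 𝒪) • ρ g⁻¹ = t g • (1 : Module.End 𝒪 E))
    (c : GQ) (hc : c * c = 1) (hχc : ((χ c : 𝒪ˣ) : 𝒪) = -1) :
    ∃ R : GaloisRepAdic 𝒪,
      (∀ g : GQ, LinearMap.charpoly (R.ρ g) = X ^ 2 - C (t g) * X + C ((χ g : 𝒪ˣ) : 𝒪)) ∧
      ∀ g : GQ, ρ g = 1 → χ g = 1 → R.ρ g = 1 := by
  haveI : Nontrivial (V 𝒪 E) := nontrivialV
  have h2 : (2 : K 𝒪) ≠ 0 := two_ne_zero
  have hχcK : ((chiK χ c : (K 𝒪)ˣ) : K 𝒪) = -1 := by rw [chiK_val, hχc, map_neg, map_one]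
  obtain ⟨U, hU, h | h⟩ := QuadOdd.exists_stable_one_or_two h2 (repK ρ) (chiK χ)
    (fun g => algebraMap 𝒪 (K 𝒪) (t g)) (repK_rel ρ χ t hrel) c hc hχcK
  · -- rank two
    obtain ⟨hdim, hcp⟩ := h
    have hι : IsBaseChange (K 𝒪) (toK (K 𝒪) : E →ₗ[𝒪] V 𝒪 E) := isBaseChange_toK (K 𝒪)
    have hρ : ∀ g x, repK ρ g (toK (K 𝒪) x) = toK (K 𝒪) (ρ g x) := fun g x => rfl
    refine ⟨galoisRepAdicOfStable hι hρ hU hdim hcont, fun g => ?_,
      fun g hg _ => rhoLat_eq_one hρ hU hg⟩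
    apply galoisRepAdicOfStable_charpoly
    rw [hcp g]
    simp
  · -- rank one
    obtain ⟨hdim, -⟩ := h
    have hι : IsBaseChange (K 𝒪) (toK (K 𝒪) : E →ₗ[𝒪] V 𝒪 E) := isBaseChange_toK (K 𝒪)
    have hρ : ∀ g x, repK ρ g (toK (K 𝒪) x) = toK (K 𝒪) (ρ g x) := fun g x => rfl
    have h1 : Module.finrank 𝒪 (lat (toK (K 𝒪) : E →ₗ[𝒪] V 𝒪 E) U) = 1 := by
      rw [finrank_lat hι U, hdim]
    have hrelΛ : ∀ g : GQ, rhoLat hρ hU g + ((χ g : 𝒪ˣ) : 𝒪) • rhoLat hρ hU g⁻¹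
        = t g • (1 : Module.End 𝒪 (lat (toK (K 𝒪) : E →ₗ[𝒪] V 𝒪 E) U)) := by
      intro g
      ext v
      have := congrArg (fun f : Module.End 𝒪 E => f (v : E)) (hrel g)
      simpa using this
    obtain ⟨R, hR1, hR2⟩ := exists_galoisRepAdic_of_finrank_one h1 (rhoLat hρ hU)
      (isAdicContinuous_rhoLat hρ hU hcont) χ hχ t hrelΛ
    exact ⟨R, hR1, fun g hg hχg => hR2 g (rhoLat_eq_one hρ hU hg) hχg⟩

section Block

open Fermat.Agent.S30.Skeleton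

variable (p : ℕ) [Fact p.Prime] (𝒪 : Type) [CommRing 𝒪] [IsDomain 𝒪]
  [IsDiscreteValuationRing 𝒪] [IsAdicComplete (IsLocalRing.maximalIdeal 𝒪) 𝒪]
  [Finite (IsLocalRing.ResidueField 𝒪)] [CharZero 𝒪]
  (hp : (p : 𝒪) ∈ IsLocalRing.maximalIdeal 𝒪)

/-- **Block (QL) of the S30 skeleton.** -/
theorem blockQL : BlockQL p 𝒪 hp := by
  intro E _ _ _ _ _ ρ hcont t hrel
  have hχc : ((chiO p 𝒪 hp complexConjugation : 𝒪ˣ) : 𝒪) = -1 := by
    rw [chiO_complexConjugation, Units.val_neg, Units.val_one]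
  exact exists_galoisRepAdic_of_odd E ρ hcont (chiO p 𝒪 hp) (chiO_level p 𝒪 hp) t hrel
    complexConjugation complexConjugation_mul_self hχc

end Block

end Fermat.Agent.S30.FinalOf

end
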