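import Mathlib

/-!
# S30 (block T, limit half): scalar modulo every power of the maximal ideal ⟹ scalar

`𝒪` a Noetherian local ring, complete for its maximal ideal `𝔪`; `E` a nontrivial finite free
`𝒪`-module.

* `functional_mem`, `mem_of_forall_smul_mem` : `c • x ∈ I • ⊤` for all `x` forces `c ∈ I`;
* `exists_scalar_of_forall_mod` : if for every `n` there is `a` with `f x - a • x ∈ 𝔪 ^ n • ⊤`
  for all `x`, then `f = t • 1` for some `t` (the `a_n` are Cauchy, `𝒪` is precomplete, `E` is
  separated by Krull's intersection theorem);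
* `scalar_unique` : `t • 1 = t' • 1 → t = t'`.
-/

set_option autoImplicit false
set_option linter.unusedSectionVars false

noncomputable section

namespace Fermat.Agent.S30.AdicLimit

open IsLocalRing

variable {𝒪 : Type*} [CommRing 𝒪]

/-- a linear functional maps `I • ⊤` into `I`. -/
theorem functional_mem {E : Type*} [AddCommGroup E] [Module 𝒪 E] (I : Ideal 𝒪)
    (φ : E →ₗ[𝒪] 𝒪) {x : E} (hx : x ∈ I • (⊤ : Submodule 𝒪 E)) : φ x ∈ I := by
  refine Submodule.smul_induction_on (p := fun y => φ y ∈ I) hx (fun r hr y _ => ?_)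
    (fun y z hy hz => ?_)
  · rw [map_smul, smul_eq_mul]
    exact I.mul_mem_right _ hr
  · rw [map_add]
    exact I.add_mem hy hz

/-- on a nontrivial free module, `c • x ∈ I • ⊤` for all `x` forces `c ∈ I`. -/
theorem mem_of_forall_smul_mem {E : Type*} [AddCommGroup E] [Module 𝒪 E] [Module.Free 𝒪 E]
    [Nontrivial E] (I : Ideal 𝒪) {c : 𝒪}
    (h : ∀ x : E, c • x ∈ I • (⊤ : Submodule 𝒪 E)) : c ∈ I := by
  let b := Module.Free.chooseBasis 𝒪 E
  obtain ⟨i⟩ : Nonempty (Module.Free.ChooseBasisIndex 𝒪 E) := b.index_nonempty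
  have h1 := functional_mem I (b.coord i) (h (b i))
  rw [map_smul, Module.Basis.coord_apply, Module.Basis.repr_self, Finsupp.single_eq_same,
    smul_eq_mul, mul_one] at h1
  exact h1

variable [IsLocalRing 𝒪] [IsNoetherianRing 𝒪] [IsAdicComplete (maximalIdeal 𝒪) 𝒪]
variable {E : Type*} [AddCommGroup E] [Module 𝒪 E] [Module.Free 𝒪 E] [Module.Finite 𝒪 E]
  [Nontrivial E]

/-- **the limit half of the adic transfer**: an endomorphism of a nontrivial finite free module
over a complete Noetherian local ring which is a scalar modulo `𝔪 ^ n` for every `n` is a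
scalar. -/
theorem exists_scalar_of_forall_mod (f : Module.End 𝒪 E)
    (h : ∀ n : ℕ, ∃ a : 𝒪, ∀ x : E,
      f x - a • x ∈ (maximalIdeal 𝒪 ^ n) • (⊤ : Submodule 𝒪 E)) :
    ∃ t : 𝒪, f = t • (1 : Module.End 𝒪 E) := by
  choose a ha using h
  have hmono : ∀ {m n : ℕ}, m ≤ n → ∀ x : E,
      f x - a n • x ∈ (maximalIdeal 𝒪 ^ m) • (⊤ : Submodule 𝒪 E) := by
    intro m n hmn x
    exact Submodule.smul_mono_left (Ideal.pow_le_pow_right hmn) (ha n x)
  have hcauchy : ∀ {m n : ℕ}, m ≤ n → a m - a n ∈ maximalIdeal 𝒪 ^ m := by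
    intro m n hmn
    apply mem_of_forall_smul_mem (E := E)
    intro x
    have h1 := ha m x
    have h2 := hmono hmn x
    have : (a m - a n) • x = (f x - a n • x) - (f x - a m • x) := by
      rw [sub_smul]; abel
    rw [this]
    exact Submodule.sub_mem _ h2 h1
  obtain ⟨t, ht⟩ := IsPrecomplete.prec (IsAdicComplete.toIsPrecomplete
    (I := maximalIdeal 𝒪) (M := 𝒪)) (f := a) (by
      intro m n hmn
      rw [SModEq.sub_mem, smul_eq_mul, Ideal.mul_top]
      exact hcauchy hmn)
  refine ⟨t, ?_⟩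
  have hne : maximalIdeal 𝒪 ≠ ⊤ := Ideal.IsPrime.ne_top'
  have hK := Ideal.iInf_pow_smul_eq_bot_of_isLocalRing (M := E) (maximalIdeal 𝒪) hne
  ext x
  rw [LinearMap.smul_apply, Module.End.one_apply, ← sub_eq_zero]
  have hx : f x - t • x ∈ (⨅ i : ℕ, maximalIdeal 𝒪 ^ i • (⊤ : Submodule 𝒪 E)) := by
    rw [Submodule.mem_iInf]
    intro n
    have h1 := ha n x
    have h2 : a n - t ∈ maximalIdeal 𝒪 ^ n := by
      have := ht n
      rw [SModEq.sub_mem, smul_eq_mul, Ideal.mul_top] at this
      exact this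
    have : f x - t • x = (f x - a n • x) + (a n - t) • x := by
      rw [sub_smul]; abel
    rw [this]
    exact Submodule.add_mem _ h1 (Submodule.smul_mem_smul h2 Submodule.mem_top)
  rw [hK] at hx
  exact hx

/-- uniqueness of the scalar. -/
theorem scalar_unique {t t' : 𝒪} (h : t • (1 : Module.End 𝒪 E) = t' • (1 : Module.End 𝒪 E)) :
    t = t' := by
  have h0 : t - t' ∈ (⊥ : Ideal 𝒪) := by
    apply mem_of_forall_smul_mem (E := E)
    intro x
    have := congrArg (fun g : Module.End 𝒪 E => g x) h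
    simp only [LinearMap.smul_apply, Module.End.one_apply] at this
    rw [sub_smul, this, sub_self]
    exact Submodule.zero_mem _
  exact sub_eq_zero.1 h0

end Fermat.Agent.S30.AdicLimit

end
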