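import Mathlib
import Fermat.Agent.S30.KappaC
import Fermat.Agent.S30.KappaBar
import Fermat.Agent.S30.LimitMap

/-!
# S30 (block B): the compatible system of Kummer class maps into `J₀(N)(ℚ̄)` and its limit

Junction `KappaC` (class maps over `ℂ`, all levels `p^k`) ∘ `KappaBar` (descent to `ℚ̄`) ∘
`LimitMap` (limit into the Tate module):

* `kappaJ N p k : XMod N (ZMod (p^k)) (ZMod (p^k)) →+ JZero N`, injective, `p^k`-torsion valued,
  `kappaJ_hecke` (w.r.t. `heckeOperatorBar N ℓ`), `kappaJ_castX`;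
* `systemJ N p : LimitMap.System N p (JZero N)`;
* `eJ N p : XMod N ℤ_[p] ℤ_[p] →ₗ[ℤ_[p]] tate (JZero N) p`, `eJ_injective`,
  `eJ_heckeX : eJ (heckeX ψ) = TateModule.map (heckeOperatorBar N ℓ) (eJ ψ)`.
-/

set_option autoImplicit false
set_option linter.unusedSectionVars false
set_option linter.style.haveILetI false

noncomputable section

namespace Fermat.Agent.S30.SystemJ

open AlgebraicCurve ModularCurve CongruenceSubgroup
open Fermat.Agent.S29.HeckeInputsL (FL)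
open Fermat.Agent.S29.Betti Fermat.Agent.S30.KappaC Fermat.Agent.S30.KappaBar
open Fermat.Agent.S30.TateModule
open scoped MatrixGroups

variable (N : ℕ) [NeZero N] (p : ℕ) [hp : Fact p.Prime]

/-- **the Kummer class map of level `p^k`** with values in `J₀(N)(ℚ̄)`. -/
def kappaJ (k : ℕ) : XMod N (ZMod (p ^ k)) (ZMod (p ^ k)) →+ JZero N :=
  kappaBar (pow_pos hp.out.pos k) (kappaC N p k) (kappaC_tors N p k)

theorem bcQC_kappaJ (k : ℕ) (u : XMod N (ZMod (p ^ k)) (ZMod (p ^ k))) :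
    bcQC N (kappaJ N p k u) = kappaC N p k u :=
  bcQC_kappaBar _ _ _ u

theorem kappaJ_injective (k : ℕ) : Function.Injective (kappaJ N p k) :=
  kappaBar_injective _ _ _ (kappaC_injective N p k)

theorem kappaJ_tors (k : ℕ) (u : XMod N (ZMod (p ^ k)) (ZMod (p ^ k))) :
    p ^ k • kappaJ N p k u = 0 :=
  kappaBar_torsion _ _ _ u

/-- Hecke equivariance. -/
theorem kappaJ_hecke (k : ℕ) (ℓ : Nat.Primes) (hℓN : ¬ (ℓ : ℕ) ∣ N)
    (u : XMod N (ZMod (p ^ k)) (ZMod (p ^ k))) :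
    haveI : Fact (ℓ : ℕ).Prime := ⟨ℓ.2⟩
    kappaJ N p k (heckeX hℓN (ZMod (p ^ k)) (ZMod (p ^ k)) u) =
      heckeOperatorBar N ℓ (kappaJ N p k u) := by
  haveI : Fact (ℓ : ℕ).Prime := ⟨ℓ.2⟩
  exact kappaBar_hecke (pow_pos hp.out.pos k) (kappaC N p k) (kappaC_tors N p k) ℓ
    (fun v => heckeX hℓN (ZMod (p ^ k)) (ZMod (p ^ k)) v)
    (fun v => kappaC_hecke N p k ℓ hℓN v) u

/-- level compatibility (in the spelling of `LimitMap.castX`). -/
theorem kappaJ_castX (k : ℕ) (u : XMod N (ZMod (p ^ (k + 1))) (ZMod (p ^ (k + 1)))) :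
    kappaJ N p k (LimitMap.castX p k u) = p • kappaJ N p (k + 1) u :=
  kappaBar_compat (pow_pos hp.out.pos k) (pow_pos hp.out.pos (k + 1)) (kappaC N p k)
    (kappaC_tors N p k) (kappaC N p (k + 1)) (kappaC_tors N p (k + 1))
    (fun v => LimitMap.castX p k v) p
    (fun v => kappaC_compat N p k v (LimitMap.castX p k v)
      (fun γ => LimitMap.castX_apply p k v γ)) u

/-- **the compatible system of class maps into `J₀(N)(ℚ̄)`.** -/
def systemJ : LimitMap.System N p (JZero N) where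
  κ := kappaJ N p
  inj := kappaJ_injective N p
  compat := kappaJ_castX N p

/-- **the limit map** `X N ℤ_p → T_p J₀(N)`. -/
def eJ : XMod N ℤ_[p] ℤ_[p] →ₗ[ℤ_[p]] tate (JZero N) p := LimitMap.e (systemJ N p)

theorem eJ_apply (ψ : XMod N ℤ_[p] ℤ_[p]) (k : ℕ) :
    (eJ N p ψ : ℕ → JZero N) k = kappaJ N p k (LimitMap.redX p k ψ) := rfl

theorem eJ_injective : Function.Injective (eJ N p) := LimitMap.e_injective (systemJ N p)

/-- **Hecke equivariance of the limit map.** -/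
theorem eJ_heckeX (ℓ : Nat.Primes) (hℓN : ¬ (ℓ : ℕ) ∣ N) (ψ : XMod N ℤ_[p] ℤ_[p]) :
    haveI : Fact (ℓ : ℕ).Prime := ⟨ℓ.2⟩
    eJ N p (heckeX hℓN ℤ_[p] ℤ_[p] ψ) =
      TateModule.map (heckeOperatorBar N ℓ).toAddMonoidHom (eJ N p ψ) := by
  haveI : Fact (ℓ : ℕ).Prime := ⟨ℓ.2⟩
  exact LimitMap.e_heckeX (systemJ N p) hℓN (heckeOperatorBar N ℓ).toAddMonoidHom
    (fun k u => kappaJ_hecke N p k ℓ hℓN u) ψ

end Fermat.Agent.S30.SystemJ

end
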