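import Mathlib
import Fermat.Agent.S30.Skeleton
import Fermat.Agent.S30.TateJ
import Fermat.Agent.S30.ChiTate
import Fermat.Agent.S30.EigenSub
import Fermat.Agent.S30.SystemJ

/-!
# S30, block (M) from a compatible system of class maps

`blockM_of` : for a compatible injective system `Sy : LimitMap.System N p (JZero N)` of class maps
`κ_k : X(ℤ/p^k) → J₀(N)(ℚ̄)` which is Hecke-equivariant for `heckeOperatorBar`, the common
`χ`-eigen-submodule `E` of `𝒪 ⊗[ℤ_p] T_p J₀(N)` is a nonzero finite free `𝒪`-module with an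
adic-continuous Galois action, the Eichler–Shimura relation with `χ(T_ℓ)` at Frobenius lifts for
`ℓ ∉ S`, and trivial inertia at `q ∤ N p`: this is `Skeleton.BlockM p 𝒪 N S χ`.

Junction of `TateJ` (concrete Tate module), `ChiTate` (`χ` occurs), `EigenSub` (eigen-submodule)
and `PadicAlg` (`ℤ_p → 𝒪`).
-/

set_option autoImplicit false
set_option maxSynthPendingDepth 2
set_option linter.style.haveILetI false
set_option linter.unusedSectionVars false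

open Polynomial CuspForm
open scoped TensorProduct

noncomputable section

namespace Fermat.Agent.S30.BlockMOf

open Fermat.Agent.S29.Cyclo.ModPChar (Qb GQ)
open Fermat.Agent.S29.Betti
open Fermat.Agent.S30 Fermat.Agent.S30.TateJ Fermat.Agent.S30.TateModule
open Fermat.Agent.S30.TorsionLevel
open ModularCurve

variable {p : ℕ} [hpP : Fact p.Prime] {𝒪 : Type} [CommRing 𝒪] [IsDomain 𝒪]
  [IsDiscreteValuationRing 𝒪] [IsAdicComplete (IsLocalRing.maximalIdeal 𝒪) 𝒪]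
  [Finite (IsLocalRing.ResidueField 𝒪)] [CharZero 𝒪]
  {N : ℕ} [NeZero N] {S : Finset ℕ}

/-- a prime `ℓ ∤ N` different from `p` does not divide `N * p` -/
theorem not_dvd_mul {ℓ : ℕ} (hℓ : ℓ.Prime) (hℓN : ¬ ℓ ∣ N) (hℓp : ℓ ≠ p) : ¬ ℓ ∣ N * p := by
  intro h
  rcases (Nat.Prime.dvd_mul hℓ).1 h with h1 | h1
  · exact hℓN h1
  · exact hℓp ((Nat.prime_dvd_prime_iff_eq hℓ hpP.out).1 h1)

/-- the index type of the eigen-system: primes `ℓ ∤ N`, `ℓ ∉ S` -/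
abbrev Idx (N : ℕ) (S : Finset ℕ) : Type := {ℓ : ℕ // ℓ.Prime ∧ ¬ ℓ ∣ N ∧ ℓ ∉ (↑S : Set ℕ)}

/-- the Hecke operators on the Tate module indexed by `Idx N S` -/
def Tl (N : ℕ) [NeZero N] (p : ℕ) [Fact p.Prime] (S : Finset ℕ) (i : Idx N S) :
    Module.End ℤ_[p] (TpJ N p) :=
  heckeT N p ⟨i.1, i.2.1⟩

/-- the eigenvalues -/
def bχ (χ : CuspForm.heckeAlgebra N 2 (↑S : Set ℕ) →+* 𝒪) (i : Idx N S) : 𝒪 :=
  χ (CuspForm.heckeAlgebra.T i.2.1 i.2.2.1 i.2.2.2)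

theorem hcommT (g : GQ) (i : Idx N S) :
    rhoT N p g * Tl N p S i = Tl N p S i * rhoT N p g :=
  rhoT_mul_heckeT N p g ⟨i.1, i.2.1⟩

set_option maxHeartbeats 2000000 in
/-- Block (M) for an arbitrary `ℤ_[p]`-algebra structure on `𝒪` (torsion-free, flat). -/
theorem blockM_of_algebra [Algebra ℤ_[p] 𝒪] [Module.IsTorsionFree ℤ_[p] 𝒪]
    [Module.Flat ℤ_[p] 𝒪]
    (hp : (p : 𝒪) ∈ IsLocalRing.maximalIdeal 𝒪) (hpS : p ∈ S)
    (χ : CuspForm.heckeAlgebra N 2 (↑S : Set ℕ) →+* 𝒪)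
    (Sy : LimitMap.System N p (JZero N))
    (hSy : ∀ (ℓ : ℕ) [Fact ℓ.Prime] (hℓ : ℓ.Prime) (hℓN : ¬ ℓ ∣ N) (k : ℕ)
      (u : XMod N (ZMod (p ^ k)) (ZMod (p ^ k))),
      Sy.κ k (heckeX hℓN (ZMod (p ^ k)) (ZMod (p ^ k)) u)
        = heckeOperatorBar N ⟨ℓ, hℓ⟩ (Sy.κ k u)) :
    Skeleton.BlockM p 𝒪 N S χ := by
  haveI : Module.Free ℤ_[p] (TpJ N p) := free_TpJ N p
  haveI : Module.Finite ℤ_[p] (TpJ N p) := finite_TpJ N p
  haveI : Module.IsTorsionFree 𝒪 (𝒪 ⊗[ℤ_[p]] TpJ N p) := EigenSub.isTorsionFree_baseChange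
  -- `χ` occurs
  obtain ⟨v, hv0, hv⟩ := ChiTate.exists_eigen_tate_of_chi N Sy (↑S : Set ℕ) χ
    (fun ℓ hℓ _ => heckeAdd N ⟨ℓ, hℓ⟩)
    (fun ℓ _ hℓ hℓN k u => hSy ℓ hℓ hℓN k u)
  haveI hnt : Nontrivial (EigenSub.eigenSub (O := 𝒪) (Tl N p S) (bχ χ)) :=
    EigenSub.nontrivial_eigenSub (Tl N p S) (bχ χ)
      ⟨v, hv0, fun i => hv i.1 i.2.1 i.2.2.1 i.2.2.2⟩
  have hπ : algebraMap ℤ_[p] 𝒪 (p : ℤ_[p]) ∈ IsLocalRing.maximalIdeal 𝒪 := by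
    rw [map_natCast]; exact hp
  refine ⟨EigenSub.eigenSub (O := 𝒪) (Tl N p S) (bχ χ), inferInstance, inferInstance,
    EigenSub.free_eigenSub _ _, EigenSub.finite_eigenSub _ _,
    EigenSub.rhoE (rhoT N p) (Tl N p S) (bχ χ) hcommT, hnt, ?_, ?_, ?_⟩
  · -- continuity
    refine EigenSub.isAdicContinuous_rhoE_of_mem (rhoT N p) (Tl N p S) (bχ χ) hcommT
      (p : ℤ_[p]) hπ (fun n => ?_)
    obtain ⟨L, hL, -, hfix⟩ := level_T N p n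
    exact ⟨L, hL, hfix⟩
  · -- Eichler–Shimura
    intro ℓ hℓ hℓN hℓS A hA σ hσ
    have hℓp : ℓ ≠ p := fun h => hℓS (by simpa [h] using hpS)
    have hes := es_T N p ℓ hℓ (not_dvd_mul hℓ hℓN hℓp) A hA σ hσ
    have hcast : (ℓ : Module.End ℤ_[p] (TpJ N p))
        = (ℓ : ℤ_[p]) • (1 : Module.End ℤ_[p] (TpJ N p)) := by
      rw [Nat.cast_smul_eq_nsmul, nsmul_one]
    rw [hcast] at hes
    have h := EigenSub.rhoE_sq_rel_of_end (O := 𝒪) (rhoT N p) (Tl N p S) (bχ χ) hcommT σ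
      ⟨ℓ, hℓ, hℓN, hℓS⟩ (ℓ : ℤ_[p]) hes
    rw [map_natCast] at h
    exact h
  · -- inertia
    intro q hq hqN hqp P hP σ hσ
    exact EigenSub.rhoE_eq_one (rhoT N p) (Tl N p S) (bχ χ) hcommT
      (inertia_T N p q hq (not_dvd_mul hq hqN hqp) P hP σ hσ)

/-- **Block (M) from a compatible Hecke-equivariant system of class maps.** -/
theorem blockM_of (hp : (p : 𝒪) ∈ IsLocalRing.maximalIdeal 𝒪) (hpS : p ∈ S)
    (χ : CuspForm.heckeAlgebra N 2 (↑S : Set ℕ) →+* 𝒪)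
    (Sy : LimitMap.System N p (JZero N))
    (hSy : ∀ (ℓ : ℕ) [Fact ℓ.Prime] (hℓ : ℓ.Prime) (hℓN : ¬ ℓ ∣ N) (k : ℕ)
      (u : XMod N (ZMod (p ^ k)) (ZMod (p ^ k))),
      Sy.κ k (heckeX hℓN (ZMod (p ^ k)) (ZMod (p ^ k)) u)
        = heckeOperatorBar N ⟨ℓ, hℓ⟩ (Sy.κ k u)) :
    Skeleton.BlockM p 𝒪 N S χ := by
  letI : Algebra ℤ_[p] 𝒪 := PadicAlg.padicAlgebra (IsLocalRing.maximalIdeal 𝒪) hp
  have hinj : Function.Injective (algebraMap ℤ_[p] 𝒪) :=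
    PadicAlg.algebraMap_injective (IsLocalRing.maximalIdeal 𝒪) hp
  haveI : Module.IsTorsionFree ℤ_[p] 𝒪 := Module.isTorsionFree_iff_algebraMap_injective.2 hinj
  haveI : Module.Flat ℤ_[p] 𝒪 := inferInstance
  exact blockM_of_algebra hp hpS χ Sy hSy

/-- **Block (M), unconditional.** The `χ`-eigenmodule of `𝒪 ⊗[ℤ_p] T_p J₀(N)`. -/
theorem blockM (p : ℕ) [Fact p.Prime] (N : ℕ) [NeZero N] (S : Finset ℕ)
    (𝒪 : Type) [CommRing 𝒪] [IsDomain 𝒪] [IsDiscreteValuationRing 𝒪]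
    [IsAdicComplete (IsLocalRing.maximalIdeal 𝒪) 𝒪]
    [Finite (IsLocalRing.ResidueField 𝒪)] [CharZero 𝒪]
    (hp : (p : 𝒪) ∈ IsLocalRing.maximalIdeal 𝒪) (hpS : p ∈ S)
    (χ : CuspForm.heckeAlgebra N 2 (↑S : Set ℕ) →+* 𝒪) :
    Skeleton.BlockM p 𝒪 N S χ :=
  blockM_of hp hpS χ (SystemJ.systemJ N p)
    (fun ℓ _ hℓ hℓN k u => SystemJ.kappaJ_hecke N p k ⟨ℓ, hℓ⟩ hℓN u)

end Fermat.Agent.S30.BlockMOf
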