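import Mathlib
import Fermat.Agent.S29.Kummer.BlocksC
import Fermat.Agent.S29.Hk.BlockKCC

/-!
# S30: the Kummer class map over `ℂ` for a GENERAL exponent `n ≥ 1`

`Kummer/ClassMapC.exists_cls` and `Hk/Equivariance` are stated for a prime exponent `p`
(`[Fact p.Prime]`, used only through `0 < p`).  The ledger `ClassMapC.Blocks N n Φ`, the
Eisenstein multipliers `Eis.charOf`, the multiplier law `HeckeProd.compMer_heckeProd_stdAddChar` and
the abstract `Kummer/Forward` are already general in `[NeZero n]`.  Here: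

* `exists_wit`, `exists_cls` : the class map `cls_n : P →ₗ[ZMod n] Pic⁰(F_ℂ)[n]`, injective, computed
  by every witness, for every `n ≥ 1` and every `P ≤ admSub N n`;
* `wit_hecke`, `cls_heckeHom` : Hecke equivariance;
* `red`, `wit_pow`, `cls_red` : LEVEL COMPATIBILITY
  `cls_n (u mod n) = m • cls_{n m} u` (a witness `(y, f, D)` of `u` at level `n m` gives the witness
  `(y ^ m, f, m • D)` of `u mod n` at level `n`);
* `exists_system` : everything at the concrete bridge `PhiC N`, unconditionally.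
-/

set_option autoImplicit false
set_option linter.unusedSectionVars false
set_option linter.style.haveILetI false

noncomputable section

namespace Fermat.Agent.S30.ClassMapN

open AlgebraicCurve ModularCurve CongruenceSubgroup
open Fermat.Agent.S24 Fermat.Agent.S24.PsiLe
open Fermat.Agent.S29.Eis Fermat.Agent.S29.Kummer.Forward Fermat.Agent.S29.Kummer.ClassMapC
open Fermat.Agent.S29.Hk.HeckeProd Fermat.Agent.S29.Hk.Equivariant Fermat.Agent.S29.Betti
open Fermat.Agent.S29.HeckeInputsL Fermat.Agent.S29.Hk.Equivariance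
open scoped MatrixGroups

local instance instPrinN (M : ℕ) [NeZero M] : HasPrincipalDivisors ℂ (FC M) :=
  hasPrincipalDivisors_L ℂ M

section General

variable {N n : ℕ} [NeZero N] [NeZero n]

/-- the witness predicate at exponent `n`. -/
abbrev WitN (n : ℕ) [NeZero n] (Φ : FC N →+* Mer) (u : Additive (Gamma0 N) →+ ZMod n) (y : Mer)
    (f : FC N) (D : Divisor ℂ (FC N)) : Prop :=
  Wit Φ (algebraMap ℂ Mer) (fun γ : Gamma0 N => compMer (γ : SL(2, ℤ))) n
    (fun γ => charOf u γ) y f D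

/-- every admissible character has a witness (general exponent). -/
theorem exists_wit {Φ : FC N →+* Mer} (hB : Blocks N n Φ) (u : Additive (Gamma0 N) →+ ZMod n)
    (hu : IsAdmHom u) : ∃ (y : Mer) (f : FC N) (D : Divisor ℂ (FC N)), WitN n Φ u y f D := by
  have hp0 : 0 < n := NeZero.pos n
  obtain ⟨y, hy0, hymult, hycusp⟩ := hB.eis u hu
  have hinv : ∀ γ : Gamma0 N, compMer (γ : SL(2, ℤ)) (y ^ n) = y ^ n := by
    intro γ
    rw [map_pow, hymult γ, mul_pow, ← map_pow, charOf_pow, map_one, one_mul]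
  have hcusp : ∀ g : SL(2, ℤ), compMer g (y ^ n) ∈ MerInf N := by
    intro g
    rw [map_pow]
    exact pow_mem (hycusp g) n
  obtain ⟨f, hf⟩ := hB.conv (y ^ n) hinv hcusp
  have hdvd : ∀ Q : Place ℂ (FC N), (n : ℤ) ∣ Q.ord f := by
    refine hB.dict y hy0 f hf ?_ ?_ hycusp
    · intro γ hγ h12
      have hfin : IsOfFinOrder (⟨γ, hγ⟩ : Gamma0 N) := by
        rw [isOfFinOrder_iff_pow_eq_one]
        exact ⟨12, by norm_num, Subtype.ext h12⟩
      have h1 := hymult ⟨γ, hγ⟩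
      rw [(charOf_eq_one_iff _ _).mpr (hu ⟨γ, hγ⟩ (Or.inr hfin)), Units.val_one, map_one,
        one_mul] at h1
      exact h1
    · intro γ hγ htr
      have h4 : (((⟨γ, hγ⟩ : Gamma0 N) : SL(2, ℤ)) : Matrix (Fin 2) (Fin 2) ℤ).trace ^ 2 = 4 := by
        show (γ : Matrix (Fin 2) (Fin 2) ℤ).trace ^ 2 = 4
        rw [htr]
        norm_num
      have h1 := hymult ⟨γ, hγ⟩
      rw [(charOf_eq_one_iff _ _).mpr (hu ⟨γ, hγ⟩ (Or.inl h4)), Units.val_one, map_one,
        one_mul] at h1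
      exact h1
  have hf0 : f ≠ 0 := by
    rintro rfl
    rw [map_zero] at hf
    exact hy0 ((pow_eq_zero_iff hp0.ne').1 hf.symm)
  obtain ⟨D, hD⟩ := exists_divisor_div (K := ℂ) (n := n) hf0 hdvd
  exact ⟨y, f, D, ⟨hy0, hymult, hf.symm, hD⟩⟩

/-- **The Kummer class map over `ℂ` at a general exponent `n`**: injective, `ZMod n`-linear,
computed by every witness. -/
theorem exists_cls {Φ : FC N →+* Mer} (hB : Blocks N n Φ)
    (P : Submodule (ZMod n) (Additive (Gamma0 N) →+ ZMod n)) (hP : P ≤ admSub N n) :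
    ∃ cls : P →ₗ[ZMod n] Pic0.torsion ℂ (FC N) n, Function.Injective cls ∧
      ∀ (u : P) (y : Mer) (f : FC N) (D : Divisor ℂ (FC N)),
        WitN n Φ (u : Additive (Gamma0 N) →+ ZMod n) y f D →
        ∃ hD : D ∈ Divisor.degZero (K := ℂ) (F := FC N),
          ((cls u : Pic0.torsion ℂ (FC N) n) : Pic0 ℂ (FC N)) = Pic0.mk ⟨D, hD⟩ := by
  have hp0 : 0 < n := NeZero.pos n
  have hζ : IsPrimitiveRoot (Complex.exp (2 * Real.pi * Complex.I / n)) n :=
    Complex.isPrimitiveRoot_exp n hp0.ne'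
  have hroot : ∀ a : ℂ, ∃ b : ℂ, b ^ n = a := fun a => IsAlgClosed.exists_pow_nat_eq a hp0
  have hρι : ∀ (γ : Gamma0 N) (a : ℂ),
      compMer (γ : SL(2, ℤ)) (algebraMap ℂ Mer a) = algebraMap ℂ Mer a := by
    intro γ a
    have h1 := hB.phi_inv γ (algebraMap ℂ (FC N) a)
    rwa [hB.phi_const] at h1
  have hX : ∀ u : P, ∃ (y : Mer) (f : FC N), y ≠ 0 ∧
      (∀ γ : Gamma0 N, compMer (γ : SL(2, ℤ)) y =
        algebraMap ℂ Mer ((multHom P (Multiplicative.ofAdd u) γ : ℂˣ) : ℂ) * y) ∧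
      y ^ n = Φ f ∧ ∀ Q : Place ℂ (FC N), (n : ℤ) ∣ Q.ord f := by
    intro u
    obtain ⟨y, f, D, hW⟩ := exists_wit hB (u : Additive (Gamma0 N) →+ ZMod n) (hP u.2)
    refine ⟨y, f, hW.ne_zero, hW.mult, hW.pow_eq, fun Q => ⟨D Q, ?_⟩⟩
    exact (hW.div_eq Q).symm
  obtain ⟨e, he, hspec⟩ := exists_kummer_addHom (K := ℂ) (F := FC N) (M := Mer) (Γ := Gamma0 N)
    Φ (algebraMap ℂ Mer) (fun γ : Gamma0 N => compMer (γ : SL(2, ℤ))) hp0
    hB.phi_const hρι hB.phi_inv hζ hroot hB.const hB.root (multHom P) (multHom_injective P) hX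
  refine ⟨e.toZModLinearMap n, he, ?_⟩
  intro u y f D hw
  exact hspec u y f D hw

/-! ### Hecke equivariance -/

section Hecke

variable {ℓ : ℕ} [hℓ : Fact ℓ.Prime]

local instance instNeZeroLN : NeZero ℓ := ⟨hℓ.out.ne_zero⟩

/-- **the Hecke transform of a witness** (general exponent). -/
theorem wit_hecke (hℓN : ¬ ℓ ∣ N) {Φ : FC N →+* Mer}
    (hA : ∀ f : FC N, Φ (heckeNormC N ℓ f) = heckeProd ℓ (Φ f))
    {u : Additive (Gamma0 N) →+ ZMod n} {y : Mer} {f : FC N} {D : Divisor ℂ (FC N)}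
    (h : WitN n Φ u y f D) :
    WitN n Φ (heckeHom hℓN (ZMod n) u) (heckeProd ℓ y) (heckeNormC N ℓ f) (heckeDivC N ℓ D) where
  ne_zero := heckeProd_ne_zero h.ne_zero
  mult γ := by
    have h1 := compMer_heckeProd_stdAddChar hℓN u y (fun δ => h.mult δ) γ
    exact h1
  pow_eq := by rw [← map_pow, h.pow_eq, hA]
  div_eq P := by
    have hE : ∀ v : Place ℂ (FC N), ((n : ℤ) • D) v = v.ord f := by
      intro v
      rw [Finsupp.smul_apply, smul_eq_mul, h.div_eq]
    have h1 := correspondence_apply_of_ord (heckeAlphaBar ℂ N ℓ) (heckeBetaBar ℂ N ℓ)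
      (heckeAlphaBarIntegral ℂ N ℓ) (heckeBetaBarIntegral ℂ N ℓ) (finiteAlong_alpha ℂ N ℓ)
      (normFormulaAlong_alpha ℂ N ℓ) h.f_ne_zero hE P
    rw [map_zsmul, Finsupp.smul_apply, smul_eq_mul] at h1
    exact h1

/-- **Hecke equivariance of the class map at a general exponent.** -/
theorem cls_heckeHom (hℓN : ¬ ℓ ∣ N) {Φ : FC N →+* Mer} (hB : Blocks N n Φ)
    (hA : ∀ f : FC N, Φ (heckeNormC N ℓ f) = heckeProd ℓ (Φ f))
    (P : Submodule (ZMod n) (Additive (Gamma0 N) →+ ZMod n)) (hP : P ≤ admSub N n)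
    (cls : P → Pic0 ℂ (FC N))
    (hspec : ∀ (u : P) (y : Mer) (f : FC N) (D : Divisor ℂ (FC N)),
      WitN n Φ (u : Additive (Gamma0 N) →+ ZMod n) y f D →
      ∃ hD : D ∈ Divisor.degZero (K := ℂ) (F := FC N), cls u = Pic0.mk ⟨D, hD⟩)
    (u : P) (hu : heckeHom hℓN (ZMod n) (u : Additive (Gamma0 N) →+ ZMod n) ∈ P) :
    cls ⟨heckeHom hℓN (ZMod n) (u : Additive (Gamma0 N) →+ ZMod n), hu⟩ =
      heckeOperatorAlong ℂ N ℓ (cls u) := by
  obtain ⟨y, f, D, hW⟩ := exists_wit hB (u : Additive (Gamma0 N) →+ ZMod n) (hP u.2)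
  obtain ⟨hD, h1⟩ := hspec u y f D hW
  obtain ⟨hD', h2⟩ := hspec ⟨heckeHom hℓN (ZMod n) (u : Additive (Gamma0 N) →+ ZMod n), hu⟩ _ _ _
    (wit_hecke hℓN hA hW)
  rw [h1, h2, heckeOperatorAlong_mk D hD hD']

end Hecke

end General

/-! ### Level compatibility -/

section Level

variable {N : ℕ} [NeZero N] (n m : ℕ) [NeZero n] [NeZero m]

local instance instNeZeroMul : NeZero (n * m) := ⟨mul_ne_zero (NeZero.ne n) (NeZero.ne m)⟩

/-- reduction of characters modulo `n`. -/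
def red (u : Additive (Gamma0 N) →+ ZMod (n * m)) : Additive (Gamma0 N) →+ ZMod n :=
  (ZMod.castHom (dvd_mul_right n m) (ZMod n)).toAddMonoidHom.comp u

@[simp] theorem red_apply (u : Additive (Gamma0 N) →+ ZMod (n * m)) (γ : Additive (Gamma0 N)) :
    red n m u γ = ZMod.castHom (dvd_mul_right n m) (ZMod n) (u γ) := rfl

theorem stdAddChar_castHom (x : ZMod (n * m)) :
    ZMod.stdAddChar (ZMod.castHom (dvd_mul_right n m) (ZMod n) x) = ZMod.stdAddChar x ^ m := by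
  obtain ⟨j, rfl⟩ := ZMod.intCast_surjective x
  rw [map_intCast, ZMod.stdAddChar_coe, ZMod.stdAddChar_coe, ← Complex.exp_nat_mul]
  congr 1
  have hn : (n : ℂ) ≠ 0 := Nat.cast_ne_zero.mpr (NeZero.ne n)
  have hm : (m : ℂ) ≠ 0 := Nat.cast_ne_zero.mpr (NeZero.ne m)
  push_cast
  field_simp

theorem charOf_red (u : Additive (Gamma0 N) →+ ZMod (n * m)) (γ : Gamma0 N) :
    charOf (red n m u) γ = charOf u γ ^ m := by
  rw [← Units.val_inj, Units.val_pow_eq_pow_val, charOf_apply, charOf_apply, red_apply,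
    stdAddChar_castHom]

theorem isAdmHom_red {u : Additive (Gamma0 N) →+ ZMod (n * m)} (hu : IsAdmHom u) :
    IsAdmHom (red n m u) := by
  intro γ hγ
  rw [red_apply, hu γ hγ, map_zero]

/-- **a witness at level `n m` gives a witness of the reduction at level `n`.** -/
theorem wit_pow {Φ : FC N →+* Mer} {u : Additive (Gamma0 N) →+ ZMod (n * m)} {y : Mer} {f : FC N}
    {D : Divisor ℂ (FC N)} (h : WitN (n * m) Φ u y f D) :
    WitN n Φ (red n m u) (y ^ m) f (m • D) where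
  ne_zero := pow_ne_zero m h.ne_zero
  mult γ := by
    rw [map_pow, h.mult γ, mul_pow, ← map_pow, charOf_red, Units.val_pow_eq_pow_val]
  pow_eq := by rw [← pow_mul, mul_comm m n, h.pow_eq]
  div_eq P := by
    have h1 := h.div_eq P
    rw [Finsupp.smul_apply, nsmul_eq_mul, ← mul_assoc, ← h1]
    push_cast
    ring

/-- **level compatibility of class maps computed by witnesses.** -/
theorem cls_red {Φ : FC N →+* Mer} (hB : Blocks N (n * m) Φ)
    (P : Submodule (ZMod n) (Additive (Gamma0 N) →+ ZMod n))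
    (P' : Submodule (ZMod (n * m)) (Additive (Gamma0 N) →+ ZMod (n * m)))
    (hP' : P' ≤ admSub N (n * m))
    (cls : P → Pic0 ℂ (FC N)) (cls' : P' → Pic0 ℂ (FC N))
    (hspec : ∀ (u : P) (y : Mer) (f : FC N) (D : Divisor ℂ (FC N)),
      WitN n Φ (u : Additive (Gamma0 N) →+ ZMod n) y f D →
      ∃ hD : D ∈ Divisor.degZero (K := ℂ) (F := FC N), cls u = Pic0.mk ⟨D, hD⟩)
    (hspec' : ∀ (u : P') (y : Mer) (f : FC N) (D : Divisor ℂ (FC N)),
      WitN (n * m) Φ (u : Additive (Gamma0 N) →+ ZMod (n * m)) y f D →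
      ∃ hD : D ∈ Divisor.degZero (K := ℂ) (F := FC N), cls' u = Pic0.mk ⟨D, hD⟩)
    (u : P') (hu : red n m (u : Additive (Gamma0 N) →+ ZMod (n * m)) ∈ P) :
    cls ⟨red n m (u : Additive (Gamma0 N) →+ ZMod (n * m)), hu⟩ = m • cls' u := by
  obtain ⟨y, f, D, hW⟩ := exists_wit hB (u : Additive (Gamma0 N) →+ ZMod (n * m)) (hP' u.2)
  obtain ⟨hD, h1⟩ := hspec' u y f D hW
  obtain ⟨hD', h2⟩ := hspec ⟨red n m (u : Additive (Gamma0 N) →+ ZMod (n * m)), hu⟩ _ _ _
    (wit_pow n m hW)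
  rw [h1, h2]
  show Pic0.mk _ = m • (QuotientAddGroup.mk (⟨D, hD⟩ : Divisor.degZero (K := ℂ) (F := FC N)) :
    Pic0 ℂ (FC N))
  rw [← QuotientAddGroup.mk_nsmul]
  rfl

end Level

/-! ### The system at the concrete bridge `PhiC N` -/

section Concrete

open Fermat.Agent.S29.Kummer.BlocksC Fermat.Agent.S29.Hk.BlockKCC

variable (N : ℕ) [NeZero N]

theorem xMod_le_admSub (n : ℕ) : XMod N (ZMod n) (ZMod n) ≤ admSub N n := fun _ hu => hu

/-- the Kummer class map over `ℂ` at level `n`, on helper11's source module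
`XMod N (ZMod n) (ZMod n)`. -/
def clsC (n : ℕ) [NeZero n] :
    XMod N (ZMod n) (ZMod n) →ₗ[ZMod n] Pic0.torsion ℂ (FC N) n :=
  (exists_cls (blocksC N n) (XMod N (ZMod n) (ZMod n)) (xMod_le_admSub N n)).choose

theorem clsC_injective (n : ℕ) [NeZero n] : Function.Injective (clsC N n) :=
  (exists_cls (blocksC N n) (XMod N (ZMod n) (ZMod n)) (xMod_le_admSub N n)).choose_spec.1

/-- SPEC: every witness computes `clsC`. -/
theorem clsC_spec (n : ℕ) [NeZero n] (u : XMod N (ZMod n) (ZMod n)) (y : Mer) (f : FC N)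
    (D : Divisor ℂ (FC N))
    (h : WitN n (Fermat.Agent.S29.ModFunC.PhiC N) (u : Additive (Gamma0 N) →+ ZMod n) y f D) :
    ∃ hD : D ∈ Divisor.degZero (K := ℂ) (F := FC N),
      ((clsC N n u : Pic0.torsion ℂ (FC N) n) : Pic0 ℂ (FC N)) = Pic0.mk ⟨D, hD⟩ :=
  (exists_cls (blocksC N n) (XMod N (ZMod n) (ZMod n)) (xMod_le_admSub N n)).choose_spec.2
    u y f D h

/-- **Hecke equivariance** of `clsC`. -/
theorem clsC_heckeX (n : ℕ) [NeZero n] {ℓ : ℕ} [hℓ : Fact ℓ.Prime] (hℓN : ¬ ℓ ∣ N)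
    (u : XMod N (ZMod n) (ZMod n)) :
    haveI : NeZero ℓ := ⟨hℓ.out.ne_zero⟩
    ((clsC N n (heckeX hℓN (ZMod n) (ZMod n) u) : Pic0.torsion ℂ (FC N) n) : Pic0 ℂ (FC N)) =
      heckeOperatorAlong ℂ N ℓ ((clsC N n u : Pic0.torsion ℂ (FC N) n) : Pic0 ℂ (FC N)) := by
  haveI : NeZero ℓ := ⟨hℓ.out.ne_zero⟩
  exact cls_heckeHom hℓN (blocksC N n) (hA_PhiC N ℓ hℓN) (XMod N (ZMod n) (ZMod n))
    (xMod_le_admSub N n)
    (fun v => ((clsC N n v : Pic0.torsion ℂ (FC N) n) : Pic0 ℂ (FC N))) (clsC_spec N n) u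
    (heckeX hℓN (ZMod n) (ZMod n) u).2

/-- reduction `XMod N (ZMod (n m)) → XMod N (ZMod n)`. -/
def redX (n m : ℕ) [NeZero n] [NeZero m] (u : XMod N (ZMod (n * m)) (ZMod (n * m))) :
    XMod N (ZMod n) (ZMod n) :=
  ⟨red n m (u : Additive (Gamma0 N) →+ ZMod (n * m)), fun γ hγ => by
    rw [red_apply, u.2 γ hγ, map_zero]⟩

@[simp] theorem redX_coe (n m : ℕ) [NeZero n] [NeZero m]
    (u : XMod N (ZMod (n * m)) (ZMod (n * m))) :
    ((redX N n m u : XMod N (ZMod n) (ZMod n)) : Additive (Gamma0 N) →+ ZMod n) =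
      red n m (u : Additive (Gamma0 N) →+ ZMod (n * m)) := rfl

theorem redX_add (n m : ℕ) [NeZero n] [NeZero m] (u v : XMod N (ZMod (n * m)) (ZMod (n * m))) :
    redX N n m (u + v) = redX N n m u + redX N n m v := by
  apply Subtype.ext
  refine AddMonoidHom.ext fun γ => ?_
  show ZMod.castHom (dvd_mul_right n m) (ZMod n) ((u + v : XMod N _ _).1 γ) = _
  rw [Submodule.coe_add, AddMonoidHom.add_apply, map_add]
  rfl

/-- **level compatibility** of `clsC`: `cls_n (u mod n) = m • cls_{n m} u`. -/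
theorem clsC_redX (n m : ℕ) [NeZero n] [NeZero m] [NeZero (n * m)]
    (u : XMod N (ZMod (n * m)) (ZMod (n * m))) :
    ((clsC N n (redX N n m u) : Pic0.torsion ℂ (FC N) n) : Pic0 ℂ (FC N)) =
      m • ((clsC N (n * m) u : Pic0.torsion ℂ (FC N) (n * m)) : Pic0 ℂ (FC N)) :=
  cls_red n m (blocksC N (n * m)) (XMod N (ZMod n) (ZMod n))
    (XMod N (ZMod (n * m)) (ZMod (n * m))) (xMod_le_admSub N (n * m))
    (fun v => ((clsC N n v : Pic0.torsion ℂ (FC N) n) : Pic0 ℂ (FC N)))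
    (fun v => ((clsC N (n * m) v : Pic0.torsion ℂ (FC N) (n * m)) : Pic0 ℂ (FC N)))
    (clsC_spec N n) (clsC_spec N (n * m)) u (redX N n m u).2

end Concrete

end Fermat.Agent.S30.ClassMapN

end
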