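import Mathlib
import Fermat.Agent.S30.KappaBar
import Fermat.Agent.S30.KumCompat

/-!
# S30: the Kummer class maps over `ℚ̄`, for every exponent

`kappa N n : XN N n →+ JZero N` (`XN N n` = admissible `ZMod n`-valued characters of `Γ₀(N)`):
the descent (`KappaBar.kappaBar`) of the class map `KummerN.eN N n` over `ℂ`.

* `bcQC_kappa` : `bcQC N (kappa N n u) = eN N n u`;
* `kappa_torsion`, `kappa_injective`;
* `kappa_hecke` : `kappa N n (heckeXN N n ℓ hℓN u) = heckeOperatorBar N ⟨ℓ, _⟩ (kappa N n u)`;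
* `kappa_red` : `kappa N n (redXN N n m u) = m • kappa N (n * m) u`;
* the `p`-power tower: `kappaPow N p k := kappa N (p ^ k)`, `redPow`, `kappaPow_compat`,
  `kappaPow_hecke`, `kappaPow_injective`, `kappaPow_torsion`, `redPow_hecke`.
-/

set_option autoImplicit false
set_option linter.unusedSectionVars false
set_option linter.style.haveILetI false

noncomputable section

open AlgebraicCurve ModularCurve CongruenceSubgroup

namespace Fermat.Agent.S30.KappaBarInst

open Fermat.Agent.S29.HeckeInputsL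
open Fermat.Agent.S30.KappaBar Fermat.Agent.S30.KummerN Fermat.Agent.S30.KumCompat

section General

variable (N n : ℕ) [NeZero N] [NeZero n]

/-- the class map over `ℂ`, with values in `Pic⁰`. -/
def eC : XN N n →+ Pic0 ℂ (FL ℂ N) :=
  (AddSubgroup.subtype (Pic0.torsion ℂ (FL ℂ N) n)).comp (eN N n)

@[simp] theorem eC_apply (u : XN N n) :
    eC N n u = ((eN N n u : Pic0.torsion ℂ (FL ℂ N) n) : Pic0 ℂ (FL ℂ N)) := rfl

theorem eC_torsion (u : XN N n) : n • eC N n u = 0 := by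
  have h := Pic0.mem_torsion.mp (eN N n u).2
  rw [natCast_zsmul] at h
  exact h

theorem eC_injective : Function.Injective (eC N n) := fun _ _ h =>
  eN_injective N n (Subtype.ext h)

/-- **the Kummer class map over `ℚ̄`** for the exponent `n`. -/
def kappa : XN N n →+ JZero N :=
  kappaBar (Nat.pos_of_ne_zero (NeZero.ne n)) (eC N n) (eC_torsion N n)

@[simp] theorem bcQC_kappa (u : XN N n) :
    bcQC N (kappa N n u) = ((eN N n u : Pic0.torsion ℂ (FL ℂ N) n) : Pic0 ℂ (FL ℂ N)) :=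
  bcQC_kappaBar _ _ _ u

theorem kappa_torsion (u : XN N n) : n • kappa N n u = 0 :=
  kappaBar_torsion _ _ _ u

theorem kappa_mem_torsion (u : XN N n) :
    kappa N n u ∈ Pic0.torsion (AlgebraicClosure ℚ) (modularFunctionFieldBar N) n := by
  rw [Pic0.mem_torsion, natCast_zsmul]
  exact kappa_torsion N n u

theorem kappa_injective : Function.Injective (kappa N n) :=
  kappaBar_injective _ _ _ (eC_injective N n)

/-- **Hecke equivariance over `ℚ̄`.** -/
theorem kappa_hecke (ℓ : ℕ) [hℓ : Fact ℓ.Prime] (hℓN : ¬ ℓ ∣ N) (u : XN N n) :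
    kappa N n (heckeXN N n ℓ hℓN u) = heckeOperatorBar N ⟨ℓ, hℓ.out⟩ (kappa N n u) := by
  haveI : NeZero ℓ := ⟨hℓ.out.ne_zero⟩
  exact kappaBar_hecke _ (eC N n) (eC_torsion N n) ⟨ℓ, hℓ.out⟩ (heckeXN N n ℓ hℓN)
    (fun v => (eN_hecke N n ℓ hℓN v).symm) u

/-- **level compatibility over `ℚ̄`**: `κ_n (u mod n) = m • κ_{n m} u`. -/
theorem kappa_red (m : ℕ) [NeZero m] (u : XN N (n * m)) :
    kappa N n (redXN N n m u) = m • kappa N (n * m) u :=
  kappaBar_compat _ _ (eC N n) (eC_torsion N n) (eC N (n * m)) (eC_torsion N (n * m))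
    (redXN N n m) m (fun v => eN_red N n m v) u

end General

/-! ### the `p`-power tower -/

section Tower

variable (N p : ℕ) [NeZero N] [hp : Fact p.Prime]

theorem neZero_pow (k : ℕ) : NeZero (p ^ k) := ⟨pow_ne_zero k hp.out.ne_zero⟩

theorem neZero_prime : NeZero p := ⟨hp.out.ne_zero⟩

attribute [local instance] neZero_pow neZero_prime

/-- the class map at level `p ^ k`. -/
def kappaPow (k : ℕ) : XN N (p ^ k) →+ JZero N := kappa N (p ^ k)

/-- reduction `X(ℤ/p^(k+1)) → X(ℤ/p^k)`. -/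
def redPow (k : ℕ) : XN N (p ^ (k + 1)) →+ XN N (p ^ k) := redXN N (p ^ k) p

theorem coe_redPow (k : ℕ) (u : XN N (p ^ (k + 1))) (γ : Additive (Gamma0 N)) :
    ((redPow N p k u : XN N (p ^ k)) : Additive (Gamma0 N) →+ ZMod (p ^ k)) γ =
      ZMod.castHom (pow_dvd_pow p k.le_succ) (ZMod (p ^ k))
        ((u : Additive (Gamma0 N) →+ ZMod (p ^ (k + 1))) γ) := rfl

theorem kappaPow_torsion (k : ℕ) (u : XN N (p ^ k)) : p ^ k • kappaPow N p k u = 0 :=
  kappa_torsion N (p ^ k) u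

theorem kappaPow_injective (k : ℕ) : Function.Injective (kappaPow N p k) :=
  kappa_injective N (p ^ k)

theorem kappaPow_hecke (k : ℕ) (ℓ : ℕ) [hℓ : Fact ℓ.Prime] (hℓN : ¬ ℓ ∣ N) (u : XN N (p ^ k)) :
    kappaPow N p k (heckeXN N (p ^ k) ℓ hℓN u) =
      heckeOperatorBar N ⟨ℓ, hℓ.out⟩ (kappaPow N p k u) :=
  kappa_hecke N (p ^ k) ℓ hℓN u

/-- **compatibility in the tower**: `κ_k (u mod p^k) = p • κ_{k+1} u`. -/
theorem kappaPow_compat (k : ℕ) (u : XN N (p ^ (k + 1))) :
    kappaPow N p k (redPow N p k u) = p • kappaPow N p (k + 1) u :=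
  kappa_red N (p ^ k) p u

theorem redPow_hecke (k : ℕ) (ℓ : ℕ) [Fact ℓ.Prime] (hℓN : ¬ ℓ ∣ N) (u : XN N (p ^ (k + 1))) :
    redPow N p k (heckeXN N (p ^ (k + 1)) ℓ hℓN u) = heckeXN N (p ^ k) ℓ hℓN (redPow N p k u) :=
  redXN_hecke N (p ^ k) p ℓ hℓN u

/-- `κ_0 = 0` (level `p^0 = 1`). -/
theorem kappaPow_zero (u : XN N (p ^ 0)) : kappaPow N p 0 u = 0 := by
  have h := kappaPow_torsion N p 0 u
  generalize kappaPow N p 0 u = x at h
  rwa [pow_zero, one_smul] at h

end Tower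

end Fermat.Agent.S30.KappaBarInst

end
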