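import Mathlib
import Fermat.Agent.S30.LimitMap
import Fermat.Agent.S30.EigenChar

set_option autoImplicit false

/-!
# S30, leaf (B1'): `χ` occurs in `𝒪' ⊗ T_p(A)`, for the Hecke algebra away from `S`

`LimitMap.exists_eigen_tate` restated over an arbitrary family of good primes (the eigen-equation
of `EigenChar.exists_eigen_XMod` is only available for `ℓ ∉ S`), and combined with
`EigenChar.exists_eigen_XMod`.
-/

namespace Fermat.Agent.S30.LimitMapS

open Fermat.Agent.S29.Betti CongruenceSubgroup Fermat.Agent.S30.LimitMap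
open Fermat.Agent.S30.TateModule Fermat.Agent.S30.TensorEigen
open scoped MatrixGroups TensorProduct

noncomputable section

variable (N : ℕ) [NeZero N] {p : ℕ} [hp : Fact p.Prime] {A : Type*} [AddCommGroup A]
  (Sy : System N p A)

/-- **`χ` occurs in `O ⊗[ℤ_p] T_p(A)`**, for an arbitrary family `g : ι → GoodPrime N` of good
primes. -/
theorem exists_eigen_tate_family {O : Type*} [CommRing O] [Algebra ℤ_[p] O]
    [Module.IsTorsionFree ℤ_[p] O] [Module.Flat ℤ_[p] O]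
    {ι : Type*} (g : ι → GoodPrime N)
    (c : XMod N O O) (hc : c ≠ 0) (b : ι → O)
    (hcb : ∀ i : ι, heckeX (g i).2 O O c = b i • c)
    (TA : ι → A →+ A)
    (hT : ∀ (i : ι) (k : ℕ) (u : XMod N (ZMod (p ^ k)) (ZMod (p ^ k))),
      Sy.κ k (heckeX (g i).2 (ZMod (p ^ k)) (ZMod (p ^ k)) u) = TA i (Sy.κ k u)) :
    ∃ v : O ⊗[ℤ_[p]] tate A p, v ≠ 0 ∧
      ∀ i : ι, (TateModule.map (TA i)).baseChange O v = b i • v := by
  have hc' : (c : Additive (Gamma0 N) →+ O) ≠ 0 := fun h => hc (Subtype.ext h)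
  obtain ⟨w, hw, hwe⟩ := exists_tensor_eigen ℤ_[p] (XMod N ℤ_[p] ℤ_[p])
    (fun i : ι => heckeX (g i).2 ℤ_[p] ℤ_[p])
    (fun i => Fintype.card (OnePoint (ZMod ((g i).1 : ℕ)))) (fun i => stepFin N (g i))
    (by
      intro i u γ
      rw [sum_stepFin]
      rfl)
    (c : Additive (Gamma0 N) →+ O) hc' b
    (by
      intro i γ
      rw [sum_stepFin]
      have := congrArg (fun u : XMod N O O => (u : Additive (Gamma0 N) →+ O)) (hcb i)
      simp only [heckeX_coe] at this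
      rw [this]
      rfl)
    (by
      intro u hu γ hγ
      exact hu _ (c.2 γ hγ))
  exact exists_eigen_of_embedding ℤ_[p] (XMod N ℤ_[p] ℤ_[p])
    (fun i : ι => heckeX (g i).2 ℤ_[p] ℤ_[p]) (e Sy) (e_injective Sy)
    (fun i => TateModule.map (TA i))
    (fun i u => e_heckeX Sy (g i).2 (TA i) (hT i) u) b w hw hwe

/-- **`χ` occurs in `O ⊗[ℤ_p] T_p(A)`**: for a character `χ` of the Hecke algebra away from `S`
with values in a domain `O` of characteristic zero (flat over `ℤ_p`), and a compatible injective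
Hecke-equivariant system of class maps into `A`. -/
theorem exists_eigen_tate_of_char (S : Set ℕ) {O : Type*} [CommRing O] [IsDomain O] [CharZero O]
    [Algebra ℤ_[p] O] [Module.IsTorsionFree ℤ_[p] O] [Module.Flat ℤ_[p] O]
    (χ : CuspForm.heckeAlgebra N 2 S →+* O)
    (TA : ℕ → A →+ A)
    (hT : ∀ (ℓ : ℕ) [Fact ℓ.Prime] (hℓN : ¬ ℓ ∣ N) (k : ℕ)
      (u : XMod N (ZMod (p ^ k)) (ZMod (p ^ k))),
      Sy.κ k (heckeX hℓN (ZMod (p ^ k)) (ZMod (p ^ k)) u) = TA ℓ (Sy.κ k u)) :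
    ∃ v : O ⊗[ℤ_[p]] tate A p, v ≠ 0 ∧
      ∀ (ℓ : ℕ) (hℓ : ℓ.Prime) (hℓN : ¬ ℓ ∣ N) (hℓS : ℓ ∉ S),
        (TateModule.map (TA ℓ)).baseChange O v
          = χ (CuspForm.heckeAlgebra.T hℓ hℓN hℓS) • v := by
  obtain ⟨c, hc, hcb⟩ := Fermat.Agent.S30.EigenChar.exists_eigen_XMod S χ
  let ι : Type := {ℓ : ℕ // ℓ.Prime ∧ ¬ ℓ ∣ N ∧ ℓ ∉ S}
  let g : ι → GoodPrime N := fun i => ⟨⟨i.1, i.2.1⟩, i.2.2.1⟩
  obtain ⟨v, hv, hve⟩ := exists_eigen_tate_family N Sy g c hc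
    (fun i => χ (CuspForm.heckeAlgebra.T i.2.1 i.2.2.1 i.2.2.2))
    (fun i => by
      have : Fact (i.1).Prime := ⟨i.2.1⟩
      exact hcb i.1 i.2.1 i.2.2.1 i.2.2.2)
    (fun i => TA i.1)
    (fun i k u => by
      have : Fact (i.1).Prime := ⟨i.2.1⟩
      exact hT i.1 i.2.2.1 k u)
  exact ⟨v, hv, fun ℓ hℓ hℓN hℓS => hve ⟨ℓ, hℓ, hℓN, hℓS⟩⟩

end

end Fermat.Agent.S30.LimitMapS
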