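import Mathlib
import Fermat.Prelude.Def_CuspForm_HeckeGaloisRepDatum
import Fermat.Agent.S30.PadicAlg
import Fermat.Agent.S30.AdicCyclo

set_option autoImplicit false

/-!
# S30, the top junction (hypothesis style)

From
* the **eigen-package** `E` : a nontrivial finite free `𝒪'`-module with a Galois action `ρE`
  satisfying the exact Eichler–Shimura relation `ρE Φ² - χ(T_ℓ) ρE Φ + ℓ = 0` at Frobenius lifts
  at `ℓ ∉ S`, `ℓ ∤ N`, and trivial on the inertia groups at `q ∤ Np`;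
* the output `t` of the adic power transfer (`ρE g + χ_cyc g • ρE g⁻¹ = t g • 1` for all `g`);
* a two-dimensional `R : GaloisRepAdic 𝒪'` with `charpoly (R.ρ g) = X² - t g X + χ_cyc g` for all `g`,
  trivial wherever `ρE` and `χ_cyc` are,
to the frozen statement S30 with `𝒪'' := 𝒪'`.
-/

open Polynomial CuspForm

namespace Fermat.Agent.S30.TopOf

open Fermat.Agent.S29.Cyclo.ModPChar Fermat.Agent.S30.PadicAlg Fermat.Agent.S30.AdicCyclo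

variable {p : ℕ} [Fact p.Prime] {𝒪' : Type} [CommRing 𝒪'] [IsDomain 𝒪']
  [IsDiscreteValuationRing 𝒪'] [IsAdicComplete (IsLocalRing.maximalIdeal 𝒪') 𝒪']

/-- the cyclotomic character with values in `𝒪'ˣ` -/
noncomputable def chiO (hp𝒪' : (p : 𝒪') ∈ IsLocalRing.maximalIdeal 𝒪') : GQ →* 𝒪'ˣ :=
  chiR (padicHom (IsLocalRing.maximalIdeal 𝒪') hp𝒪')

theorem chiO_frob (hp𝒪' : (p : 𝒪') ∈ IsLocalRing.maximalIdeal 𝒪') {ℓ : ℕ} (hℓ : ℓ.Prime)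
    (hℓp : ℓ ≠ p) (A : ValuationSubring Qb) (hA : A.LiesOverPrime ℓ) (σ : GQ)
    (hσ : A.IsFrobeniusAt σ ℓ) : ((chiO hp𝒪' σ : 𝒪'ˣ) : 𝒪') = (ℓ : 𝒪') :=
  chiR_frob _ hℓ hℓp A hA σ hσ

theorem chiO_inertia (hp𝒪' : (p : 𝒪') ∈ IsLocalRing.maximalIdeal 𝒪') {ℓ : ℕ} (hℓ : ℓ.Prime)
    (hℓp : ℓ ≠ p) (A : ValuationSubring Qb) (hA : A.LiesOverPrime ℓ) (σ : GQ)
    (hσ : σ ∈ A.inertiaSubgroupIn ℚ) : chiO hp𝒪' σ = 1 :=
  chiR_inertia _ hℓ hℓp A hA σ hσ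

theorem chiO_complexConjugation (hp𝒪' : (p : 𝒪') ∈ IsLocalRing.maximalIdeal 𝒪') :
    chiO hp𝒪' complexConjugation = -1 :=
  chiR_complexConjugation _

theorem chiO_level (hp𝒪' : (p : 𝒪') ∈ IsLocalRing.maximalIdeal 𝒪') (k : ℕ) :
    ∃ L : IntermediateField ℚ Qb, FiniteDimensional ℚ L ∧
      ∀ σ : GQ, (∀ x ∈ L, σ x = x) →
        ((chiO hp𝒪' σ : 𝒪'ˣ) : 𝒪') - 1 ∈ IsLocalRing.maximalIdeal 𝒪' ^ k := by
  apply chiR_level
  rw [map_natCast]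
  exact hp𝒪'

section Rel

variable {E : Type*} [AddCommGroup E] [Module 𝒪' E] {G : Type*} [Group G]

omit [IsDomain 𝒪'] [IsDiscreteValuationRing 𝒪']
  [IsAdicComplete (IsLocalRing.maximalIdeal 𝒪') 𝒪'] in
/-- the quadratic relation, from the Eichler–Shimura form to the `ρ g + χ g • ρ g⁻¹` form -/
theorem rel_of_quadratic (ρ : G →* Module.End 𝒪' E) (g : G) (b c : 𝒪')
    (h : ρ g * ρ g - b • ρ g + c • (1 : Module.End 𝒪' E) = 0) :
    ρ g + c • ρ g⁻¹ = b • (1 : Module.End 𝒪' E) := by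
  have h1 : ρ g * ρ g⁻¹ = 1 := by rw [← map_mul, mul_inv_cancel, map_one]
  have h2 := congrArg (fun f => f * ρ g⁻¹) h
  simp only [add_mul, sub_mul, zero_mul, smul_mul_assoc, one_mul, mul_assoc, h1, mul_one] at h2
  rw [sub_add_eq_add_sub, sub_eq_zero] at h2
  exact h2

omit [IsDiscreteValuationRing 𝒪'] [IsAdicComplete (IsLocalRing.maximalIdeal 𝒪') 𝒪'] in
/-- uniqueness of the trace function at a point where the quadratic relation is known -/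
theorem trace_unique [Module.Free 𝒪' E] [Nontrivial E] (ρ : G →* Module.End 𝒪' E) (g : G)
    (a b c : 𝒪') (h1 : ρ g + c • ρ g⁻¹ = a • (1 : Module.End 𝒪' E))
    (h2 : ρ g + c • ρ g⁻¹ = b • (1 : Module.End 𝒪' E)) : a = b := by
  have h3 : (a - b) • (1 : Module.End 𝒪' E) = 0 := by rw [sub_smul, ← h1, ← h2, sub_self]
  obtain ⟨x, hx⟩ := exists_ne (0 : E)
  have h4 : (a - b) • x = 0 := by
    have := congrArg (fun f : Module.End 𝒪' E => f x) h3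
    simpa using this
  rcases smul_eq_zero.mp h4 with h5 | h5
  · exact sub_eq_zero.mp h5
  · exact absurd h5 hx

end Rel

/-- **The top junction**: the frozen statement S30 from the eigen-package, the trace function and
the two-dimensional representation, with `𝒪'' := 𝒪'`. -/
theorem s30_of_package (N : ℕ) [NeZero N] (S : Finset ℕ) (hpS : p ∈ S)
    [Finite (IsLocalRing.ResidueField 𝒪')] [CharZero 𝒪']
    (hp𝒪' : (p : 𝒪') ∈ IsLocalRing.maximalIdeal 𝒪')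
    (χ : CuspForm.heckeAlgebra N 2 (↑S : Set ℕ) →+* 𝒪')
    (E : Type) [AddCommGroup E] [Module 𝒪' E] [Module.Free 𝒪' E] [Nontrivial E]
    (ρE : GQ →* Module.End 𝒪' E)
    (hES : ∀ (ℓ : ℕ) (hℓ : ℓ.Prime) (hℓN : ¬ ℓ ∣ N) (hℓS : ℓ ∉ (↑S : Set ℕ)),
      ∀ A : ValuationSubring Qb, A.LiesOverPrime ℓ → ∀ σ : GQ, A.IsFrobeniusAt σ ℓ →
        ρE σ * ρE σ - χ (CuspForm.heckeAlgebra.T hℓ hℓN hℓS) • ρE σ
          + (ℓ : 𝒪') • (1 : Module.End 𝒪' E) = 0)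
    (hin : ∀ q : ℕ, q.Prime → ¬ q ∣ N → q ≠ p → ∀ P : ValuationSubring Qb, P.LiesOverPrime q →
      ∀ σ ∈ P.inertiaSubgroupIn ℚ, ρE σ = 1)
    (t : GQ → 𝒪')
    (hrel : ∀ g : GQ, ρE g + ((chiO hp𝒪' g : 𝒪'ˣ) : 𝒪') • ρE g⁻¹ = t g • (1 : Module.End 𝒪' E))
    (R : GaloisRepAdic 𝒪')
    (hR1 : ∀ g : GQ, LinearMap.charpoly (R.ρ g) =
      X ^ 2 - C (t g) * X + C ((chiO hp𝒪' g : 𝒪'ˣ) : 𝒪'))
    (hR2 : ∀ g : GQ, ρE g = 1 → chiO hp𝒪' g = 1 → R.ρ g = 1) :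
    ∃ (𝒪'' : Type) (_ : CommRing 𝒪'') (_ : IsDomain 𝒪'') (_ : IsDiscreteValuationRing 𝒪'')
      (_ : IsAdicComplete (IsLocalRing.maximalIdeal 𝒪'') 𝒪'')
      (_ : Finite (IsLocalRing.ResidueField 𝒪'')) (_ : CharZero 𝒪'')
      (_ : Algebra 𝒪' 𝒪'') (_ : Module.Finite 𝒪' 𝒪'') (_ : IsLocalHom (algebraMap 𝒪' 𝒪'')),
    Function.Injective (algebraMap 𝒪' 𝒪'') ∧
    ∃ ρ : GaloisRepAdic 𝒪'',
      (∀ (ℓ : ℕ) (hℓ : ℓ.Prime) (hℓN : ¬ ℓ ∣ N) (hℓS : ℓ ∉ (↑S : Set ℕ)),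
        ∀ A : ValuationSubring (AlgebraicClosure ℚ), A.LiesOverPrime ℓ →
          ∀ σ : AlgebraicClosure ℚ ≃ₐ[ℚ] AlgebraicClosure ℚ, A.IsFrobeniusAt σ ℓ →
            LinearMap.charpoly (ρ.ρ σ) =
              X ^ 2 - C (algebraMap 𝒪' 𝒪'' (χ (CuspForm.heckeAlgebra.T hℓ hℓN hℓS))) * X
                + C ((ℓ : 𝒪''))) ∧
      (∀ q : ℕ, q.Prime → ¬ q ∣ N → q ≠ p → ρ.IsUnramifiedAt q) := by
  refine ⟨𝒪', inferInstance, inferInstance, inferInstance, inferInstance, inferInstance,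
    inferInstance, Algebra.id 𝒪', Module.Finite.self 𝒪', ?_, ?_, R, ?_, ?_⟩
  · rw [Algebra.algebraMap_self]
    exact ⟨fun a ha => ha⟩
  · rw [Algebra.algebraMap_self]
    exact Function.injective_id
  · intro ℓ hℓ hℓN hℓS A hA σ hσ
    have hℓp : ℓ ≠ p := by
      rintro rfl
      exact hℓS (by exact_mod_cast hpS)
    have hχ := chiO_frob hp𝒪' hℓ hℓp A hA σ hσ
    have h1 := rel_of_quadratic ρE σ _ _ (hES ℓ hℓ hℓN hℓS A hA σ hσ)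
    have h2 := hrel σ
    rw [hχ] at h2
    have h3 : t σ = χ (CuspForm.heckeAlgebra.T hℓ hℓN hℓS) := trace_unique ρE σ _ _ _ h2 h1
    rw [hR1 σ, hχ, h3, Algebra.algebraMap_self, RingHom.id_apply]
  · intro q hq hqN hqp P hP σ hσ
    exact hR2 σ (hin q hq hqN hqp P hP σ hσ) (chiO_inertia hp𝒪' hq hqp P hP σ hσ)

end Fermat.Agent.S30.TopOf
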